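import Mathlib
import Fermat.Prelude.Thm_CongruenceSubgroup_one_mem_strictPeriods_Gamma0

set_option autoImplicit false

namespace Fermat.Agent.S23.H2

open UpperHalfPlane CongruenceSubgroup Matrix.SpecialLinearGroup
open scoped MatrixGroups ModularForm

section General

variable {Γ Γ' : Subgroup (GL (Fin 2) ℝ)} {k : ℤ}

/-- Restriction of a modular form to a smaller group (same underlying function). -/
def restrict (h : Γ ≤ Γ') (f : ModularForm Γ' k) : ModularForm Γ k where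
  toFun := f
  slash_action_eq' A hA := f.slash_action_eq' A (h hA)
  holo' := f.holo'
  bdd_at_cusps' hc := f.bdd_at_cusps' (hc.mono h)

@[simp] theorem coe_restrict (h : Γ ≤ Γ') (f : ModularForm Γ' k) :
    (⇑(restrict h f) : ℍ → ℂ) = ⇑f := rfl

theorem restrict_apply (h : Γ ≤ Γ') (f : ModularForm Γ' k) (z : ℍ) : restrict h f z = f z := rfl

/-- Restriction of a cusp form to a smaller group (same underlying function). -/
def restrictCusp (h : Γ ≤ Γ') (f : CuspForm Γ' k) : CuspForm Γ k where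
  toFun := f
  slash_action_eq' A hA := f.slash_action_eq' A (h hA)
  holo' := f.holo'
  zero_at_cusps' hc := f.zero_at_cusps' (hc.mono h)

@[simp] theorem coe_restrictCusp (h : Γ ≤ Γ') (f : CuspForm Γ' k) :
    (⇑(restrictCusp h f) : ℍ → ℂ) = ⇑f := rfl

theorem restrictCusp_apply (h : Γ ≤ Γ') (f : CuspForm Γ' k) (z : ℍ) :
    restrictCusp h f z = f z := rfl

theorem qExpansion_restrict (h : Γ ≤ Γ') (f : ModularForm Γ' k) (p : ℝ) :
    qExpansion p (restrict h f) = qExpansion p f := rfl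

theorem qExpansion_restrictCusp (h : Γ ≤ Γ') (f : CuspForm Γ' k) (p : ℝ) :
    qExpansion p (restrictCusp h f) = qExpansion p f := rfl

end General


section Poly

variable {Γ : Subgroup (GL (Fin 2) ℝ)} [Γ.IsArithmetic]

/-- The modular form `∑ m, c m * e ^ m`, where the `c m` have level one and weights `κ m` with
`κ m + m * w = K`. -/
noncomputable def polyForm (hΓ : Γ ≤ 𝒮ℒ) {w K : ℤ} {μ : ℕ} (κ : Fin μ → ℤ)
    (hκ : ∀ m : Fin μ, κ m + ((m : ℕ) : ℤ) * w = K)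
    (c : ∀ m : Fin μ, ModularForm 𝒮ℒ (κ m)) (e : ModularForm Γ w) : ModularForm Γ K :=
  ∑ m : Fin μ, ModularForm.mcast (hκ m) ((restrict hΓ (c m)).mul (e.pow (m : ℕ)))

theorem coe_polyForm (hΓ : Γ ≤ 𝒮ℒ) {w K : ℤ} {μ : ℕ} (κ : Fin μ → ℤ)
    (hκ : ∀ m : Fin μ, κ m + ((m : ℕ) : ℤ) * w = K)
    (c : ∀ m : Fin μ, ModularForm 𝒮ℒ (κ m)) (e : ModularForm Γ w) :
    (⇑(polyForm hΓ κ hκ c e) : ℍ → ℂ) = ∑ m : Fin μ, ⇑(c m) * ⇑e ^ (m : ℕ) := by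
  unfold polyForm
  rw [← FunLike.coeAddMonoidHom_apply (F := ModularForm Γ K) (α := ℍ) (β := ℂ), map_sum]
  refine Finset.sum_congr rfl fun m _ => ?_
  rw [FunLike.coeAddMonoidHom_apply, ModularForm.coe_mcast, ModularForm.coe_mul,
    ModularForm.coe_pow, coe_restrict]

theorem polyForm_apply (hΓ : Γ ≤ 𝒮ℒ) {w K : ℤ} {μ : ℕ} (κ : Fin μ → ℤ)
    (hκ : ∀ m : Fin μ, κ m + ((m : ℕ) : ℤ) * w = K)
    (c : ∀ m : Fin μ, ModularForm 𝒮ℒ (κ m)) (e : ModularForm Γ w) (z : ℍ) :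
    polyForm hΓ κ hκ c e z = ∑ m : Fin μ, c m z * e z ^ (m : ℕ) := by
  rw [coe_polyForm]
  simp

theorem qExpansion_polyForm (hΓ : Γ ≤ 𝒮ℒ) (h1 : (1 : ℝ) ∈ Γ.strictPeriods) {w K : ℤ} {μ : ℕ}
    (κ : Fin μ → ℤ) (hκ : ∀ m : Fin μ, κ m + ((m : ℕ) : ℤ) * w = K)
    (c : ∀ m : Fin μ, ModularForm 𝒮ℒ (κ m)) (e : ModularForm Γ w) :
    qExpansion 1 (polyForm hΓ κ hκ c e) =
      ∑ m : Fin μ, qExpansion 1 (c m) * qExpansion 1 e ^ (m : ℕ) := by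
  unfold polyForm
  change ModularForm.qExpansionAddHom one_pos h1 K _ = _
  rw [map_sum]
  refine Finset.sum_congr rfl fun m _ => ?_
  change qExpansion 1 (ModularForm.mcast (hκ m) ((restrict hΓ (c m)).mul (e.pow (m : ℕ)))) = _
  rw [ModularForm.qExpansion_mcast, ModularForm.qExpansion_mul one_pos h1,
    ModularForm.qExpansion_pow one_pos h1, qExpansion_restrict]


/-- The cusp form `∑ m, c m * e ^ m`, where the `c m` are level-one cusp forms of weights `κ m`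
with `κ m + m * w = K`. -/
noncomputable def cuspPolyForm (hΓ : Γ ≤ 𝒮ℒ) {w K : ℤ} {μ : ℕ} (κ : Fin μ → ℤ)
    (hκ : ∀ m : Fin μ, κ m + ((m : ℕ) : ℤ) * w = K)
    (c : ∀ m : Fin μ, CuspForm 𝒮ℒ (κ m)) (e : ModularForm Γ w) : CuspForm Γ K :=
  ∑ m : Fin μ, CuspForm.mcast (hκ m) ((restrictCusp hΓ (c m)).mulModularForm (e.pow (m : ℕ)))

theorem coe_cuspPolyForm (hΓ : Γ ≤ 𝒮ℒ) {w K : ℤ} {μ : ℕ} (κ : Fin μ → ℤ)
    (hκ : ∀ m : Fin μ, κ m + ((m : ℕ) : ℤ) * w = K)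
    (c : ∀ m : Fin μ, CuspForm 𝒮ℒ (κ m)) (e : ModularForm Γ w) :
    (⇑(cuspPolyForm hΓ κ hκ c e) : ℍ → ℂ) = ∑ m : Fin μ, ⇑(c m) * ⇑e ^ (m : ℕ) := by
  unfold cuspPolyForm
  rw [← FunLike.coeAddMonoidHom_apply (F := CuspForm Γ K) (α := ℍ) (β := ℂ), map_sum]
  refine Finset.sum_congr rfl fun m _ => ?_
  rw [FunLike.coeAddMonoidHom_apply]
  change ⇑((restrictCusp hΓ (c m)).mulModularForm (e.pow (m : ℕ))) = _
  rw [CuspForm.coe_mulModularForm, ModularForm.coe_pow, coe_restrictCusp]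

theorem cuspPolyForm_apply (hΓ : Γ ≤ 𝒮ℒ) {w K : ℤ} {μ : ℕ} (κ : Fin μ → ℤ)
    (hκ : ∀ m : Fin μ, κ m + ((m : ℕ) : ℤ) * w = K)
    (c : ∀ m : Fin μ, CuspForm 𝒮ℒ (κ m)) (e : ModularForm Γ w) (z : ℍ) :
    cuspPolyForm hΓ κ hκ c e z = ∑ m : Fin μ, c m z * e z ^ (m : ℕ) := by
  rw [coe_cuspPolyForm]
  simp

/-- The q-expansion of a finite sum of products `c m * e ^ m` of functions on `ℍ`, in terms of
modular-form-class data. -/
theorem qExpansion_cuspPolyForm (hΓ : Γ ≤ 𝒮ℒ) (h1 : (1 : ℝ) ∈ Γ.strictPeriods) {w K : ℤ} {μ : ℕ}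
    (κ : Fin μ → ℤ) (hκ : ∀ m : Fin μ, κ m + ((m : ℕ) : ℤ) * w = K)
    (c : ∀ m : Fin μ, CuspForm 𝒮ℒ (κ m)) (e : ModularForm Γ w) :
    qExpansion 1 (cuspPolyForm hΓ κ hκ c e) =
      ∑ m : Fin μ, qExpansion 1 (c m) * qExpansion 1 e ^ (m : ℕ) := by
  -- compare with the modular-form version applied to the `c m` viewed as modular forms
  have hfun : (⇑(cuspPolyForm hΓ κ hκ c e) : ℍ → ℂ) =
      ⇑(polyForm hΓ κ hκ (fun m => ModularFormClass.modularForm (c m)) e) := by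
    rw [coe_cuspPolyForm, coe_polyForm]
    rfl
  rw [hfun, qExpansion_polyForm hΓ h1]
  rfl

end Poly


section Bare

variable {Γ : Subgroup (GL (Fin 2) ℝ)} [Γ.IsArithmetic]

/-- Bare-function variant: the coefficients are functions known to be level-one modular forms. -/
theorem exists_modularForm_eq_sum (hΓ : Γ ≤ 𝒮ℒ) (h1 : (1 : ℝ) ∈ Γ.strictPeriods) {w K : ℤ} {μ : ℕ}
    (κ : Fin μ → ℤ) (hκ : ∀ m : Fin μ, κ m + ((m : ℕ) : ℤ) * w = K)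
    (c : Fin μ → ℍ → ℂ) (hc : ∀ m, ∃ F : ModularForm 𝒮ℒ (κ m), ⇑F = c m) (e : ModularForm Γ w) :
    ∃ A : ModularForm Γ K, (⇑A : ℍ → ℂ) = ∑ m : Fin μ, c m * ⇑e ^ (m : ℕ) ∧
      qExpansion 1 A = ∑ m : Fin μ, qExpansion 1 (c m) * qExpansion 1 e ^ (m : ℕ) := by
  choose F hF using hc
  refine ⟨polyForm hΓ κ hκ F e, ?_, ?_⟩
  · rw [coe_polyForm]
    exact Finset.sum_congr rfl fun m _ => by rw [hF m]
  · rw [qExpansion_polyForm hΓ h1]
    exact Finset.sum_congr rfl fun m _ => by rw [hF m]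

/-- Bare-function variant for cusp forms. -/
theorem exists_cuspForm_eq_sum (hΓ : Γ ≤ 𝒮ℒ) (h1 : (1 : ℝ) ∈ Γ.strictPeriods) {w K : ℤ} {μ : ℕ}
    (κ : Fin μ → ℤ) (hκ : ∀ m : Fin μ, κ m + ((m : ℕ) : ℤ) * w = K)
    (c : Fin μ → ℍ → ℂ) (hc : ∀ m, ∃ F : CuspForm 𝒮ℒ (κ m), ⇑F = c m) (e : ModularForm Γ w) :
    ∃ A : CuspForm Γ K, (⇑A : ℍ → ℂ) = ∑ m : Fin μ, c m * ⇑e ^ (m : ℕ) ∧
      qExpansion 1 A = ∑ m : Fin μ, qExpansion 1 (c m) * qExpansion 1 e ^ (m : ℕ) := by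
  choose F hF using hc
  refine ⟨cuspPolyForm hΓ κ hκ F e, ?_, ?_⟩
  · rw [coe_cuspPolyForm]
    exact Finset.sum_congr rfl fun m _ => by rw [hF m]
  · rw [qExpansion_cuspPolyForm hΓ h1]
    exact Finset.sum_congr rfl fun m _ => by rw [hF m]

end Bare

section Gamma0

variable (N : ℕ)

theorem gamma0_le_SL : ((Gamma0 N : Subgroup SL(2, ℤ)) : Subgroup (GL (Fin 2) ℝ)) ≤ 𝒮ℒ := by
  rintro _ ⟨g, -, rfl⟩
  exact ⟨g, rfl⟩

theorem one_mem_strictPeriods_gamma0 :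
    (1 : ℝ) ∈ ((Gamma0 N : Subgroup SL(2, ℤ)) : Subgroup (GL (Fin 2) ℝ)).strictPeriods :=
  CongruenceSubgroup.one_mem_strictPeriods_Gamma0 N

variable [NeZero N]

/-- Level-one modular form viewed as a form on `Γ₀(N)`. -/
def restrictGamma0 {k : ℤ} (f : ModularForm 𝒮ℒ k) : ModularForm (Gamma0 N) k :=
  restrict (gamma0_le_SL N) f

/-- Level-one cusp form viewed as a cusp form on `Γ₀(N)`. -/
def restrictCuspGamma0 {k : ℤ} (f : CuspForm 𝒮ℒ k) : CuspForm (Gamma0 N) k :=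
  restrictCusp (gamma0_le_SL N) f

omit [NeZero N] in
@[simp] theorem coe_restrictGamma0 {k : ℤ} (f : ModularForm 𝒮ℒ k) :
    (⇑(restrictGamma0 N f) : ℍ → ℂ) = ⇑f := rfl

omit [NeZero N] in
@[simp] theorem coe_restrictCuspGamma0 {k : ℤ} (f : CuspForm 𝒮ℒ k) :
    (⇑(restrictCuspGamma0 N f) : ℍ → ℂ) = ⇑f := rfl

/-- Polynomial in `e` with level-one modular coefficients, in the indexing used by the assembly:
`cm m` has weight `k0 + (μ - 1 - m) * w`, the result has weight `k0 + (μ - 1) * w`. -/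
theorem exists_polyForm (k0 w : ℤ) (μ : ℕ)
    (cm : (m : Fin μ) → ModularForm 𝒮ℒ (k0 + ((μ : ℤ) - 1 - ((m : ℕ) : ℤ)) * w))
    (e : ModularForm (Gamma0 N) w) :
    ∃ A : ModularForm (Gamma0 N) (k0 + ((μ : ℤ) - 1) * w),
      (∀ z, A z = ∑ m : Fin μ, cm m z * e z ^ (m : ℕ)) ∧
      qExpansion 1 A = ∑ m : Fin μ, qExpansion 1 (cm m) * qExpansion 1 e ^ (m : ℕ) :=
  ⟨polyForm (gamma0_le_SL N) _ (fun m => by ring) cm e,
    polyForm_apply (gamma0_le_SL N) _ _ cm e,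
    qExpansion_polyForm (gamma0_le_SL N) (one_mem_strictPeriods_gamma0 N) _ _ cm e⟩

/-- Cusp-form version of `exists_polyForm`. -/
theorem exists_cuspPolyForm (k0 w : ℤ) (μ : ℕ)
    (cm : (m : Fin μ) → CuspForm 𝒮ℒ (k0 + ((μ : ℤ) - 1 - ((m : ℕ) : ℤ)) * w))
    (e : ModularForm (Gamma0 N) w) :
    ∃ A : CuspForm (Gamma0 N) (k0 + ((μ : ℤ) - 1) * w),
      (∀ z, A z = ∑ m : Fin μ, cm m z * e z ^ (m : ℕ)) ∧
      qExpansion 1 A = ∑ m : Fin μ, qExpansion 1 (cm m) * qExpansion 1 e ^ (m : ℕ) :=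
  ⟨cuspPolyForm (gamma0_le_SL N) _ (fun m => by ring) cm e,
    cuspPolyForm_apply (gamma0_le_SL N) _ _ cm e,
    qExpansion_cuspPolyForm (gamma0_le_SL N) (one_mem_strictPeriods_gamma0 N) _ _ cm e⟩

end Gamma0

end Fermat.Agent.S23.H2
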