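import Mathlib
import Fermat.Prelude.Def_ModularForm_HeckeOperator
import Fermat.Prelude.Def_FLTPrelim_Modularity
import Fermat.Prelude.Thm_UpperHalfPlane_qCoeff_heckeT
import Fermat.Prelude.Thm_CongruenceSubgroup_one_mem_strictPeriods_Gamma0

set_option autoImplicit false

open UpperHalfPlane CongruenceSubgroup ModularForm Matrix Filter
open scoped MatrixGroups ModularForm Manifold Pointwise Real

namespace Fermat.Agent.S23.H85

noncomputable section

section Conj

variable (N : ℕ)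

/-- For `γ ∈ Γ₀(N)` with `γ 1 0 = N * c'`, the integral matrix `α γ α⁻¹`, `α = diag(N,1)`. -/
def conjMat (γ : SL(2, ℤ)) (c' : ℤ) (hc : γ 1 0 = N * c') : SL(2, ℤ) :=
  ⟨!![γ 0 0, N * γ 0 1; c', γ 1 1], by
    have := γ.det_coe
    rw [Matrix.det_fin_two] at this
    rw [Matrix.det_fin_two_of]
    rw [hc] at this
    linarith⟩

@[simp] lemma conjMat_coe (γ : SL(2, ℤ)) (c' : ℤ) (hc : γ 1 0 = N * c') :
    ((conjMat N γ c' hc : SL(2, ℤ)) : Matrix (Fin 2) (Fin 2) ℤ) =
      !![γ 0 0, N * γ 0 1; c', γ 1 1] := rfl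

variable [NeZero N]

lemma conjMat_mul (γ : SL(2, ℤ)) (c' : ℤ) (hc : γ 1 0 = N * c') :
    (SpecialLinearGroup.mapGL ℝ (conjMat N γ c' hc)) * heckeDiagMatrix N =
      heckeDiagMatrix N * (SpecialLinearGroup.mapGL ℝ γ) := by
  have hN : N ≠ 0 := NeZero.ne N
  have hcR : ((γ 1 0 : ℤ) : ℝ) = N * c' := by exact_mod_cast congrArg (Int.cast : ℤ → ℝ) hc
  apply Matrix.GeneralLinearGroup.ext
  intro i j
  rw [Matrix.GeneralLinearGroup.coe_mul, Matrix.GeneralLinearGroup.coe_mul, val_heckeDiagMatrix hN]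
  fin_cases i <;> fin_cases j <;>
    simp [Matrix.mul_apply, Fin.sum_univ_two, hcR] <;> ring

lemma Gamma0_le_conj :
    (Gamma0 N).map (SpecialLinearGroup.mapGL ℝ) ≤
      ConjAct.toConjAct (heckeDiagMatrix N)⁻¹ • (𝒮ℒ : Subgroup (GL (Fin 2) ℝ)) := by
  rintro _ ⟨γ, hγ, rfl⟩
  rw [Subgroup.mem_pointwise_smul_iff_inv_smul_mem, ConjAct.toConjAct_inv, inv_inv,
    ConjAct.smul_def, ConjAct.ofConjAct_toConjAct]
  have hγ' : ((γ 1 0 : ℤ) : ZMod N) = 0 := Gamma0_mem.mp hγ
  obtain ⟨c', hc⟩ : (N : ℤ) ∣ γ 1 0 := (ZMod.intCast_zmod_eq_zero_iff_dvd _ N).mp hγ'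
  refine ⟨conjMat N γ c' hc, ?_⟩
  rw [eq_mul_inv_iff_mul_eq]
  exact conjMat_mul N γ c' hc

end Conj

section DeltaN

variable (N : ℕ) [NeZero N]

/-- `N ^ 11 * Δ(N z)` as a cusp form of level `Γ₀(N)`: the translate of `Δ` by `diag(N,1)`. -/
def deltaNAux : CuspForm ((Gamma0 N).map (SpecialLinearGroup.mapGL ℝ)) 12 where
  toFun := (CuspForm.discriminant : ℍ → ℂ) ∣[(12 : ℤ)] heckeDiagMatrix N
  slash_action_eq' γ hγ :=
    (CuspForm.translate CuspForm.discriminant (heckeDiagMatrix N)).slash_action_eq' γ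
      (Gamma0_le_conj N hγ)
  holo' := (CuspForm.translate CuspForm.discriminant (heckeDiagMatrix N)).holo'
  zero_at_cusps' hc :=
    (CuspForm.translate CuspForm.discriminant (heckeDiagMatrix N)).zero_at_cusps'
      (hc.mono (Gamma0_le_conj N))

lemma deltaNAux_apply (z : ℍ) :
    deltaNAux N z = (N : ℂ) ^ (11 : ℤ) * ModularForm.discriminant (heckeDiagMatrix N • z) := by
  change ((CuspForm.discriminant : ℍ → ℂ) ∣[(12 : ℤ)] heckeDiagMatrix N) z = _
  rw [slash_heckeDiagMatrix_apply 12 (NeZero.ne N)]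
  norm_num

/-- `Δ(N z)` as a cusp form of weight `12` and level `Γ₀(N)`. -/
def deltaN : CuspForm ((Gamma0 N).map (SpecialLinearGroup.mapGL ℝ)) 12 :=
  ((N : ℂ) ^ (11 : ℤ))⁻¹ • deltaNAux N

lemma deltaN_apply (z : ℍ) :
    deltaN N z = ModularForm.discriminant (heckeDiagMatrix N • z) := by
  have hN : ((N : ℂ) ^ (11 : ℤ)) ≠ 0 := zpow_ne_zero _ (Nat.cast_ne_zero.mpr (NeZero.ne N))
  change ((N : ℂ) ^ (11 : ℤ))⁻¹ • deltaNAux N z = _
  rw [deltaNAux_apply, smul_eq_mul, inv_mul_cancel_left₀ hN]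

lemma coe_smul_heckeDiag (z : ℍ) : ((heckeDiagMatrix N • z : ℍ) : ℂ) = (N : ℂ) * z :=
  coe_heckeDiagMatrix_smul (NeZero.ne N) z

section QExp

open P2MW.S_UpperHalfPlane_qCoeff_heckeT.M4cP1W2 in
/-- The `q`-expansion of `Δ(N z)`: the `n`-th coefficient is `τ(n / N)` if `N ∣ n`, else `0`. -/
theorem qCoeff_deltaN (n : ℕ) :
    ModularFormClass.qCoeff (deltaN N) n =
      if N ∣ n then ModularFormClass.qCoeff (CuspForm.discriminant) (n / N) else 0 := by
  have hN : N ≠ 0 := NeZero.ne N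
  have h1 : (1 : ℝ) ∈ (𝒮ℒ : Subgroup (GL (Fin 2) ℝ)).strictPeriods := by
    simp
  have hΓ := CongruenceSubgroup.one_mem_strictPeriods_Gamma0 N
  have hper : Function.Periodic ((CuspForm.discriminant : ℍ → ℂ) ∘ ofComplex) 1 := by
    simpa using SlashInvariantFormClass.periodic_comp_ofComplex CuspForm.discriminant h1
  have hhol : MDiff (CuspForm.discriminant : ℍ → ℂ) := ModularFormClass.holo _
  have hbdd : IsBoundedAtImInfty (CuspForm.discriminant : ℍ → ℂ) :=
    ModularFormClass.bdd_at_infty CuspForm.discriminant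
  have hsum : ∀ τ : ℍ, HasSum (fun m : ℕ =>
      (if N ∣ m then ModularFormClass.qCoeff (CuspForm.discriminant) (m / N) else 0) •
        Function.Periodic.qParam 1 τ ^ m) (deltaN N τ) := by
    intro τ
    have := hasSum_diag hN hper hhol hbdd 1 τ
    rw [deltaN_apply]
    simp only [sub_self, zpow_zero, one_mul] at this
    convert this using 2 with m
    · split_ifs <;> simp
    · rfl
  exact (qExpansion_coeff_unique' (ModularFormClass.holo (deltaN N)).continuous
    (ModularFormClass.analyticAt_cuspFunction_zero (deltaN N) one_pos hΓ) hsum n).symm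

end QExp

end DeltaN

section Hermite

/-- Hermite normal form of `diag(N,1) * g`. -/
theorem hermite_int (N : ℕ) (hN : N ≠ 0) (g : SL(2, ℤ)) :
    ∃ (g' : SL(2, ℤ)) (t b u : ℤ), 0 < t ∧ 0 < u ∧ t * u = N ∧ t = Int.gcd N (g 1 0) ∧
      (!![(N : ℤ), 0; 0, 1] * (g : Matrix (Fin 2) (Fin 2) ℤ)) =
        (g' : Matrix (Fin 2) (Fin 2) ℤ) * !![t, b; 0, u] := by
  obtain ⟨p, q, c, s, hpqcs⟩ : ∃ p q c s : ℤ, (g : Matrix (Fin 2) (Fin 2) ℤ) = !![p, q; c, s] :=
    ⟨g 0 0, g 0 1, g 1 0, g 1 1, by ext i j; fin_cases i <;> fin_cases j <;> rfl⟩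
  have hc : g 1 0 = c := by
    have := congrFun (congrFun hpqcs 1) 0
    simpa using this
  have hdet : p * s - q * c = 1 := by
    have := g.det_coe
    rw [hpqcs, Matrix.det_fin_two_of] at this
    linarith
  rw [hc, hpqcs]
  set t : ℤ := ((Int.gcd N c : ℕ) : ℤ) with ht
  have hNpos : (0 : ℤ) < N := by exact_mod_cast Nat.pos_of_ne_zero hN
  have htpos : 0 < t := by
    have : Int.gcd (N : ℤ) c ≠ 0 := by
      rw [Ne, Int.gcd_eq_zero_iff]
      rintro ⟨h, -⟩
      exact hN (by exact_mod_cast h)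
    positivity
  obtain ⟨u, hu⟩ : t ∣ (N : ℤ) := Int.gcd_dvd_left _ _
  obtain ⟨w, hw⟩ : t ∣ c := Int.gcd_dvd_right _ _
  have hupos : 0 < u := by
    rw [hu] at hNpos
    exact (pos_iff_pos_of_mul_pos hNpos).mp htpos
  have hcop_uw : IsCoprime u w := by
    rw [Int.isCoprime_iff_gcd_eq_one]
    have h1 : Int.gcd (t * u) (t * w) = Int.natAbs t * Int.gcd u w := Int.gcd_mul_left _ _ _
    rw [← hu, ← hw] at h1
    have h3 : (Int.natAbs t : ℤ) = t := Int.natAbs_of_nonneg htpos.le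
    have h4 : (t : ℤ) = t * (Int.gcd u w : ℤ) := by
      have := congrArg (Nat.cast : ℕ → ℤ) h1
      rw [Nat.cast_mul, h3] at this
      exact this
    have h5 : (Int.gcd u w : ℤ) = 1 := by
      have : t * ((Int.gcd u w : ℤ) - 1) = 0 := by linarith
      rcases mul_eq_zero.mp this with h | h
      · exact absurd h htpos.ne'
      · linarith
    exact_mod_cast h5
  have hcop_pw : IsCoprime p w := ⟨s, -(q * t), by rw [hw] at hdet; linarith⟩
  obtain ⟨x, y, hxy⟩ : IsCoprime (u * p) w := hcop_uw.mul_left hcop_pw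
  -- hxy : x * (u * p) + y * w = 1
  refine ⟨⟨!![u * p, -y; w, x], ?_⟩, t, x * N * q + y * s, u, htpos, hupos, hu.symm, rfl, ?_⟩
  · rw [Matrix.det_fin_two_of]; linarith
  · ext i j
    fin_cases i <;> fin_cases j <;>
      simp [Matrix.mul_apply, Fin.sum_univ_two]
    · rw [hu]; ring
    · rw [hw] at hdet; rw [hu]; linear_combination (-(u * q * t)) * hxy + (-(u * y)) * hdet
    · rw [hw]; ring
    · rw [hw] at hdet; rw [hu]; linear_combination (-s) * hxy + (x * u) * hdet

theorem hermite_GL (N : ℕ) [NeZero N] (g : SL(2, ℤ)) :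
    ∃ (g' : SL(2, ℤ)) (t b u : ℤ) (htu : (t : ℝ) * u ≠ 0), 0 < t ∧ 0 < u ∧ t * u = N ∧
      t = Int.gcd N (g 1 0) ∧
      heckeDiagMatrix N * SpecialLinearGroup.mapGL ℝ g =
        SpecialLinearGroup.mapGL ℝ g' * upperTriangularGL t b u htu := by
  have hN : N ≠ 0 := NeZero.ne N
  obtain ⟨g', t, b, u, ht, hu, htu, htg, hmat⟩ := hermite_int N hN g
  have htu' : (t : ℝ) * u ≠ 0 := by
    have : (t : ℝ) * u = N := by exact_mod_cast htu
    rw [this]; exact_mod_cast hN
  refine ⟨g', t, b, u, htu', ht, hu, htu, htg, ?_⟩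
  apply Matrix.GeneralLinearGroup.ext
  intro i j
  rw [Matrix.GeneralLinearGroup.coe_mul, Matrix.GeneralLinearGroup.coe_mul, val_heckeDiagMatrix hN,
    val_upperTriangularGL, SpecialLinearGroup.mapGL_coe_matrix, SpecialLinearGroup.mapGL_coe_matrix]
  have e1 : (!![(N : ℝ), 0; 0, 1] : Matrix (Fin 2) (Fin 2) ℝ) =
      (Int.castRingHom ℝ).mapMatrix !![(N : ℤ), 0; 0, 1] := by
    ext i j; fin_cases i <;> fin_cases j <;> simp
  have e2 : (!![(t : ℝ), (b : ℝ); 0, (u : ℝ)] : Matrix (Fin 2) (Fin 2) ℝ) =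
      (Int.castRingHom ℝ).mapMatrix !![t, b; 0, u] := by
    ext i j; fin_cases i <;> fin_cases j <;> simp
  have e3 : ∀ h : SL(2, ℤ), ((SpecialLinearGroup.map (algebraMap ℤ ℝ) h : SL(2, ℝ)) :
      Matrix (Fin 2) (Fin 2) ℝ) = (Int.castRingHom ℝ).mapMatrix (h : Matrix (Fin 2) (Fin 2) ℤ) :=
    fun h => by simp
  rw [e1, e2, e3, e3, ← map_mul, ← map_mul, hmat]

end Hermite

section Analytic

theorem det_upperTriangularGL (a b d : ℝ) (had : a * d ≠ 0) :
    ((upperTriangularGL a b d had).det : ℝ) = a * d := by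
  rw [Matrix.GeneralLinearGroup.val_det_apply, val_upperTriangularGL, Matrix.det_fin_two_of]
  ring

theorem σ_upperTriangularGL (a b d : ℝ) (had : a * d ≠ 0) (hpos : 0 < a * d) :
    UpperHalfPlane.σ (upperTriangularGL a b d had) = .refl ℝ ℂ := by
  rw [UpperHalfPlane.σ, if_pos (by rw [det_upperTriangularGL]; exact hpos)]

theorem denom_upperTriangularGL (a b d : ℝ) (had : a * d ≠ 0) (z : ℍ) :
    UpperHalfPlane.denom (upperTriangularGL a b d had) z = d := by
  simp [UpperHalfPlane.denom, val_upperTriangularGL]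

theorem coe_upperTriangularGL_smul (a b d : ℝ) (had : a * d ≠ 0) (hpos : 0 < a * d) (z : ℍ) :
    ((upperTriangularGL a b d had • z : ℍ) : ℂ) = ((a : ℂ) * z + b) / d := by
  rw [UpperHalfPlane.coe_smul_of_det_pos (by rw [det_upperTriangularGL]; exact hpos)]
  simp [UpperHalfPlane.num, UpperHalfPlane.denom, val_upperTriangularGL]

theorem im_upperTriangularGL_smul (a b d : ℝ) (had : a * d ≠ 0) (ha : 0 < a) (hd : 0 < d) (z : ℍ) :
    (upperTriangularGL a b d had • z : ℍ).im = a / d * z.im := by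
  have h := coe_upperTriangularGL_smul a b d had (mul_pos ha hd) z
  have : (upperTriangularGL a b d had • z : ℍ).im = (((a : ℂ) * z + b) / d).im := by
    rw [← h]; rfl
  rw [this]
  have hd' : (d : ℂ) ≠ 0 := by exact_mod_cast hd.ne'
  rw [show ((a : ℂ) * z + b) / d = ((a / d : ℝ) : ℂ) * z + ((b / d : ℝ) : ℂ) by
    push_cast; field_simp]
  simp

theorem slash_upperTriangularGL_apply (k : ℤ) (a b d : ℝ) (had : a * d ≠ 0) (hpos : 0 < a * d)
    (f : ℍ → ℂ) (z : ℍ) :
    (f ∣[k] upperTriangularGL a b d had) z =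
      f (upperTriangularGL a b d had • z) * ((a * d : ℝ) : ℂ) ^ (k - 1) * (d : ℂ) ^ (-k) := by
  rw [ModularForm.slash_apply, σ_upperTriangularGL a b d had hpos, det_upperTriangularGL,
    denom_upperTriangularGL, abs_of_pos hpos]
  rfl

theorem not_isBigO_exp_atImInfty {r s : ℝ} (h : r < s) :
    ¬ (fun z : ℍ => Real.exp (-r * z.im)) =O[atImInfty] (fun z : ℍ => Real.exp (-s * z.im)) := by
  intro hO
  obtain ⟨C, hCpos, hC⟩ := hO.exists_pos
  rw [Asymptotics.IsBigOWith, UpperHalfPlane.atImInfty, Filter.eventually_comap] at hC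
  obtain ⟨A, hA⟩ := Filter.eventually_atTop.mp hC
  -- choose y large
  set y : ℝ := max (max A 1) ((Real.log C + 1) / (s - r)) with hy
  have hy1 : 1 ≤ y := le_trans (le_max_right _ _) (le_max_left _ _)
  have hyA : A ≤ y := le_trans (le_max_left _ _) (le_max_left _ _)
  have hyC : (Real.log C + 1) / (s - r) ≤ y := le_max_right _ _
  have hypos : 0 < y := lt_of_lt_of_le one_pos hy1
  have hz := hA y hyA ⟨⟨0, y⟩, hypos⟩ rfl
  simp only [Real.norm_eq_abs, abs_of_pos (Real.exp_pos _)] at hz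
  have him : (⟨⟨0, y⟩, hypos⟩ : ℍ).im = y := rfl
  rw [him] at hz
  have hsr : 0 < s - r := sub_pos.mpr h
  have h1 : Real.log C + 1 ≤ (s - r) * y := by
    rw [div_le_iff₀ hsr] at hyC; linarith
  have h2 : Real.exp (Real.log C + 1) ≤ Real.exp ((s - r) * y) := Real.exp_le_exp.mpr h1
  have h3 : C < Real.exp (Real.log C + 1) := by
    rw [Real.exp_add, Real.exp_log hCpos]
    have : (1 : ℝ) < Real.exp 1 := by
      have := Real.add_one_lt_exp (one_ne_zero)
      linarith
    nlinarith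
  have h4 : Real.exp ((s - r) * y) * Real.exp (-s * y) = Real.exp (-r * y) := by
    rw [← Real.exp_add]; ring_nf
  have h5 : 0 < Real.exp (-s * y) := Real.exp_pos _
  nlinarith

end Analytic

section Main

variable (N : ℕ) [NeZero N]

lemma coe_deltaN :
    (deltaN N : ℍ → ℂ) =
      ((N : ℂ) ^ (11 : ℤ))⁻¹ • ((CuspForm.discriminant : ℍ → ℂ) ∣[(12 : ℤ)] heckeDiagMatrix N) :=
  rfl

/-- Explicit formula for the `SL(2,ℤ)`-translates of `Δ(N z)`. -/
theorem deltaN_slash_apply (g g' : SL(2, ℤ)) (t b u : ℤ) (htu : (t : ℝ) * u ≠ 0) (ht : 0 < t)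
    (hu : 0 < u) (hN : t * u = N)
    (hmat : heckeDiagMatrix N * SpecialLinearGroup.mapGL ℝ g =
      SpecialLinearGroup.mapGL ℝ g' * upperTriangularGL t b u htu) (z : ℍ) :
    ((deltaN N : ℍ → ℂ) ∣[(12 : ℤ)] (SpecialLinearGroup.mapGL ℝ g)) z =
      (u : ℂ) ^ (-12 : ℤ) * ModularForm.discriminant (upperTriangularGL t b u htu • z) := by
  have hσ : UpperHalfPlane.σ (SpecialLinearGroup.mapGL ℝ g) = .refl ℝ ℂ := by
    simp [UpperHalfPlane.σ]
  have hinv : (CuspForm.discriminant : ℍ → ℂ) ∣[(12 : ℤ)] (SpecialLinearGroup.mapGL ℝ g') =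
      (CuspForm.discriminant : ℍ → ℂ) :=
    SlashInvariantForm.slash_action_eqn CuspForm.discriminant _ ⟨g', rfl⟩
  have hpos : (0 : ℝ) < (t : ℝ) * u := by
    have : (0 : ℝ) < t := by exact_mod_cast ht
    have : (0 : ℝ) < u := by exact_mod_cast hu
    positivity
  rw [coe_deltaN, ModularForm.smul_slash, hσ, ← SlashAction.slash_mul, hmat,
    SlashAction.slash_mul, hinv]
  simp only [ContinuousAlgEquiv.refl_apply, Pi.smul_apply, smul_eq_mul]
  rw [slash_upperTriangularGL_apply 12 t b u htu hpos]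
  have hNR : ((t : ℝ) * u : ℝ) = N := by exact_mod_cast hN
  have hN0 : (N : ℂ) ≠ 0 := Nat.cast_ne_zero.mpr (NeZero.ne N)
  rw [hNR]
  simp only [CuspForm.coe_discriminant, Complex.ofReal_natCast, Complex.ofReal_intCast]
  norm_num
  field_simp

lemma im_heckeDiagMatrix_smul (z : ℍ) : (heckeDiagMatrix N • z : ℍ).im = N * z.im := by
  have h := coe_heckeDiagMatrix_smul (NeZero.ne N) z
  have : (heckeDiagMatrix N • z : ℍ).im = ((N : ℂ) * (z : ℂ)).im := by rw [← h]; rfl
  rw [this]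
  simp

/-- **Primitive element.** If an element `g` of `SL(2,ℤ)` fixes `Δ(N z)` under the weight `12`
slash action, then `g ∈ Γ₀(N)`. -/
theorem mem_Gamma0_of_deltaN_slash_eq (g : SL(2, ℤ))
    (h : (deltaN N : ℍ → ℂ) ∣[(12 : ℤ)] (SpecialLinearGroup.mapGL ℝ g) = deltaN N) :
    g ∈ Gamma0 N := by
  obtain ⟨g', t, b, u, htu, ht, hu, hN, htg, hmat⟩ := hermite_GL N g
  have hNpos : (0 : ℤ) < N := by exact_mod_cast Nat.pos_of_ne_zero (NeZero.ne N)
  by_cases hu1 : u = 1
  · -- then `t = N` divides `g 1 0`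
    rw [Gamma0_mem, ZMod.intCast_zmod_eq_zero_iff_dvd]
    have : (N : ℤ) = t := by rw [← hN, hu1, mul_one]
    rw [this, htg]
    exact Int.gcd_dvd_right _ _
  exfalso
  have hu2 : 2 ≤ u := by omega
  have htR : (0 : ℝ) < t := by exact_mod_cast ht
  have huR : (0 : ℝ) < u := by exact_mod_cast hu
  have hNR : ((t : ℝ) * u : ℝ) = N := by exact_mod_cast hN
  -- pointwise identity
  have hpt : ∀ z : ℍ, ModularForm.discriminant (upperTriangularGL t b u htu • z) =
      (u : ℂ) ^ (12 : ℤ) * ModularForm.discriminant (heckeDiagMatrix N • z) := by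
    intro z
    have h1 := deltaN_slash_apply N g g' t b u htu ht hu hN hmat z
    rw [h, deltaN_apply] at h1
    have hu0 : (u : ℂ) ≠ 0 := by exact_mod_cast hu.ne'
    rw [h1, ← mul_assoc, ← zpow_add₀ hu0]
    norm_num
  -- asymptotics
  have hβ : Tendsto (fun z : ℍ => upperTriangularGL t b u htu • z) atImInfty atImInfty :=
    tendsto_smul_atImInfty (by simp [val_upperTriangularGL])
  have hα : Tendsto (fun z : ℍ => heckeDiagMatrix N • z) atImInfty atImInfty :=
    tendsto_smul_atImInfty (by simp [val_heckeDiagMatrix (NeZero.ne N)])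
  have A1 := (exp_isBigO_discriminant).comp_tendsto hβ
  have A2 := (CuspFormClass.exp_decay_atImInfty (h := 1) CuspForm.discriminant one_pos
    (by simp)).comp_tendsto hα
  have A3 : (ModularForm.discriminant ∘ fun z : ℍ => upperTriangularGL t b u htu • z)
      =O[atImInfty] ((CuspForm.discriminant : ℍ → ℂ) ∘ fun z : ℍ => heckeDiagMatrix N • z) := by
    have : (ModularForm.discriminant ∘ fun z : ℍ => upperTriangularGL t b u htu • z) =
        fun z => (u : ℂ) ^ (12 : ℤ) * ((CuspForm.discriminant : ℍ → ℂ) ∘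
          fun z : ℍ => heckeDiagMatrix N • z) z := by
      funext z; exact hpt z
    rw [this]
    exact (Asymptotics.isBigO_refl _ _).const_mul_left _
  have A4 := (A1.trans A3).trans A2
  refine not_isBigO_exp_atImInfty (r := 2 * π * (t / u)) (s := 2 * π * N) ?_ ?_
  · have h1 : (t : ℝ) / u < N := by
      rw [div_lt_iff₀ huR]
      have h2 : (t : ℝ) ≤ N := by
        rw [← hNR]; nlinarith [show (1 : ℝ) ≤ u by exact_mod_cast (show (1 : ℤ) ≤ u by omega)]
      have h3 : (2 : ℝ) ≤ u := by exact_mod_cast hu2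
      have h4 : (0 : ℝ) < N := by exact_mod_cast hNpos
      nlinarith
    have := Real.pi_pos
    nlinarith
  · refine A4.congr (fun z => ?_) (fun z => ?_)
    · simp only [Function.comp_apply]
      rw [im_upperTriangularGL_smul t b u htu htR huR]
      ring_nf
    · simp only [Function.comp_apply]
      rw [im_heckeDiagMatrix_smul]
      ring_nf

/-- Variant with an arbitrary element of `𝒮ℒ ≤ GL(2,ℝ)`. -/
theorem mem_map_Gamma0_of_deltaN_slash_eq (h : GL (Fin 2) ℝ) (hh : h ∈ (𝒮ℒ : Subgroup (GL (Fin 2) ℝ)))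
    (he : (deltaN N : ℍ → ℂ) ∣[(12 : ℤ)] h = deltaN N) :
    h ∈ (Gamma0 N).map (SpecialLinearGroup.mapGL ℝ) := by
  obtain ⟨g, rfl⟩ := hh
  exact ⟨g, mem_Gamma0_of_deltaN_slash_eq N g he, rfl⟩

/-- The `SL(2,ℤ)`-conjugates of `Δ(N z)`, indexed by `SL(2,ℤ) / Γ₀(N)` as in Mathlib's
`SlashInvariantForm.quotientFunc`, are pairwise distinct functions. -/
theorem quotientFunc_deltaN_injective :
    Function.Injective (SlashInvariantForm.quotientFunc (ℋ := (𝒮ℒ : Subgroup (GL (Fin 2) ℝ)))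
      (deltaN N)) := by
  intro q₁ q₂
  induction q₁ using Quotient.inductionOn with
  | h h₁ =>
    induction q₂ using Quotient.inductionOn with
    | h h₂ =>
      intro he
      rw [SlashInvariantForm.quotientFunc_mk, SlashInvariantForm.quotientFunc_mk] at he
      have he' : (deltaN N : ℍ → ℂ) ∣[(12 : ℤ)] (h₁.val⁻¹ * h₂.val) = deltaN N := by
        rw [SlashAction.slash_mul, he, ← SlashAction.slash_mul, inv_mul_cancel,
          SlashAction.slash_one]
      have hmem := mem_map_Gamma0_of_deltaN_slash_eq N (h₁.val⁻¹ * h₂.val)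
        (mul_mem (inv_mem h₁.2) h₂.2) he'
      exact Quotient.sound (QuotientGroup.leftRel_apply.mpr (by
        simpa [Subgroup.mem_subgroupOf] using hmem))

end Main

end

end Fermat.Agent.S23.H85
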