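import Mathlib
import Fermat.Prelude.Def_FLTPrelim_Modularity
import Fermat.Prelude.Thm_CongruenceSubgroup_one_mem_strictPeriods_Gamma0
import Fermat.Prelude.Thm_ModularForm_sturm_bound_Gamma0

set_option autoImplicit false

namespace Fermat.Agent.S23.H70

open CongruenceSubgroup UpperHalfPlane

variable {N : ℕ} {k : ℤ}

theorem one_mem_strictPeriods (N : ℕ) :
    (1 : ℝ) ∈ (Subgroup.map (Matrix.SpecialLinearGroup.mapGL ℝ) (Gamma0 N)).strictPeriods :=
  CongruenceSubgroup.one_mem_strictPeriods_Gamma0 N

/-- The `q`-expansion (period 1) as a `ℂ`-linear map on modular forms of level `Γ₀(N)`. -/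
noncomputable def qExpModularLin (N : ℕ) (k : ℤ) :
    ModularForm (Gamma0 N) k →ₗ[ℂ] PowerSeries ℂ where
  toFun f := qExpansion 1 f
  map_add' f g := by
    rw [ModularForm.coe_add]
    exact ModularForm.qExpansion_add one_pos (one_mem_strictPeriods N) f g
  map_smul' c f := by
    have h1 : ⇑(c • f) = c • ⇑f := by
      ext z
      simp
    rw [h1]
    exact ModularForm.qExpansion_smul one_pos (one_mem_strictPeriods N) c f

@[simp] theorem qExpModularLin_apply (f : ModularForm (Gamma0 N) k) :
    qExpModularLin N k f = qExpansion 1 f := rfl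

/-- The `q`-expansion (period 1) as a `ℂ`-linear map on cusp forms of level `Γ₀(N)`. -/
noncomputable def qExpCuspLin (N : ℕ) (k : ℤ) :
    CuspForm (Gamma0 N) k →ₗ[ℂ] PowerSeries ℂ where
  toFun f := qExpansion 1 f
  map_add' f g := by
    rw [CuspForm.coe_add]
    exact ModularForm.qExpansion_add one_pos (one_mem_strictPeriods N) f g
  map_smul' c f := by
    have h1 : ⇑(c • f) = c • ⇑f := by
      ext z
      simp
    rw [h1]
    exact ModularForm.qExpansion_smul one_pos (one_mem_strictPeriods N) c f

@[simp] theorem qExpCuspLin_apply (f : CuspForm (Gamma0 N) k) :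
    qExpCuspLin N k f = qExpansion 1 f := rfl

/-- The Sturm index for `Γ₀(N)` in weight `k`. -/
noncomputable def sturmB (N : ℕ) (k : ℤ) : ℕ := (k * (Gamma0 N).index).toNat / 12

/-- Truncation of the `q`-expansion at the Sturm bound, as a `ℂ`-linear map. -/
noncomputable def truncLin (N : ℕ) (k : ℤ) :
    PowerSeries ℂ →ₗ[ℂ] (Fin (sturmB N k + 1) → ℂ) where
  toFun x i := PowerSeries.coeff (i : ℕ) x
  map_add' x y := by funext i; simp
  map_smul' c x := by funext i; simp

theorem qExpModularLin_injective (N : ℕ) [NeZero N] (k : ℤ) :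
    Function.Injective (qExpModularLin N k) := by
  refine (injective_iff_map_eq_zero _).mpr fun f hf => ?_
  refine ModularForm.sturm_bound_Gamma0 N f fun n _ => ?_
  have : qExpansion 1 f = 0 := hf
  rw [this, map_zero]

theorem truncLin_comp_injective (N : ℕ) [NeZero N] (k : ℤ) :
    Function.Injective ((truncLin N k).comp (qExpModularLin N k)) := by
  refine (injective_iff_map_eq_zero _).mpr fun f hf => ?_
  refine ModularForm.sturm_bound_Gamma0 N f fun n hn => ?_
  have := congrFun hf ⟨n, Nat.lt_succ_of_le hn⟩
  simpa [truncLin] using this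

theorem finiteDimensional_modularForm (N : ℕ) [NeZero N] (k : ℤ) :
    FiniteDimensional ℂ (ModularForm (Gamma0 N) k) :=
  Module.Finite.of_injective _ (truncLin_comp_injective N k)

theorem qExpCuspLin_injective (N : ℕ) [NeZero N] (k : ℤ) :
    Function.Injective (qExpCuspLin N k) := by
  refine (injective_iff_map_eq_zero _).mpr fun f hf => ?_
  have hq : qExpansion 1 f = 0 := hf
  have hmf : (ModularFormClass.modularForm f : ModularForm (Gamma0 N) k) = 0 := by
    refine ModularForm.sturm_bound_Gamma0 N _ fun n _ => ?_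
    have : qExpansion 1 ⇑(ModularFormClass.modularForm f : ModularForm (Gamma0 N) k) = 0 := by
      simpa using hq
    rw [this, map_zero]
  have hcoe : (⇑f : ℍ → ℂ) = 0 := by
    have := congrArg (fun F : ModularForm (Gamma0 N) k ↦ (⇑F : ℍ → ℂ)) hmf
    simpa using this
  exact DFunLike.coe_injective (hcoe.trans CuspForm.coe_zero.symm)

theorem truncLin_comp_cusp_injective (N : ℕ) [NeZero N] (k : ℤ) :
    Function.Injective ((truncLin N k).comp (qExpCuspLin N k)) := by
  refine (injective_iff_map_eq_zero _).mpr fun f hf => ?_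
  have hmf : (ModularFormClass.modularForm f : ModularForm (Gamma0 N) k) = 0 := by
    refine ModularForm.sturm_bound_Gamma0 N _ fun n hn => ?_
    have := congrFun hf ⟨n, Nat.lt_succ_of_le hn⟩
    simpa [truncLin] using this
  have hcoe : (⇑f : ℍ → ℂ) = 0 := by
    have := congrArg (fun F : ModularForm (Gamma0 N) k ↦ (⇑F : ℍ → ℂ)) hmf
    simpa using this
  exact DFunLike.coe_injective (hcoe.trans CuspForm.coe_zero.symm)

theorem finiteDimensional_cuspForm (N : ℕ) [NeZero N] (k : ℤ) :
    FiniteDimensional ℂ (CuspForm (Gamma0 N) k) :=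
  Module.Finite.of_injective _ (truncLin_comp_cusp_injective N k)

/-- The space of `q`-expansions of cusp forms of level `Γ₀(N)` and weight `k`. -/
noncomputable def qCuspSpace (N : ℕ) (k : ℤ) : Submodule ℂ (PowerSeries ℂ) :=
  LinearMap.range (qExpCuspLin N k)

/-- The space of `q`-expansions of modular forms of level `Γ₀(N)` and weight `k`. -/
noncomputable def qModularSpace (N : ℕ) (k : ℤ) : Submodule ℂ (PowerSeries ℂ) :=
  LinearMap.range (qExpModularLin N k)

theorem mem_qCuspSpace_iff (x : PowerSeries ℂ) :
    x ∈ qCuspSpace N k ↔ ∃ f : CuspForm (Gamma0 N) k, qExpansion 1 f = x := Iff.rfl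

theorem mem_qModularSpace_iff (x : PowerSeries ℂ) :
    x ∈ qModularSpace N k ↔ ∃ f : ModularForm (Gamma0 N) k, qExpansion 1 f = x := Iff.rfl

theorem finiteDimensional_qCuspSpace (N : ℕ) [NeZero N] (k : ℤ) :
    FiniteDimensional ℂ (qCuspSpace N k) := by
  have := finiteDimensional_cuspForm N k
  exact Module.Finite.range (qExpCuspLin N k)

theorem finiteDimensional_qModularSpace (N : ℕ) [NeZero N] (k : ℤ) :
    FiniteDimensional ℂ (qModularSpace N k) := by
  have := finiteDimensional_modularForm N k
  exact Module.Finite.range (qExpModularLin N k)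

/-- Membership in the range of an arbitrary submodule-valued formulation: if `V` is the set of
`q`-expansions of cusp forms, it is finite-dimensional. -/
theorem finiteDimensional_of_eq_qExpansion_range (N : ℕ) [NeZero N] (k : ℤ)
    (V : Submodule ℂ (PowerSeries ℂ))
    (hV : ∀ x, x ∈ V ↔ ∃ f : CuspForm (Gamma0 N) k, qExpansion 1 f = x) :
    FiniteDimensional ℂ V := by
  have h : V = qCuspSpace N k := by
    ext x
    rw [hV, mem_qCuspSpace_iff]
  rw [h]
  exact finiteDimensional_qCuspSpace N k

end Fermat.Agent.S23.H70
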