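import Mathlib

set_option autoImplicit false

namespace Fermat.Agent.S23.H71

open MvPolynomial

/-- An automorphism of the polynomial ring on a transcendence basis extends to the
algebraically closed field. -/
theorem exists_ringEquiv_of_mvPolynomial_equiv
    {R : Type*} [CommRing R] [IsDomain R] {K : Type*} [Field K] [IsAlgClosed K] [Algebra R K]
    {ι : Type*} (v : ι → K) (hv : IsTranscendenceBasis R v)
    (ε : MvPolynomial ι R ≃+* MvPolynomial ι R) :
    ∃ σ : K ≃+* K, ∀ p : MvPolynomial ι R, σ (aeval v p) = aeval v (ε p) := by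
  let _ := IsAlgClosed.isAlgClosure_of_transcendence_basis v hv
  let E := hv.1.aevalEquiv.toRingEquiv
  let e : Algebra.adjoin R (Set.range v) ≃+* Algebra.adjoin R (Set.range v) :=
    E.symm.trans (ε.trans E)
  refine ⟨IsAlgClosure.equivOfEquiv K K e, fun p => ?_⟩
  have h1 : aeval v p = algebraMap (Algebra.adjoin R (Set.range v)) K (E p) := rfl
  have h2 : aeval v (ε p) = algebraMap (Algebra.adjoin R (Set.range v)) K (E (ε p)) := rfl
  rw [h1, h2, IsAlgClosure.equivOfEquiv_algebraMap]
  congr 1
  simp [e]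

/-- The shift automorphism `X i ↦ X i + c i` of a polynomial ring. -/
noncomputable def shiftEquiv {R : Type*} [CommRing R] {ι : Type*} (c : ι → R) :
    MvPolynomial ι R ≃ₐ[R] MvPolynomial ι R :=
  AlgEquiv.ofAlgHom (aeval fun i => X i + C (c i)) (aeval fun i => X i - C (c i))
    (by ext i; simp) (by ext i; simp)

theorem exists_ringEquiv_ne_of_transcendental {K : Type*} [Field K] [IsAlgClosed K] [CharZero K]
    (z : K) (hz : Transcendental ℚ z) : ∃ σ : K ≃+* K, σ z ≠ z := by
  classical
  have hs : AlgebraicIndepOn ℚ id ({z} : Set K) := by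
    have : AlgebraicIndependent ℚ (fun i : ({z} : Set K) => (i : K)) :=
      (algebraicIndependent_singleton_iff (R := ℚ) (x := fun i : ({z} : Set K) => (i : K))
        ⟨z, rfl⟩).2 hz
    exact this
  obtain ⟨t, hzt, ht⟩ := exists_isTranscendenceBasis_superset hs
  have hzt' : z ∈ t := hzt rfl
  let i₀ : t := ⟨z, hzt'⟩
  obtain ⟨σ, hσ⟩ := exists_ringEquiv_of_mvPolynomial_equiv (R := ℚ) ((↑) : t → K) ht
    (shiftEquiv (fun i => if i = i₀ then (1 : ℚ) else 0)).toRingEquiv
  refine ⟨σ, ?_⟩
  have := hσ (X i₀)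
  simp only [aeval_X] at this
  rw [show ((i₀ : t) : K) = z from rfl] at this
  rw [this]
  simp [shiftEquiv, i₀]

theorem exists_ringEquiv_ne_of_isAlgebraic {K : Type*} [Field K] [IsAlgClosed K] [CharZero K]
    (z : K) (hz : IsAlgebraic ℚ z) (hz' : z ∉ (algebraMap ℚ K).range) :
    ∃ σ : K ≃+* K, σ z ≠ z := by
  classical
  have hcl : IsAlgClosure ℚ (algebraicClosure ℚ K) := algebraicClosure.isAlgClosure ℚ K
  have : IsAlgClosed (algebraicClosure ℚ K) := hcl.isAlgClosed
  have : Algebra.IsAlgebraic ℚ (algebraicClosure ℚ K) := hcl.isAlgebraic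
  have : Normal ℚ (algebraicClosure ℚ K) := IsAlgClosure.normal ℚ (algebraicClosure ℚ K)
  have hzQ : z ∈ algebraicClosure ℚ K := (mem_algebraicClosure_iff).2 hz
  let z' : algebraicClosure ℚ K := ⟨z, hzQ⟩
  -- another root
  have hint : IsIntegral ℚ z' := (Algebra.IsIntegral.isIntegral (R := ℚ) z')
  have hdeg : 2 ≤ (minpoly ℚ z').natDegree := by
    rw [Nat.two_le_iff]
    refine ⟨(minpoly.natDegree_pos hint).ne', ?_⟩
    intro h1
    have := (minpoly.natDegree_eq_one_iff (A := ℚ) (B := algebraicClosure ℚ K) (x := z')).1 h1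
    obtain ⟨r, hr⟩ := this
    apply hz'
    refine ⟨r, ?_⟩
    have := congrArg (fun y : algebraicClosure ℚ K => (y : K)) hr
    simpa [z'] using this
  have hsep : (minpoly ℚ z').Separable := (minpoly.irreducible hint).separable
  have hsplit : ((minpoly ℚ z').map (algebraMap ℚ (algebraicClosure ℚ K))).Splits :=
    IsAlgClosed.splits _
  have hcard : Fintype.card ((minpoly ℚ z').rootSet (algebraicClosure ℚ K)) =
      (minpoly ℚ z').natDegree :=
    Polynomial.card_rootSet_eq_natDegree hsep hsplit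
  have : ∃ y : algebraicClosure ℚ K, y ∈ (minpoly ℚ z').rootSet (algebraicClosure ℚ K) ∧
      y ≠ z' := by
    by_contra hcon
    push Not at hcon
    have hsub : ((minpoly ℚ z').rootSet (algebraicClosure ℚ K)) ⊆ {z'} := fun y hy => hcon y hy
    have hfin : Fintype.card ((minpoly ℚ z').rootSet (algebraicClosure ℚ K)) ≤ 1 := by
      have := Set.ncard_le_ncard hsub (Set.finite_singleton _)
      rw [Set.ncard_singleton] at this
      rwa [Set.ncard_eq_toFinset_card', Set.toFinset_card] at this
    omega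
  obtain ⟨y, hy, hyz⟩ := this
  have hroot : Polynomial.aeval y (minpoly ℚ z') = 0 := (Polynomial.mem_rootSet.1 hy).2
  obtain ⟨τ, hτ⟩ := minpoly.exists_algEquiv_of_root' (K := ℚ) (L := algebraicClosure ℚ K)
    hint.isAlgebraic hroot
  obtain ⟨s, hs⟩ := exists_isTranscendenceBasis (algebraicClosure ℚ K) K
  obtain ⟨σ, hσ⟩ := exists_ringEquiv_of_mvPolynomial_equiv (R := algebraicClosure ℚ K)
    ((↑) : s → K) hs (MvPolynomial.mapEquiv s τ.toRingEquiv)
  refine ⟨σ, ?_⟩
  have := hσ (C z')
  simp only [aeval_C] at this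
  have h3 : (algebraMap (algebraicClosure ℚ K) K) z' = z := rfl
  rw [h3] at this
  rw [this]
  simp only [mapEquiv_apply, map_C, aeval_C]
  intro h
  apply hyz
  have : τ z' = z' := Subtype.ext h
  rw [← hτ, this]

/-- An element of an algebraically closed field of characteristic zero fixed by all
ring automorphisms is rational. -/
theorem mem_range_of_forall_ringEquiv_eq {K : Type*} [Field K] [IsAlgClosed K] [CharZero K]
    (z : K) (h : ∀ σ : K ≃+* K, σ z = z) : z ∈ (algebraMap ℚ K).range := by
  by_contra hz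
  by_cases halg : IsAlgebraic ℚ z
  · obtain ⟨σ, hσ⟩ := exists_ringEquiv_ne_of_isAlgebraic z halg hz
    exact hσ (h σ)
  · obtain ⟨σ, hσ⟩ := exists_ringEquiv_ne_of_transcendental z halg
    exact hσ (h σ)

end Fermat.Agent.S23.H71
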