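import Mathlib
import Fermat.Agent.S23.H71_AutC

set_option autoImplicit false

namespace Fermat.Agent.S23.H71

open PowerSeries Module

section Descent

variable {K : Type*} [Field K] [IsAlgClosed K] [CharZero K]

/-- A finite-dimensional subspace of `K⟦X⟧` stable under the coefficientwise action of all
ring automorphisms of `K` is spanned by its elements with rational coefficients. -/
theorem le_span_rational_of_forall_ringEquiv_map_mem
    (V : Submodule K (PowerSeries K)) [FiniteDimensional K V]
    (hV : ∀ σ : K ≃+* K, ∀ x ∈ V, PowerSeries.map (σ : K →+* K) x ∈ V) :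
    V ≤ Submodule.span K {y | y ∈ V ∧ ∃ r : PowerSeries ℚ, y = PowerSeries.map (algebraMap ℚ K) r} := by
  classical
  -- coefficient functionals on V
  let φ : ℕ → Module.Dual K V := fun n => (PowerSeries.coeff (R := K) n).comp V.subtype
  have hφ : ∀ n (x : V), φ n x = PowerSeries.coeff n (x : PowerSeries K) := fun n x => rfl
  -- they span the dual
  have hspan : Submodule.span K (Set.range φ) = ⊤ := by
    apply Submodule.eq_top_of_finrank_eq
    have h1 := Subspace.finrank_add_finrank_dualCoannihilator_eq (K := K) (V := V)
      (Submodule.span K (Set.range φ))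
    have h2 : (Submodule.span K (Set.range φ)).dualCoannihilator = ⊥ := by
      rw [eq_bot_iff]
      intro x hx
      rw [Submodule.mem_dualCoannihilator] at hx
      rw [Submodule.mem_bot]
      apply Subtype.ext
      ext n
      have := hx (φ n) (Submodule.subset_span ⟨n, rfl⟩)
      simpa [hφ] using this
    rw [h2, finrank_bot, add_zero] at h1
    rw [h1, Subspace.dual_finrank_eq]
  obtain ⟨b, hb_sub, hb_span, hb_li⟩ := exists_linearIndependent K (Set.range φ)
  rw [hspan] at hb_span
  have hbfin : b.Finite := hb_li.setFinite
  have : Fintype b := hbfin.fintype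
  -- the evaluation map
  let E : V →ₗ[K] (b → K) := LinearMap.pi fun i => (i : Module.Dual K V)
  have hE : ∀ x i, E x i = (i : Module.Dual K V) x := fun x i => rfl
  have hEinj : Function.Injective E := by
    rw [← LinearMap.ker_eq_bot, eq_bot_iff]
    intro x hx
    rw [LinearMap.mem_ker] at hx
    rw [Submodule.mem_bot]
    rw [← Module.forall_dual_apply_eq_zero_iff K]
    intro ψ
    have hψ : ψ ∈ Submodule.span K b := by rw [hb_span]; trivial
    induction hψ using Submodule.span_induction with
    | mem y hy =>
      have := congrFun hx ⟨y, hy⟩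
      simpa [hE] using this
    | zero => simp
    | add y z _ _ hy hz => simp [hy, hz]
    | smul a y _ hy => simp [hy]
  have hdim : finrank K V = finrank K (b → K) := by
    rw [Module.finrank_fintype_fun_eq_card]
    have hbasis := Module.Basis.mk hb_li (by rw [Subtype.range_coe_subtype, Set.ofPred_mem_eq, hb_span])
    rw [← Subspace.dual_finrank_eq, Module.finrank_eq_card_basis hbasis]
  have hEsurj : Function.Surjective E :=
    (LinearMap.injective_iff_surjective_of_finrank_eq_finrank hdim).1 hEinj
  -- each index in b is a coefficient functional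
  have hbn : ∀ i : b, ∃ n, φ n = (i : Module.Dual K V) := fun i => hb_sub i.2
  choose nn hnn using hbn
  -- dual basis vectors
  have hv : ∀ i : b, ∃ v : V, E v = Pi.single i 1 := fun i => hEsurj _
  choose v hv using hv
  -- they are fixed by every automorphism
  have hfix : ∀ (σ : K ≃+* K) (i : b),
      PowerSeries.map (σ : K →+* K) (v i : PowerSeries K) = (v i : PowerSeries K) := by
    intro σ i
    have hmem := hV σ (v i) (v i).2
    have : (⟨_, hmem⟩ : V) = v i := by
      apply hEinj
      rw [hv]
      funext j
      rw [hE, ← hnn j, hφ]
      simp only [PowerSeries.coeff_map, RingHom.coe_coe]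
      have hj := congrFun (hv i) j
      rw [hE, ← hnn j, hφ] at hj
      rw [hj]
      by_cases hji : j = i
      · subst hji; simp
      · simp [hji]
    exact congrArg Subtype.val this
  have hrat : ∀ (i : b) (n : ℕ), PowerSeries.coeff n (v i : PowerSeries K) ∈ (algebraMap ℚ K).range := by
    intro i n
    apply mem_range_of_forall_ringEquiv_eq
    intro σ
    have := congrArg (PowerSeries.coeff n) (hfix σ i)
    simpa using this
  choose r hr using hrat
  have hvr : ∀ i : b, (v i : PowerSeries K) =
      PowerSeries.map (algebraMap ℚ K) (PowerSeries.mk fun n => r i n) := by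
    intro i
    ext n
    simp [hr]
  -- conclude
  intro x hx
  have hx' : (⟨x, hx⟩ : V) = ∑ i : b, E ⟨x, hx⟩ i • v i := by
    apply hEinj
    funext j
    simp only [map_sum, map_smul, Finset.sum_apply, Pi.smul_apply, hv, smul_eq_mul]
    simp [Pi.single_apply]
  have hx'' : x = ∑ i : b, E ⟨x, hx⟩ i • (v i : PowerSeries K) := by
    have := congrArg Subtype.val hx'
    simpa using this
  rw [hx'']
  refine Submodule.sum_mem _ fun i _ => Submodule.smul_mem _ _ (Submodule.subset_span ?_)
  exact ⟨(v i).2, _, hvr i⟩

end Descent

end Fermat.Agent.S23.H71
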