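import Mathlib

/-!
Level one: modular forms and cusp forms for SL(2,ℤ) are spanned over ℂ by forms whose
q-expansion has integer coefficients; consequences (conjugation of q-expansions by ring
homomorphisms of ℂ).
-/

set_option autoImplicit false

open UpperHalfPlane ModularForm ModularFormClass MatrixGroups EisensteinSeries

namespace Fermat.Agent.S23.H80

/-- Power series over `ℂ` with integer coefficients, as a subring. -/
noncomputable def intQ : Subring (PowerSeries ℂ) :=
  (PowerSeries.map (Int.castRingHom ℂ)).range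

lemma mem_intQ_iff (p : PowerSeries ℂ) :
    p ∈ intQ ↔ ∃ P : PowerSeries ℤ, PowerSeries.map (Int.castRingHom ℂ) P = p := Iff.rfl

lemma mem_intQ_iff_coeff (p : PowerSeries ℂ) :
    p ∈ intQ ↔ ∀ n : ℕ, ∃ m : ℤ, p.coeff n = (m : ℂ) := by
  constructor
  · rintro ⟨P, rfl⟩ n
    exact ⟨P.coeff n, by simp⟩
  · intro h
    choose c hc using h
    refine ⟨PowerSeries.mk c, ?_⟩
    ext n
    simp [hc n]

lemma map_eq_self_of_mem_intQ {p : PowerSeries ℂ} (hp : p ∈ intQ) (σ : ℂ →+* ℂ) :
    PowerSeries.map σ p = p := by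
  obtain ⟨P, rfl⟩ := hp
  ext n
  simp

/-- q-expansion of `E₄` is integral. -/
lemma qExpansion_E₄_mem_intQ : qExpansion 1 E₄ ∈ intQ := by
  rw [mem_intQ_iff_coeff]
  intro n
  rw [E_qExpansion_coeff _ ⟨2, rfl⟩]
  by_cases hn : n = 0
  · exact ⟨1, by simp [hn]⟩
  · refine ⟨240 * (ArithmeticFunction.sigma 3 n : ℤ), ?_⟩
    rw [if_neg hn, show bernoulli 4 = -1 / 30 by decide +kernel]
    push_cast
    norm_num

/-- q-expansion of `E₆` is integral. -/
lemma qExpansion_E₆_mem_intQ : qExpansion 1 E₆ ∈ intQ := by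
  rw [mem_intQ_iff_coeff]
  intro n
  rw [E_qExpansion_coeff _ ⟨3, rfl⟩]
  by_cases hn : n = 0
  · exact ⟨1, by simp [hn]⟩
  · refine ⟨-504 * (ArithmeticFunction.sigma 5 n : ℤ), ?_⟩
    rw [if_neg hn, show bernoulli 6 = 1 / 42 by decide +kernel]
    push_cast
    norm_num

local notation "Δ" => ModularForm.discriminant

/-- The form `E₄³ - E₆²` of weight 12 (equal to `1728 Δ`). -/
noncomputable def D12 : ModularForm 𝒮ℒ 12 :=
  ModularForm.mcast (by decide) (E₄.pow 3) - ModularForm.mcast (by decide) (E₆.pow 2)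

lemma D12_apply (z : ℍ) : D12 z = E₄ z ^ 3 - E₆ z ^ 2 := by
  simp only [D12, coe_mcast, coe_pow, sub_apply, Pi.pow_apply]

lemma D12_eq_mul_discriminant (z : ℍ) : D12 z = 1728 * Δ z := by
  rw [D12_apply, discriminant_eq_E₄_cube_sub_E₆_sq]
  ring

lemma qExpansion_D12 :
    qExpansion 1 D12 = qExpansion 1 E₄ ^ 3 - qExpansion 1 E₆ ^ 2 := by
  simp only [D12, FunLike.coe_sub, coe_mcast,
    ModularForm.qExpansion_sub one_pos one_mem_strictPeriods_SL,
    ModularForm.qExpansion_pow one_pos one_mem_strictPeriods_SL]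

lemma qExpansion_D12_mem_intQ : qExpansion 1 D12 ∈ intQ := by
  rw [qExpansion_D12]
  exact sub_mem (pow_mem qExpansion_E₄_mem_intQ 3) (pow_mem qExpansion_E₆_mem_intQ 2)

/-- The set of level one modular forms of weight `k` with integral q-expansion. -/
def intForms (k : ℤ) : Set (ModularForm 𝒮ℒ k) := {f | qExpansion 1 f ∈ intQ}

lemma exists_monomial {k : ℤ} (hk : 4 ≤ k) (hk2 : Even k) :
    ∃ M : ModularForm 𝒮ℒ k, qExpansion 1 M ∈ intQ ∧ (qExpansion 1 M).coeff 0 = 1 := by
  obtain ⟨a, b, hab⟩ : ∃ a b : ℕ, (a : ℤ) * 4 + (b : ℤ) * 6 = k := by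
    obtain ⟨m, hm⟩ := hk2
    rcases Int.even_or_odd m with ⟨c, hc⟩ | ⟨c, hc⟩
    · exact ⟨c.toNat, 0, by omega⟩
    · exact ⟨(c - 1).toNat, 1, by omega⟩
  refine ⟨ModularForm.mcast hab ((E₄.pow a).mul (E₆.pow b)), ?_, ?_⟩
  · rw [coe_mcast, ModularForm.qExpansion_mul one_pos one_mem_strictPeriods_SL,
      ModularForm.qExpansion_pow one_pos one_mem_strictPeriods_SL,
      ModularForm.qExpansion_pow one_pos one_mem_strictPeriods_SL]
    exact mul_mem (pow_mem qExpansion_E₄_mem_intQ a) (pow_mem qExpansion_E₆_mem_intQ b)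
  · rw [coe_mcast, ModularForm.qExpansion_mul one_pos one_mem_strictPeriods_SL,
      ModularForm.qExpansion_pow one_pos one_mem_strictPeriods_SL,
      ModularForm.qExpansion_pow one_pos one_mem_strictPeriods_SL,
      PowerSeries.coeff_zero_eq_constantCoeff, map_mul, map_pow, map_pow,
      ← PowerSeries.coeff_zero_eq_constantCoeff,
      E_qExpansion_coeff_zero _ ⟨2, rfl⟩, E_qExpansion_coeff_zero _ ⟨3, rfl⟩]
    simp

/-- Multiplication by `D12 = E₄³ - E₆²`, as a linear map raising the weight by 12. -/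
noncomputable def mulD12 (k : ℤ) : ModularForm 𝒮ℒ (k - 12) →ₗ[ℂ] ModularForm 𝒮ℒ k where
  toFun h := ModularForm.mcast (by ring) (D12.mul h)
  map_add' h₁ h₂ := by
    ext z
    simp [coe_mcast, coe_mul, mul_add]
  map_smul' c h := by
    ext z
    simp [coe_mcast, coe_mul, mul_left_comm]

lemma mulD12_apply (k : ℤ) (h : ModularForm 𝒮ℒ (k - 12)) (z : ℍ) :
    mulD12 k h z = D12 z * h z := by
  simp [mulD12, coe_mcast, coe_mul]

lemma qExpansion_mulD12 (k : ℤ) (h : ModularForm 𝒮ℒ (k - 12)) :
    qExpansion 1 (mulD12 k h) = qExpansion 1 D12 * qExpansion 1 h := by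
  have : (mulD12 k h : ℍ → ℂ) = ⇑(D12.mul h) := by
    ext z; simp [mulD12_apply, coe_mul]
  rw [this, ModularForm.qExpansion_mul one_pos one_mem_strictPeriods_SL]

lemma mulD12_mem_intForms (k : ℤ) {h : ModularForm 𝒮ℒ (k - 12)} (hh : h ∈ intForms (k - 12)) :
    mulD12 k h ∈ intForms k := by
  change qExpansion 1 (mulD12 k h) ∈ intQ
  rw [qExpansion_mulD12]
  exact mul_mem qExpansion_D12_mem_intQ hh

/-- **Level one modular forms of any weight are spanned over `ℂ` by the forms with integral
q-expansion.** -/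
theorem span_intForms_eq_top (k : ℤ) : Submodule.span ℂ (intForms k) = ⊤ := by
  suffices H : ∀ n : ℕ, ∀ k : ℤ, k < 12 * n → Submodule.span ℂ (intForms k) = ⊤ from
    H (k.toNat + 1) k (by omega)
  intro n
  induction n with
  | zero =>
    intro k hk
    rw [eq_top_iff]
    intro f _
    have : f = 0 :=
      rank_zero_iff_forall_zero.mp (levelOne_neg_weight_rank_zero (by omega)) f
    rw [this]
    exact Submodule.zero_mem _
  | succ n ih =>
    intro k hk
    rw [eq_top_iff]
    intro f _
    rcases lt_or_ge k 0 with hneg | hnn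
    · have : f = 0 :=
        rank_zero_iff_forall_zero.mp (levelOne_neg_weight_rank_zero hneg) f
      rw [this]
      exact Submodule.zero_mem _
    rcases Int.even_or_odd k with hev | hodd
    swap
    · rw [levelOne_odd_weight_eq_zero hodd f]
      exact Submodule.zero_mem _
    have hcases : k = 0 ∨ k = 2 ∨ 4 ≤ k := by
      obtain ⟨m, hm⟩ := hev
      omega
    rcases hcases with rfl | rfl | h4
    · -- weight zero: constants
      obtain ⟨c, hc⟩ := levelOne_weight_zero_const f
      have hf : f = c • (1 : ModularForm 𝒮ℒ 0) := by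
        ext z
        simp [hc]
      rw [hf]
      refine Submodule.smul_mem _ _ (Submodule.subset_span ?_)
      change qExpansion 1 ((1 : ModularForm 𝒮ℒ 0) : ℍ → ℂ) ∈ intQ
      rw [ModularForm.qExpansion_one]
      exact one_mem _
    · -- weight two: zero
      have : f = 0 :=
        rank_zero_iff_forall_zero.mp levelOne_weight_two_rank_zero f
      rw [this]
      exact Submodule.zero_mem _
    · -- weight at least four
      obtain ⟨M, hMint, hM0⟩ := exists_monomial h4 hev
      set a0 : ℂ := (qExpansion 1 f).coeff 0 with ha0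
      have hg0 : (qExpansion 1 ((f - a0 • M : ModularForm 𝒮ℒ k) : ℍ → ℂ)).coeff 0 = 0 := by
        rw [FunLike.coe_sub, ModularForm.qExpansion_sub one_pos one_mem_strictPeriods_SL,
          FunLike.coe_smul, ModularForm.qExpansion_smul one_pos one_mem_strictPeriods_SL,
          map_sub, PowerSeries.coeff_smul, hM0, smul_eq_mul, mul_one, sub_self]
      set h : ModularForm 𝒮ℒ (k - 12) :=
        CuspForm.discriminantEquiv (toCuspForm (f - a0 • M) hg0) with hh
      have hhmem : h ∈ Submodule.span ℂ (intForms (k - 12)) := by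
        rw [ih (k - 12) (by omega)]
        trivial
      have hfeq : f = a0 • M + (1 / 1728 : ℂ) • mulD12 k h := by
        ext z
        have h1 : Δ z * h z = (f - a0 • M) z := by
          rw [hh, discriminant_mul_discriminantEquiv_apply, toCuspForm_apply]
        simp only [add_apply, smul_apply, smul_eq_mul, mulD12_apply, D12_eq_mul_discriminant]
        have h2 : (f - a0 • M) z = f z - a0 * M z := by simp
        rw [h2] at h1
        linear_combination (-1 : ℂ) * h1
      rw [hfeq]
      refine Submodule.add_mem _ (Submodule.smul_mem _ _ (Submodule.subset_span hMint))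
        (Submodule.smul_mem _ _ ?_)
      have hle : Submodule.map (mulD12 k) (Submodule.span ℂ (intForms (k - 12))) ≤
          Submodule.span ℂ (intForms k) := by
        rw [Submodule.map_span]
        refine Submodule.span_le.mpr ?_
        rintro _ ⟨h', hh', rfl⟩
        exact Submodule.subset_span (mulD12_mem_intForms k hh')
      exact hle (Submodule.mem_map_of_mem hhmem)

/-- The set of level one cusp forms of weight `k` with integral q-expansion. -/
def intCuspForms (k : ℤ) : Set (CuspForm 𝒮ℒ k) := {f | qExpansion 1 f ∈ intQ}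

lemma smul_discriminantEquiv_symm_mem_intCuspForms (k : ℤ) {h : ModularForm 𝒮ℒ (k - 12)}
    (hh : h ∈ intForms (k - 12)) :
    (1728 : ℂ) • (CuspForm.discriminantEquiv (k := k)).symm h ∈ intCuspForms k := by
  change qExpansion 1 (((1728 : ℂ) • (CuspForm.discriminantEquiv (k := k)).symm h :
    CuspForm 𝒮ℒ k) : ℍ → ℂ) ∈ intQ
  have : (((1728 : ℂ) • (CuspForm.discriminantEquiv (k := k)).symm h : CuspForm 𝒮ℒ k) : ℍ → ℂ)
      = ⇑(D12.mul h) := by
    ext z
    have : ((CuspForm.discriminantEquiv (k := k)).symm h) z = Δ z * h z := rfl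
    simp only [FunLike.coe_smul, Pi.smul_apply, smul_eq_mul, this, coe_mul, Pi.mul_apply,
      D12_eq_mul_discriminant]
    ring
  rw [this, ModularForm.qExpansion_mul one_pos one_mem_strictPeriods_SL]
  exact mul_mem qExpansion_D12_mem_intQ hh

/-- **Level one cusp forms of any weight are spanned over `ℂ` by the forms with integral
q-expansion.** -/
theorem span_intCuspForms_eq_top (k : ℤ) : Submodule.span ℂ (intCuspForms k) = ⊤ := by
  rw [eq_top_iff]
  intro f _
  have hf : f = (CuspForm.discriminantEquiv (k := k)).symm (CuspForm.discriminantEquiv f) :=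
    ((CuspForm.discriminantEquiv (k := k)).symm_apply_apply f).symm
  have hmem : CuspForm.discriminantEquiv f ∈ Submodule.span ℂ (intForms (k - 12)) := by
    rw [span_intForms_eq_top]
    trivial
  have hle : Submodule.map ((CuspForm.discriminantEquiv (k := k)).symm : _ →ₗ[ℂ] _)
      (Submodule.span ℂ (intForms (k - 12))) ≤ Submodule.span ℂ (intCuspForms k) := by
    rw [Submodule.map_span]
    refine Submodule.span_le.mpr ?_
    rintro _ ⟨h', hh', rfl⟩
    have h1 := Submodule.smul_mem _ (1 / 1728 : ℂ) (Submodule.subset_span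
      (smul_discriminantEquiv_symm_mem_intCuspForms k hh') :
        _ ∈ Submodule.span ℂ (intCuspForms k))
    rw [smul_smul] at h1
    norm_num at h1
    exact h1
  rw [hf]
  exact hle (Submodule.mem_map_of_mem hmem)

lemma map_smul_powerSeries (σ : ℂ →+* ℂ) (c : ℂ) (p : PowerSeries ℂ) :
    PowerSeries.map σ (c • p) = σ c • PowerSeries.map σ p := by
  ext n
  simp

/-- Level one modular forms are stable under applying a ring homomorphism of `ℂ` to the
coefficients of the q-expansion. -/
theorem exists_modularForm_qExpansion_map (k : ℤ) (σ : ℂ →+* ℂ) (f : ModularForm 𝒮ℒ k) :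
    ∃ g : ModularForm 𝒮ℒ k, qExpansion 1 g = PowerSeries.map σ (qExpansion 1 f) := by
  have hf : f ∈ Submodule.span ℂ (intForms k) := by
    rw [span_intForms_eq_top]
    trivial
  induction hf using Submodule.span_induction with
  | mem f hf => exact ⟨f, (map_eq_self_of_mem_intQ hf σ).symm⟩
  | zero => exact ⟨0, by simp [qExpansion_zero]⟩
  | add f₁ f₂ _ _ ih₁ ih₂ =>
    obtain ⟨g₁, hg₁⟩ := ih₁
    obtain ⟨g₂, hg₂⟩ := ih₂
    refine ⟨g₁ + g₂, ?_⟩
    rw [FunLike.coe_add, ModularForm.qExpansion_add one_pos one_mem_strictPeriods_SL,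
      FunLike.coe_add, ModularForm.qExpansion_add one_pos one_mem_strictPeriods_SL, map_add,
      hg₁, hg₂]
  | smul c f _ ih =>
    obtain ⟨g, hg⟩ := ih
    refine ⟨σ c • g, ?_⟩
    rw [FunLike.coe_smul, ModularForm.qExpansion_smul one_pos one_mem_strictPeriods_SL,
      FunLike.coe_smul, ModularForm.qExpansion_smul one_pos one_mem_strictPeriods_SL,
      map_smul_powerSeries, hg]

/-- Level one cusp forms are stable under applying a ring homomorphism of `ℂ` to the
coefficients of the q-expansion. -/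
theorem exists_cuspForm_qExpansion_map (k : ℤ) (σ : ℂ →+* ℂ) (f : CuspForm 𝒮ℒ k) :
    ∃ g : CuspForm 𝒮ℒ k, qExpansion 1 g = PowerSeries.map σ (qExpansion 1 f) := by
  have hf : f ∈ Submodule.span ℂ (intCuspForms k) := by
    rw [span_intCuspForms_eq_top]
    trivial
  induction hf using Submodule.span_induction with
  | mem f hf => exact ⟨f, (map_eq_self_of_mem_intQ hf σ).symm⟩
  | zero => exact ⟨0, by simp [qExpansion_zero]⟩
  | add f₁ f₂ _ _ ih₁ ih₂ =>
    obtain ⟨g₁, hg₁⟩ := ih₁
    obtain ⟨g₂, hg₂⟩ := ih₂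
    refine ⟨g₁ + g₂, ?_⟩
    rw [FunLike.coe_add, ModularForm.qExpansion_add one_pos one_mem_strictPeriods_SL,
      FunLike.coe_add, ModularForm.qExpansion_add one_pos one_mem_strictPeriods_SL, map_add,
      hg₁, hg₂]
  | smul c f _ ih =>
    obtain ⟨g, hg⟩ := ih
    refine ⟨σ c • g, ?_⟩
    rw [FunLike.coe_smul, ModularForm.qExpansion_smul one_pos one_mem_strictPeriods_SL,
      FunLike.coe_smul, ModularForm.qExpansion_smul one_pos one_mem_strictPeriods_SL,
      map_smul_powerSeries, hg]

instance instFiniteDimensionalCuspForm (k : ℤ) : FiniteDimensional ℂ (CuspForm 𝒮ℒ k) :=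
  (CuspForm.discriminantEquiv (k := k)).symm.finiteDimensional

/-- A basis of the level one modular forms of weight `k` consisting of forms with integral
q-expansion. -/
theorem exists_basis_intForms (k : ℤ) :
    ∃ (n : ℕ) (b : Module.Basis (Fin n) ℂ (ModularForm 𝒮ℒ k)), ∀ i, b i ∈ intForms k := by
  obtain ⟨t, hts, -, htspan, htind⟩ := Submodule.exists_finset_span_eq_linearIndepOn ℂ (intForms k)
  rw [span_intForms_eq_top] at htspan
  let b0 : Module.Basis (t : Set (ModularForm 𝒮ℒ k)) ℂ (ModularForm 𝒮ℒ k) :=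
    Module.Basis.mk htind (by simp [htspan])
  refine ⟨t.card, b0.reindex t.equivFin, fun i => ?_⟩
  rw [Module.Basis.reindex_apply]
  have : b0 (t.equivFin.symm i) = ((t.equivFin.symm i : t) : _) :=
    Module.Basis.mk_apply htind _ _
  rw [this]
  exact hts (t.equivFin.symm i).2

/-- A basis of the level one cusp forms of weight `k` consisting of forms with integral
q-expansion. -/
theorem exists_basis_intCuspForms (k : ℤ) :
    ∃ (n : ℕ) (b : Module.Basis (Fin n) ℂ (CuspForm 𝒮ℒ k)), ∀ i, b i ∈ intCuspForms k := by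
  obtain ⟨t, hts, -, htspan, htind⟩ := Submodule.exists_finset_span_eq_linearIndepOn ℂ (intCuspForms k)
  rw [span_intCuspForms_eq_top] at htspan
  let b0 : Module.Basis (t : Set (CuspForm 𝒮ℒ k)) ℂ (CuspForm 𝒮ℒ k) :=
    Module.Basis.mk htind (by simp [htspan])
  refine ⟨t.card, b0.reindex t.equivFin, fun i => ?_⟩
  rw [Module.Basis.reindex_apply]
  have : b0 (t.equivFin.symm i) = ((t.equivFin.symm i : t) : _) :=
    Module.Basis.mk_apply htind _ _
  rw [this]
  exact hts (t.equivFin.symm i).2

/-- The q-expansion of the discriminant is `1/1728` times that of `E₄³ - E₆²`. -/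
lemma qExpansion_discriminant_eq :
    qExpansion 1 Δ = (1 / 1728 : ℂ) • qExpansion 1 D12 := by
  have h : (Δ : ℍ → ℂ) = (1 / 1728 : ℂ) • (D12 : ℍ → ℂ) := by
    ext z
    simp only [Pi.smul_apply, smul_eq_mul, D12_eq_mul_discriminant]
    ring
  rw [h, ModularForm.qExpansion_smul one_pos one_mem_strictPeriods_SL]

/-- The q-expansion of the discriminant is fixed by every ring homomorphism of `ℂ` applied to
the coefficients (its coefficients are rational). -/
lemma map_qExpansion_discriminant (σ : ℂ →+* ℂ) :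
    PowerSeries.map σ (qExpansion 1 Δ) = qExpansion 1 Δ := by
  rw [qExpansion_discriminant_eq, map_smul_powerSeries,
    map_eq_self_of_mem_intQ qExpansion_D12_mem_intQ]
  congr 1
  rw [map_div₀, map_one, map_ofNat]

/-- `1728 • q(Δ)` has integer coefficients. -/
lemma smul_qExpansion_discriminant_mem_intQ : (1728 : ℂ) • qExpansion 1 Δ ∈ intQ := by
  rw [qExpansion_discriminant_eq, smul_smul]
  norm_num
  exact qExpansion_D12_mem_intQ

end Fermat.Agent.S23.H80
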