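import Fermat.Agent.S23.H23_Conj
import Fermat.Agent.S23.H70_FiniteDim
import Fermat.Agent.S23.H71_Descent
import Fermat.Agent.S23.H80_LevelOne

/-!
S23 assembly, final part (helper23).
From (a) stability of the q-expansion space under all ring automorphisms of `ℂ` and
(b) bounded denominators of its rational elements, deduce `CuspForm.HasIntegralStructure N k`.
Also: the level one spaces `qM1 j`, `qS1 j` are `IntSpanned` (from helper80's L1 package).
-/

set_option autoImplicit false

noncomputable section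

namespace Fermat.Agent.S23.H23

open PowerSeries UpperHalfPlane ModularForm CongruenceSubgroup
open scoped MatrixGroups

/-- level one modular forms: spanned by integral series -/
theorem intSpanned_qM1 (j : ℤ) : IntSpanned (qM1 j) := by
  obtain ⟨n, b, hb⟩ := H80.exists_basis_intForms j
  have hb' : ∀ i, ∃ P : PowerSeries ℤ, PowerSeries.map (Int.castRingHom ℂ) P = qExpansion 1 (b i) :=
    fun i => hb i
  choose B hB using hb'
  refine ⟨n, B, le_antisymm ?_ ?_⟩
  · rintro x ⟨f, rfl⟩
    have hf : f = ∑ i, b.repr f i • b i := (b.sum_repr f).symm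
    have hq : qExpansion 1 f = ∑ i, b.repr f i • qExpansion 1 (b i) := by
      have h1 : ∀ (s : Finset (Fin n)) (c : Fin n → ℂ),
          qExpansion 1 ⇑(∑ i ∈ s, c i • b i) = ∑ i ∈ s, c i • qExpansion 1 (b i) := by
        intro s c
        induction s using Finset.induction_on with
        | empty => simp [qExpansion_zero]
        | insert a s ha ih =>
          rw [Finset.sum_insert ha, Finset.sum_insert ha, FunLike.coe_add,
            ModularForm.qExpansion_add one_pos one_mem_strictPeriods_SL, ih, FunLike.coe_smul,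
            ModularForm.qExpansion_smul one_pos one_mem_strictPeriods_SL]
      conv_lhs => rw [hf]
      exact h1 _ _
    rw [hq]
    refine Submodule.sum_mem _ fun i _ => Submodule.smul_mem _ _ (Submodule.subset_span ⟨i, ?_⟩)
    exact hB i
  · rw [Submodule.span_le]
    rintro _ ⟨i, rfl⟩
    exact ⟨b i, (hB i).symm⟩

/-- level one cusp forms: spanned by integral series -/
theorem intSpanned_qS1 (j : ℤ) : IntSpanned (qS1 j) := by
  obtain ⟨n, b, hb⟩ := H80.exists_basis_intCuspForms j
  have hb' : ∀ i, ∃ P : PowerSeries ℤ, PowerSeries.map (Int.castRingHom ℂ) P = qExpansion 1 (b i) :=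
    fun i => hb i
  choose B hB using hb'
  refine ⟨n, B, le_antisymm ?_ ?_⟩
  · rintro x ⟨f, rfl⟩
    have hf : f = ∑ i, b.repr f i • b i := (b.sum_repr f).symm
    have hq : qExpansion 1 f = ∑ i, b.repr f i • qExpansion 1 (b i) := by
      have h1 : ∀ (s : Finset (Fin n)) (c : Fin n → ℂ),
          qExpansion 1 ⇑(∑ i ∈ s, c i • b i) = ∑ i ∈ s, c i • qExpansion 1 (b i) := by
        intro s c
        induction s using Finset.induction_on with
        | empty => simp [qExpansion_zero]
        | insert a s ha ih =>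
          rw [Finset.sum_insert ha, Finset.sum_insert ha, FunLike.coe_add,
            ModularForm.qExpansion_add one_pos one_mem_strictPeriods_SL, ih, FunLike.coe_smul,
            ModularForm.qExpansion_smul one_pos one_mem_strictPeriods_SL]
      conv_lhs => rw [hf]
      exact h1 _ _
    rw [hq]
    refine Submodule.sum_mem _ fun i _ => Submodule.smul_mem _ _ (Submodule.subset_span ⟨i, ?_⟩)
    exact hB i
  · rw [Submodule.span_le]
    rintro _ ⟨i, rfl⟩
    exact ⟨b i, (hB i).symm⟩

/-- The final wiring. -/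
theorem hasIntegralStructure_of (N : ℕ) [NeZero N] (k : ℤ)
    (hconj : ∀ σ : ℂ ≃+* ℂ, ∀ x ∈ qSΓ N k, PowerSeries.map (σ : ℂ →+* ℂ) x ∈ qSΓ N k)
    (hBD : ∀ X : PowerSeries ℚ, X.map (algebraMap ℚ ℂ) ∈ qSΓ N k →
      ∃ (M : ℤ) (Z : PowerSeries ℤ), M ≠ 0 ∧ (M : ℚ) • X = Z.map (Int.castRingHom ℚ)) :
    CuspForm.HasIntegralStructure N k := by
  have : FiniteDimensional ℂ (qSΓ N k) :=
    H70.finiteDimensional_of_eq_qExpansion_range N k (qSΓ N k) (fun _ => Iff.rfl)
  have hspan := H71.le_span_rational_of_forall_ringEquiv_map_mem (qSΓ N k) hconj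
  unfold CuspForm.HasIntegralStructure
  rw [eq_top_iff]
  intro f _
  set L := H70.qExpCuspLin N k with hL
  have hLinj : Function.Injective L := H70.qExpCuspLin_injective N k
  suffices h : L f ∈ (Submodule.span ℂ
      ((CuspForm.intLattice N k : Submodule ℤ (CuspForm (Gamma0 N) k)) :
        Set (CuspForm (Gamma0 N) k))).map L by
    obtain ⟨g, hg, hgf⟩ := h
    rwa [← hLinj hgf]
  have hLf : L f ∈ qSΓ N k := ⟨f, rfl⟩
  refine (Submodule.span_le.mpr ?_) (hspan hLf)
  rintro y ⟨⟨g, rfl⟩, r, hr⟩
  obtain ⟨M, Z, hM, hMZ⟩ := hBD r (by rw [← hr]; exact ⟨g, rfl⟩)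
  have hMC : (M : ℂ) ≠ 0 := by exact_mod_cast hM
  have hmem : (M : ℂ) • g ∈ (CuspForm.intLattice N k : Submodule ℤ (CuspForm (Gamma0 N) k)) := by
    refine Submodule.subset_span fun n => ⟨Z.coeff n, ?_⟩
    have h1 : ModularFormClass.qCoeff (⇑((M : ℂ) • g)) n = (L ((M : ℂ) • g)).coeff n := rfl
    rw [h1, map_smul]
    have h2 : L g = PowerSeries.map (algebraMap ℚ ℂ) r := hr
    rw [h2, PowerSeries.coeff_smul, PowerSeries.coeff_map]
    have h3 := congrArg (PowerSeries.coeff n) hMZ
    rw [PowerSeries.coeff_smul, PowerSeries.coeff_map] at h3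
    have h4 : ((M : ℚ) • (PowerSeries.coeff n r) : ℚ) = (Z.coeff n : ℚ) := by simpa using h3
    have h5 := congrArg (algebraMap ℚ ℂ) h4
    simpa [smul_eq_mul] using h5
  have : (L g : PowerSeries ℂ) = (M : ℂ)⁻¹ • L ((M : ℂ) • g) := by
    rw [map_smul, smul_smul, inv_mul_cancel₀ hMC, one_smul]
  show qExpansion 1 ⇑g ∈ _
  have hLg : qExpansion 1 ⇑g = L g := rfl
  rw [hLg, this]
  exact Submodule.smul_mem _ _ (Submodule.mem_map_of_mem (Submodule.subset_span hmem))

end Fermat.Agent.S23.H23

end
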