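import Mathlib

set_option autoImplicit false

namespace Fermat.Agent.S23.H57

open PowerSeries

/-- a rational number all of whose powers have a common integer denominator is an integer -/
theorem rat_isInt_of_forall_mul_pow (l : ℚ) (c : ℤ) (hc : c ≠ 0)
    (h : ∀ n : ℕ, ∃ k : ℤ, (c : ℚ) * l ^ n = k) : ∃ a : ℤ, l = a := by
  refine ⟨l.num, ?_⟩
  have hb : (l.den : ℤ) = 1 := by
    by_contra hne
    have hb2 : 2 ≤ l.den := by
      have := l.den_pos
      have h1 : l.den ≠ 1 := fun h1 => hne (by exact_mod_cast h1)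
      omega
    have hdvd : ∀ n : ℕ, (l.den : ℤ) ^ n ∣ c := by
      intro n
      obtain ⟨k, hk⟩ := h n
      have h1 : (c : ℚ) * (l.num : ℚ) ^ n = k * (l.den : ℚ) ^ n := by
        rw [← hk, ← Rat.mul_den_eq_num l, mul_pow]
        ring
      have h2 : c * l.num ^ n = k * (l.den : ℤ) ^ n := by exact_mod_cast h1
      have hcop : IsCoprime ((l.den : ℤ) ^ n) (l.num ^ n) := by
        apply IsCoprime.pow
        rw [Int.isCoprime_iff_gcd_eq_one, Int.gcd_comm]
        simpa [Int.gcd, Int.natAbs_natCast] using l.reduced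
      exact hcop.dvd_of_dvd_mul_right ⟨k, by rw [h2]; ring⟩
    have h3 := Int.le_of_dvd (Int.natAbs_pos.mpr hc |> fun h => by
      have : (0 : ℤ) < |c| := abs_pos.mpr hc
      exact this) ((dvd_abs _ _).mpr (hdvd c.natAbs))
    have h4 : (c.natAbs : ℤ) < (l.den : ℤ) ^ c.natAbs := by
      have h5 : c.natAbs < 2 ^ c.natAbs := Nat.lt_two_pow_self
      have h6 : 2 ^ c.natAbs ≤ l.den ^ c.natAbs := Nat.pow_le_pow_left hb2 _
      exact_mod_cast lt_of_lt_of_le h5 h6
    rw [Int.abs_eq_natAbs] at h3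
    omega
  have hb' : l.den = 1 := by exact_mod_cast hb
  rw [← Rat.num_div_den l, hb']
  simp

variable {R : Type*} [CommRing R]

/-- lowest coefficient of a product -/
theorem coeff_mul_of_vanish (f g : PowerSeries R) (a b : ℕ)
    (hf : ∀ i < a, coeff i f = 0) (hg : ∀ j < b, coeff j g = 0) :
    (∀ i < a + b, coeff i (f * g) = 0) ∧ coeff (a + b) (f * g) = coeff a f * coeff b g := by
  constructor
  · intro i hi
    rw [coeff_mul]
    apply Finset.sum_eq_zero
    rintro ⟨p, q⟩ hpq
    rw [Finset.HasAntidiagonal.mem_antidiagonal] at hpq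
    by_cases hp : p < a
    · rw [hf p hp, zero_mul]
    · have hq : q < b := by omega
      rw [hg q hq, mul_zero]
  · rw [coeff_mul, Finset.sum_eq_single (a, b)]
    · rintro ⟨p, q⟩ hpq hne
      rw [Finset.HasAntidiagonal.mem_antidiagonal] at hpq
      by_cases hp : p < a
      · rw [hf p hp, zero_mul]
      · by_cases hq : q < b
        · rw [hg q hq, mul_zero]
        · exfalso
          apply hne
          have : p = a := by omega
          have : q = b := by omega
          simp [*]
    · intro h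
      exact absurd (Finset.HasAntidiagonal.mem_antidiagonal.mpr (rfl : (a, b).1 + (a, b).2 = a + b)) h

theorem coeff_pow_of_vanish (f : PowerSeries R) (a : ℕ) (hf : ∀ i < a, coeff i f = 0) (n : ℕ) :
    (∀ i < a * n, coeff i (f ^ n) = 0) ∧ coeff (a * n) (f ^ n) = coeff a f ^ n := by
  induction n with
  | zero => simp
  | succ n ih =>
    have h := coeff_mul_of_vanish (f ^ n) f (a * n) a ih.1 hf
    rw [pow_succ, Nat.mul_succ]
    exact ⟨h.1, by rw [h.2, ih.2, pow_succ]⟩

/-- the subring of integral power series inside rational power series -/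
noncomputable def intSeries : Subring (PowerSeries ℚ) :=
  (PowerSeries.map (Int.castRingHom ℚ)).range

theorem mem_intSeries_iff (x : PowerSeries ℚ) :
    x ∈ intSeries ↔ ∀ i, ∃ k : ℤ, coeff i x = k := by
  constructor
  · rintro ⟨z, rfl⟩ i
    exact ⟨coeff i z, by simp⟩
  · intro h
    choose k hk using h
    refine ⟨PowerSeries.mk k, ?_⟩
    ext i
    simp [hk i]

/-- key step: the lowest coefficient is an integer -/
theorem lowest_coeff_int (y : PowerSeries ℚ) (c : PowerSeries ℤ) (hc : c ≠ 0)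
    (h : ∀ n : ℕ, c.map (Int.castRingHom ℚ) * y ^ n ∈ intSeries) (N : ℕ)
    (hy : ∀ i < N, coeff i y = 0) : ∃ k : ℤ, coeff N y = k := by
  obtain ⟨e, he0, he⟩ : ∃ e, coeff e c ≠ 0 ∧ ∀ i < e, coeff i c = 0 := by
    have hex : ∃ e, coeff e c ≠ 0 := by
      by_contra hcon
      push Not at hcon
      exact hc (PowerSeries.ext (by simpa using hcon))
    exact ⟨Nat.find hex, Nat.find_spec hex, fun i hi => by
      simpa using Nat.find_min hex hi⟩
  apply rat_isInt_of_forall_mul_pow (coeff N y) (coeff e c) he0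
  intro n
  have hcq : ∀ i < e, coeff i (c.map (Int.castRingHom ℚ)) = 0 := by
    intro i hi
    simp [he i hi]
  have h1 := coeff_mul_of_vanish (c.map (Int.castRingHom ℚ)) (y ^ n) e (N * n) hcq
    (coeff_pow_of_vanish y N hy n).1
  obtain ⟨k, hk⟩ := (mem_intSeries_iff _).mp (h n) (e + N * n)
  refine ⟨k, ?_⟩
  rw [← hk, h1.2, (coeff_pow_of_vanish y N hy n).2]
  simp

theorem sub_mem_almost (x z : PowerSeries ℚ) (c : PowerSeries ℤ) (hz : z ∈ intSeries)
    (h : ∀ n : ℕ, c.map (Int.castRingHom ℚ) * x ^ n ∈ intSeries) (n : ℕ) :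
    c.map (Int.castRingHom ℚ) * (x - z) ^ n ∈ intSeries := by
  rw [sub_eq_add_neg, add_pow, Finset.mul_sum]
  refine Subring.sum_mem _ fun j _ => ?_
  have h1 : c.map (Int.castRingHom ℚ) * (x ^ j * (-z) ^ (n - j) * (n.choose j : PowerSeries ℚ)) =
      (c.map (Int.castRingHom ℚ) * x ^ j) * ((-z) ^ (n - j) * (n.choose j : PowerSeries ℚ)) := by
    ring
  rw [h1]
  exact Subring.mul_mem _ (h j) (Subring.mul_mem _ (Subring.pow_mem _ (Subring.neg_mem _ hz) _)
    (natCast_mem _ _))

/-- **Complete integral closedness of `ℤ⟦X⟧` inside `ℚ⟦X⟧`.** -/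
theorem mem_intSeries_of_forall_mul_pow (x : PowerSeries ℚ) (c : PowerSeries ℤ) (hc : c ≠ 0)
    (h : ∀ n : ℕ, c.map (Int.castRingHom ℚ) * x ^ n ∈ intSeries) : x ∈ intSeries := by
  rw [mem_intSeries_iff]
  intro N
  induction N using Nat.strong_induction_on with
  | _ N ih =>
    choose! k hk using ih
    -- the integral truncation
    let z : PowerSeries ℚ := PowerSeries.mk fun i => if i < N then (k i : ℚ) else 0
    have hz : z ∈ intSeries := by
      rw [mem_intSeries_iff]
      intro i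
      by_cases hi : i < N
      · exact ⟨k i, by simp [z, hi]⟩
      · exact ⟨0, by simp [z, hi]⟩
    have hy : ∀ i < N, coeff i (x - z) = 0 := by
      intro i hi
      simp [z, hi, hk i hi]
    obtain ⟨a, ha⟩ := lowest_coeff_int (x - z) c hc (sub_mem_almost x z c hz h) N hy
    refine ⟨a, ?_⟩
    rw [← ha]
    simp [z]

/-- the form with explicit witnesses -/
theorem mem_range_map_of_forall_mul_pow (x : PowerSeries ℚ) (c : PowerSeries ℤ) (hc : c ≠ 0)
    (h : ∀ n : ℕ, ∃ y : PowerSeries ℤ,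
      c.map (Int.castRingHom ℚ) * x ^ n = y.map (Int.castRingHom ℚ)) :
    ∃ z : PowerSeries ℤ, x = z.map (Int.castRingHom ℚ) := by
  obtain ⟨z, hz⟩ := mem_intSeries_of_forall_mul_pow x c hc
    (fun n => by obtain ⟨y, hy⟩ := h n; exact ⟨y, hy.symm⟩)
  exact ⟨z, hz.symm⟩

/-- An element of the fraction field of `ℤ⟦X⟧` (inside `ℚ⟦X⟧`) which is integral over `ℤ⟦X⟧`
lies in `ℤ⟦X⟧`. -/
theorem mem_intSeries_of_monic_of_frac (x : PowerSeries ℚ) (a : PowerSeries ℤ) (ha : a ≠ 0)
    (hax : a.map (Int.castRingHom ℚ) * x ∈ intSeries) (m : ℕ) (C : ℕ → PowerSeries ℚ)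
    (hC : ∀ i, C i ∈ intSeries)
    (hroot : x ^ m + ∑ i ∈ Finset.range m, C i * x ^ i = 0) : x ∈ intSeries := by
  have ham : a ^ m ≠ 0 := pow_ne_zero _ ha
  apply mem_intSeries_of_forall_mul_pow x (a ^ m) ham
  have haZ : a.map (Int.castRingHom ℚ) ∈ intSeries := ⟨a, rfl⟩
  intro n
  rw [map_pow]
  induction n using Nat.strong_induction_on with
  | _ n ih =>
    by_cases hn : n ≤ m
    · have h1 : (a.map (Int.castRingHom ℚ)) ^ m * x ^ n =
          (a.map (Int.castRingHom ℚ)) ^ (m - n) * (a.map (Int.castRingHom ℚ) * x) ^ n := by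
        rw [mul_pow, ← mul_assoc, ← pow_add, Nat.sub_add_cancel hn]
      rw [h1]
      exact Subring.mul_mem _ (Subring.pow_mem _ haZ _) (Subring.pow_mem _ hax _)
    · push Not at hn
      have hxm : x ^ m = - ∑ i ∈ Finset.range m, C i * x ^ i := eq_neg_of_add_eq_zero_left hroot
      have h1 : x ^ n = - ∑ i ∈ Finset.range m, C i * x ^ (i + (n - m)) := by
        have h2 : x ^ n = x ^ m * x ^ (n - m) := by
          rw [← pow_add, Nat.add_sub_cancel' hn.le]
        rw [h2, hxm, neg_mul, Finset.sum_mul]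
        congr 1
        refine Finset.sum_congr rfl fun i _ => ?_
        rw [pow_add]; ring
      rw [h1, mul_neg, Finset.mul_sum]
      refine Subring.neg_mem _ (Subring.sum_mem _ fun i hi => ?_)
      have h3 : (a.map (Int.castRingHom ℚ)) ^ m * (C i * x ^ (i + (n - m))) =
          C i * ((a.map (Int.castRingHom ℚ)) ^ m * x ^ (i + (n - m))) := by ring
      rw [h3]
      have hi' : i < m := Finset.mem_range.mp hi
      exact Subring.mul_mem _ (hC i) (ih (i + (n - m)) (by omega))

end Fermat.Agent.S23.H57
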