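import Mathlib
import Fermat.Agent.S23.H57_AlmostIntegral

set_option autoImplicit false

namespace Fermat.Agent.S23.H57

open PowerSeries

/-- coefficientwise application of a `ℚ`-linear functional on `ℂ` -/
noncomputable def coeffwise (π : ℂ →ₗ[ℚ] ℚ) : PowerSeries ℂ →ₗ[ℚ] PowerSeries ℚ where
  toFun x := PowerSeries.mk fun n => π (coeff n x)
  map_add' x y := by ext n; simp
  map_smul' r x := by ext n; simp

@[simp] theorem coeff_coeffwise (π : ℂ →ₗ[ℚ] ℚ) (x : PowerSeries ℂ) (n : ℕ) :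
    coeff n (coeffwise π x) = π (coeff n x) := by
  simp [coeffwise]

theorem coeffwise_map_mul (π : ℂ →ₗ[ℚ] ℚ) (A : PowerSeries ℚ) (x : PowerSeries ℂ) :
    coeffwise π (A.map (algebraMap ℚ ℂ) * x) = A * coeffwise π x := by
  ext n
  rw [coeff_coeffwise, coeff_mul, coeff_mul, map_sum]
  refine Finset.sum_congr rfl fun p _ => ?_
  rw [coeff_map, coeff_coeffwise, ← Algebra.smul_def, map_smul, smul_eq_mul]

theorem coeffwise_mul_map (π : ℂ →ₗ[ℚ] ℚ) (A : PowerSeries ℚ) (x : PowerSeries ℂ) :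
    coeffwise π (x * A.map (algebraMap ℚ ℂ)) = coeffwise π x * A := by
  rw [mul_comm, coeffwise_map_mul, mul_comm]

theorem coeffwise_map (π : ℂ →ₗ[ℚ] ℚ) (A : PowerSeries ℚ) :
    coeffwise π (A.map (algebraMap ℚ ℂ)) = C (π 1) * A := by
  have h := coeffwise_mul_map π A 1
  rw [one_mul] at h
  rw [h]
  congr 1
  ext n
  rw [coeff_coeffwise, coeff_one, coeff_C]
  split_ifs <;> simp

theorem map_int_eq (B : PowerSeries ℤ) :
    B.map (Int.castRingHom ℂ) = (B.map (Int.castRingHom ℚ)).map (algebraMap ℚ ℂ) := by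
  ext n
  simp

/-- rational power series with bounded denominators -/
noncomputable def bddDen : Subring (PowerSeries ℚ) where
  carrier := {y | ∃ D : ℤ, D ≠ 0 ∧ (D : PowerSeries ℚ) * y ∈ intSeries}
  zero_mem' := ⟨1, one_ne_zero, by simp⟩
  one_mem' := ⟨1, one_ne_zero, by simp⟩
  add_mem' := by
    rintro x y ⟨D, hD, hx⟩ ⟨E, hE, hy⟩
    refine ⟨D * E, mul_ne_zero hD hE, ?_⟩
    have h1 : ((D * E : ℤ) : PowerSeries ℚ) * (x + y) =
        (E : PowerSeries ℚ) * ((D : PowerSeries ℚ) * x) +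
        (D : PowerSeries ℚ) * ((E : PowerSeries ℚ) * y) := by push_cast; ring
    rw [h1]
    exact Subring.add_mem _ (Subring.mul_mem _ (intCast_mem _ _) hx)
      (Subring.mul_mem _ (intCast_mem _ _) hy)
  mul_mem' := by
    rintro x y ⟨D, hD, hx⟩ ⟨E, hE, hy⟩
    refine ⟨D * E, mul_ne_zero hD hE, ?_⟩
    have h1 : ((D * E : ℤ) : PowerSeries ℚ) * (x * y) =
        ((D : PowerSeries ℚ) * x) * ((E : PowerSeries ℚ) * y) := by push_cast; ring
    rw [h1]
    exact Subring.mul_mem _ hx hy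
  neg_mem' := by
    rintro x ⟨D, hD, hx⟩
    refine ⟨D, hD, ?_⟩
    rw [mul_neg]
    exact Subring.neg_mem _ hx

theorem mem_bddDen_iff (y : PowerSeries ℚ) :
    y ∈ bddDen ↔ ∃ D : ℤ, D ≠ 0 ∧ (D : PowerSeries ℚ) * y ∈ intSeries := Iff.rfl

theorem intSeries_le_bddDen : intSeries ≤ bddDen := fun y hy =>
  ⟨1, one_ne_zero, by simpa using hy⟩

theorem C_mul_mem_bddDen (r : ℚ) {y : PowerSeries ℚ} (hy : y ∈ bddDen) : C r * y ∈ bddDen := by
  refine Subring.mul_mem _ ⟨r.den, by exact_mod_cast r.den_ne_zero, ?_⟩ hy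
  have h1 : ((r.den : ℤ) : PowerSeries ℚ) * C r = ((r.num : ℤ) : PowerSeries ℚ) := by
    ext n
    have h2 : ((r.den : ℤ) : PowerSeries ℚ) = C ((r.den : ℤ) : ℚ) := by simp
    have h3 : ((r.num : ℤ) : PowerSeries ℚ) = C ((r.num : ℤ) : ℚ) := by simp
    rw [h2, h3, ← map_mul]
    congr 2
    push_cast
    rw [mul_comm]
    exact Rat.mul_den_eq_num r
  rw [h1]
  exact intCast_mem _ _

/-- a finite common denominator -/
theorem exists_common_den {ι : Type*} (s : Finset ι) (f : ι → PowerSeries ℚ)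
    (hf : ∀ i ∈ s, f i ∈ bddDen) :
    ∃ D : ℤ, D ≠ 0 ∧ ∀ i ∈ s, (D : PowerSeries ℚ) * f i ∈ intSeries := by
  classical
  induction s using Finset.induction_on with
  | empty => exact ⟨1, one_ne_zero, by simp⟩
  | insert a s ha ih =>
    obtain ⟨D, hD, hDs⟩ := ih fun i hi => hf i (Finset.mem_insert_of_mem hi)
    obtain ⟨E, hE, hEa⟩ := hf a (Finset.mem_insert_self a s)
    refine ⟨D * E, mul_ne_zero hD hE, fun i hi => ?_⟩
    rcases Finset.mem_insert.mp hi with rfl | hi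
    · have h1 : ((D * E : ℤ) : PowerSeries ℚ) * f i =
          (D : PowerSeries ℚ) * ((E : PowerSeries ℚ) * f i) := by push_cast; ring
      rw [h1]
      exact Subring.mul_mem _ (intCast_mem _ _) hEa
    · have h1 : ((D * E : ℤ) : PowerSeries ℚ) * f i =
          (E : PowerSeries ℚ) * ((D : PowerSeries ℚ) * f i) := by push_cast; ring
      rw [h1]
      exact Subring.mul_mem _ (intCast_mem _ _) (hDs i hi)

/-- complex combinations of integral power series -/
noncomputable def intSpan : Submodule ℂ (PowerSeries ℂ) :=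
  Submodule.span ℂ (Set.range fun B : PowerSeries ℤ => B.map (Int.castRingHom ℂ))

theorem coeffwise_mem_bddDen (π : ℂ →ₗ[ℚ] ℚ) {x : PowerSeries ℂ} (hx : x ∈ intSpan) :
    coeffwise π x ∈ bddDen := by
  revert π
  refine Submodule.span_induction (p := fun x _ => ∀ π : ℂ →ₗ[ℚ] ℚ, coeffwise π x ∈ bddDen)
    ?_ ?_ ?_ ?_ hx
  · rintro _ ⟨B, rfl⟩ π
    change coeffwise π (B.map (Int.castRingHom ℂ)) ∈ bddDen
    rw [map_int_eq, coeffwise_map]
    exact C_mul_mem_bddDen _ (intSeries_le_bddDen ⟨B, rfl⟩)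
  · intro π
    rw [map_zero]
    exact Subring.zero_mem _
  · intro x y _ _ hx hy π
    rw [map_add]
    exact Subring.add_mem _ (hx π) (hy π)
  · intro z x _ hx π
    have h1 : coeffwise π (z • x) =
        coeffwise (π.comp ((LinearMap.mulLeft ℂ z).restrictScalars ℚ)) x := by
      ext n
      simp
    rw [h1]
    exact hx _

/-- pure `ℚ⟦X⟧` statement -/
theorem mem_bddDen_of_frac_of_monic (F a b : PowerSeries ℚ) (ha : a ≠ 0) (ha' : a ∈ bddDen)
    (hb' : b ∈ bddDen) (hab : a * F = b) (μ : ℕ) (σ : ℕ → PowerSeries ℚ)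
    (hσ : ∀ i < μ, σ i ∈ bddDen) (hroot : F ^ μ + ∑ i ∈ Finset.range μ, σ i * F ^ i = 0) :
    F ∈ bddDen := by
  obtain ⟨D, hD, hDσ⟩ := exists_common_den (Finset.range μ) σ
    (fun i hi => hσ i (Finset.mem_range.mp hi))
  obtain ⟨Da, hDa, haZ⟩ := ha'
  obtain ⟨Db, hDb, hbZ⟩ := hb'
  have hDq : (D : PowerSeries ℚ) ≠ 0 := by
    intro h
    apply hD
    have := congrArg (coeff 0) h
    simpa using this
  refine ⟨D, hD, ?_⟩
  -- the integral denominator
  obtain ⟨a0, ha0⟩ : ∃ a0 : PowerSeries ℤ,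
      a0.map (Int.castRingHom ℚ) = ((Da * Db : ℤ) : PowerSeries ℚ) * a := by
    have h1 : ((Da * Db : ℤ) : PowerSeries ℚ) * a ∈ intSeries := by
      have h2 : ((Da * Db : ℤ) : PowerSeries ℚ) * a =
          (Db : PowerSeries ℚ) * ((Da : PowerSeries ℚ) * a) := by push_cast; ring
      rw [h2]
      exact Subring.mul_mem _ (intCast_mem _ _) haZ
    obtain ⟨a0, h⟩ := h1
    exact ⟨a0, h⟩
  have ha0ne : a0 ≠ 0 := by
    intro h
    rw [h, map_zero] at ha0
    have hne : ((Da * Db : ℤ) : PowerSeries ℚ) ≠ 0 := by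
      intro h'
      have := congrArg (coeff 0) h'
      simp at this
      rcases this with h1 | h1
      · exact hDa h1
      · exact hDb h1
    exact (mul_ne_zero hne ha) ha0.symm
  apply mem_intSeries_of_monic_of_frac ((D : PowerSeries ℚ) * F) a0 ha0ne ?_ μ
    (fun i => if i < μ then (D : PowerSeries ℚ) ^ (μ - i) * σ i else 0) ?_ ?_
  · rw [ha0]
    have h1 : ((Da * Db : ℤ) : PowerSeries ℚ) * a * ((D : PowerSeries ℚ) * F) =
        (Da : PowerSeries ℚ) * (D : PowerSeries ℚ) * ((Db : PowerSeries ℚ) * (a * F)) := by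
      push_cast; ring
    rw [h1, hab]
    exact Subring.mul_mem _ (Subring.mul_mem _ (intCast_mem _ _) (intCast_mem _ _)) hbZ
  · intro i
    split_ifs with hi
    · have h1 : (D : PowerSeries ℚ) ^ (μ - i) * σ i =
          (D : PowerSeries ℚ) ^ (μ - i - 1) * ((D : PowerSeries ℚ) * σ i) := by
        rw [← mul_assoc, ← pow_succ]
        congr 2
        omega
      rw [h1]
      exact Subring.mul_mem _ (Subring.pow_mem _ (intCast_mem _ _) _)
        (hDσ i (Finset.mem_range.mpr hi))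
    · exact Subring.zero_mem _
  · have h1 : ((D : PowerSeries ℚ) * F) ^ μ +
        ∑ i ∈ Finset.range μ, (if i < μ then (D : PowerSeries ℚ) ^ (μ - i) * σ i else 0) *
          ((D : PowerSeries ℚ) * F) ^ i =
        (D : PowerSeries ℚ) ^ μ * (F ^ μ + ∑ i ∈ Finset.range μ, σ i * F ^ i) := by
      rw [mul_add, Finset.mul_sum, mul_pow]
      congr 1
      refine Finset.sum_congr rfl fun i hi => ?_
      have hi' : i < μ := Finset.mem_range.mp hi
      rw [if_pos hi', mul_pow]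
      have h2 : (D : PowerSeries ℚ) ^ μ = (D : PowerSeries ℚ) ^ (μ - i) * (D : PowerSeries ℚ) ^ i := by
        rw [← pow_add]
        congr 1
        omega
      rw [h2]
      ring
    rw [h1, hroot, mul_zero]

theorem map_int_pow_eq (ε : PowerSeries ℤ) (m : ℕ) :
    (ε.map (Int.castRingHom ℂ)) ^ m =
      ((ε.map (Int.castRingHom ℚ)) ^ m).map (algebraMap ℚ ℂ) := by
  rw [map_pow, map_int_eq]

/-- **Bounded denominators.** A rational power series `F` which is a quotient of two complex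
combinations of integral series and satisfies a monic equation whose coefficients are complex
combinations of integral series has bounded denominators. -/
theorem bounded_denominators (μ : ℕ) (F : PowerSeries ℚ) (ε : PowerSeries ℤ)
    (d c s : Fin μ → PowerSeries ℂ) (hd : ∀ m, d m ∈ intSpan) (hc : ∀ m, c m ∈ intSpan)
    (hs : ∀ r, s r ∈ intSpan)
    (hne : ∑ m : Fin μ, d m * (ε.map (Int.castRingHom ℂ)) ^ (m : ℕ) ≠ 0)
    (hfrac : (∑ m : Fin μ, d m * (ε.map (Int.castRingHom ℂ)) ^ (m : ℕ)) *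
        F.map (algebraMap ℚ ℂ) = ∑ m : Fin μ, c m * (ε.map (Int.castRingHom ℂ)) ^ (m : ℕ))
    (hroot : (F.map (algebraMap ℚ ℂ)) ^ μ +
        ∑ r : Fin μ, s r * (F.map (algebraMap ℚ ℂ)) ^ (μ - 1 - (r : ℕ)) = 0) :
    F ∈ bddDen := by
  -- a functional detecting the denominator
  obtain ⟨n, hn⟩ : ∃ n, coeff n (∑ m : Fin μ, d m * (ε.map (Int.castRingHom ℂ)) ^ (m : ℕ)) ≠ 0 := by
    by_contra hcon
    push Not at hcon
    exact hne (PowerSeries.ext (by simpa using hcon))
  obtain ⟨π, hπ⟩ := Module.Projective.exists_dual_ne_zero ℚ hn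
  have hεmem : ε.map (Int.castRingHom ℚ) ∈ bddDen := intSeries_le_bddDen ⟨ε, rfl⟩
  have key : ∀ (π : ℂ →ₗ[ℚ] ℚ) (e : Fin μ → PowerSeries ℂ),
      coeffwise π (∑ m : Fin μ, e m * (ε.map (Int.castRingHom ℂ)) ^ (m : ℕ)) =
        ∑ m : Fin μ, coeffwise π (e m) * (ε.map (Int.castRingHom ℚ)) ^ (m : ℕ) := by
    intro π e
    rw [map_sum]
    refine Finset.sum_congr rfl fun m _ => ?_
    rw [map_int_pow_eq, coeffwise_mul_map]
  have hmem : ∀ (π : ℂ →ₗ[ℚ] ℚ) (e : Fin μ → PowerSeries ℂ), (∀ m, e m ∈ intSpan) →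
      ∑ m : Fin μ, coeffwise π (e m) * (ε.map (Int.castRingHom ℚ)) ^ (m : ℕ) ∈ bddDen := by
    intro π e he
    exact Subring.sum_mem _ fun m _ =>
      Subring.mul_mem _ (coeffwise_mem_bddDen π (he m)) (Subring.pow_mem _ hεmem _)
  -- the fraction
  have hab : (∑ m : Fin μ, coeffwise π (d m) * (ε.map (Int.castRingHom ℚ)) ^ (m : ℕ)) * F =
      ∑ m : Fin μ, coeffwise π (c m) * (ε.map (Int.castRingHom ℚ)) ^ (m : ℕ) := by
    rw [← key π d, ← key π c, ← hfrac, coeffwise_mul_map]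
  have ha : (∑ m : Fin μ, coeffwise π (d m) * (ε.map (Int.castRingHom ℚ)) ^ (m : ℕ)) ≠ 0 := by
    rw [← key π d]
    intro h
    apply hπ
    have := congrArg (coeff n) h
    simpa using this
  -- the monic equation
  obtain ⟨π', hπ'⟩ := Module.Projective.exists_dual_eq_one ℚ (one_ne_zero : (1 : ℂ) ≠ 0)
  have hroot' : F ^ μ + ∑ r : Fin μ, coeffwise π' (s r) * F ^ (μ - 1 - (r : ℕ)) = 0 := by
    have h1 := congrArg (coeffwise π') hroot
    rw [map_add, map_zero, map_sum] at h1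
    rw [← h1]
    congr 1
    · rw [← map_pow, coeffwise_map]
      change F ^ μ = C (π' 1) * F ^ μ
      rw [hπ', map_one, one_mul]
    · refine Finset.sum_congr rfl fun r _ => ?_
      rw [← map_pow, coeffwise_mul_map]
  -- reindex
  let σ : ℕ → PowerSeries ℚ := fun i =>
    if h : i < μ then coeffwise π' (s (Fin.rev ⟨i, h⟩)) else 0
  have hσ : ∀ i < μ, σ i ∈ bddDen := by
    intro i hi
    simp only [σ, dif_pos hi]
    exact coeffwise_mem_bddDen π' (hs _)
  have hsum : ∑ i ∈ Finset.range μ, σ i * F ^ i =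
      ∑ r : Fin μ, coeffwise π' (s r) * F ^ (μ - 1 - (r : ℕ)) := by
    rw [Finset.sum_range, ← Equiv.sum_comp Fin.revPerm]
    refine Finset.sum_congr rfl fun r _ => ?_
    have h1 : ((Fin.revPerm r : Fin μ) : ℕ) = μ - 1 - (r : ℕ) := by
      rw [Fin.revPerm_apply, Fin.val_rev]; omega
    have h2 : σ ((Fin.revPerm r : Fin μ) : ℕ) = coeffwise π' (s r) := by
      simp only [σ, dif_pos (Fin.revPerm r).isLt]
      congr 2
      rw [Fin.revPerm_apply]
      exact Fin.rev_rev r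
    rw [h2, h1]
  exact mem_bddDen_of_frac_of_monic F _ _ ha (hmem π d hd) (hmem π c hc) hab μ σ hσ
    (by rw [hsum]; exact hroot')

theorem exists_int_mul_of_mem_bddDen {F : PowerSeries ℚ} (h : F ∈ bddDen) :
    ∃ D : ℤ, D ≠ 0 ∧ ∃ G : PowerSeries ℤ, ∀ n, (D : ℚ) * coeff n F = ((coeff n G : ℤ) : ℚ) := by
  obtain ⟨D, hD, G, hG⟩ := h
  refine ⟨D, hD, G, fun n => ?_⟩
  have h1 := congrArg (coeff n) hG
  have h2 : ((D : ℤ) : PowerSeries ℚ) = C ((D : ℤ) : ℚ) := by simp
  rw [h2, coeff_C_mul, coeff_map] at h1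
  rw [← h1]
  simp

end Fermat.Agent.S23.H57
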