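import Mathlib
import Fermat.Prelude.Def_CuspForm_IntegralStructure
import Fermat.Prelude.Thm_CongruenceSubgroup_one_mem_strictPeriods_Gamma0

/-!
Shared definitions for project S23 (integral structure on cusp forms of level Gamma0 N).
Everything is phrased with q-expansions `qExpansion 1 f : PowerSeries ℂ`.
-/

set_option autoImplicit false

noncomputable section

namespace Fermat.Agent.S23

open UpperHalfPlane ModularForm CongruenceSubgroup
open scoped MatrixGroups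

/-- The coset space `SL(2,ℤ) / Gamma0 N` in the form used by Mathlib's `quotientFunc`. -/
abbrev cosetsΓ0 (N : ℕ) : Type :=
  𝒮ℒ ⧸ ((Gamma0 N : Subgroup (GL (Fin 2) ℝ)).subgroupOf 𝒮ℒ)

/-- The index of `Gamma0 N` in `SL(2,ℤ)`, as the cardinality of `cosetsΓ0 N`. -/
def indexΓ0 (N : ℕ) : ℕ := Nat.card (cosetsΓ0 N)

/-- q-expansions of level one modular forms of weight `k`. -/
def qM1 (k : ℤ) : Submodule ℂ (PowerSeries ℂ) where
  carrier := {x | ∃ f : ModularForm 𝒮ℒ k, qExpansion 1 f = x}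
  add_mem' := by
    rintro _ _ ⟨f, rfl⟩ ⟨g, rfl⟩
    exact ⟨f + g, by
      rw [FunLike.coe_add]
      exact ModularForm.qExpansion_add one_pos one_mem_strictPeriods_SL f g⟩
  zero_mem' := ⟨0, by rw [FunLike.coe_zero]; exact qExpansion_zero 1⟩
  smul_mem' := by
    rintro c _ ⟨f, rfl⟩
    exact ⟨c • f, by
      rw [FunLike.coe_smul]
      exact ModularForm.qExpansion_smul one_pos one_mem_strictPeriods_SL c f⟩

/-- q-expansions of level one cusp forms of weight `k`. -/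
def qS1 (k : ℤ) : Submodule ℂ (PowerSeries ℂ) where
  carrier := {x | ∃ f : CuspForm 𝒮ℒ k, qExpansion 1 f = x}
  add_mem' := by
    rintro _ _ ⟨f, rfl⟩ ⟨g, rfl⟩
    exact ⟨f + g, by
      rw [FunLike.coe_add]
      exact ModularForm.qExpansion_add one_pos one_mem_strictPeriods_SL f g⟩
  zero_mem' := ⟨0, by rw [FunLike.coe_zero]; exact qExpansion_zero 1⟩
  smul_mem' := by
    rintro c _ ⟨f, rfl⟩
    exact ⟨c • f, by
      rw [FunLike.coe_smul]
      exact ModularForm.qExpansion_smul one_pos one_mem_strictPeriods_SL c f⟩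

/-- q-expansions of cusp forms of weight `k` on `Gamma0 N`. -/
def qSΓ (N : ℕ) (k : ℤ) : Submodule ℂ (PowerSeries ℂ) where
  carrier := {x | ∃ f : CuspForm (Gamma0 N) k, qExpansion 1 f = x}
  add_mem' := by
    rintro _ _ ⟨f, rfl⟩ ⟨g, rfl⟩
    exact ⟨f + g, by
      rw [FunLike.coe_add]
      exact ModularForm.qExpansion_add one_pos (one_mem_strictPeriods_Gamma0 N) f g⟩
  zero_mem' := ⟨0, by rw [FunLike.coe_zero]; exact qExpansion_zero 1⟩
  smul_mem' := by
    rintro c _ ⟨f, rfl⟩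
    exact ⟨c • f, by
      rw [FunLike.coe_smul]
      exact ModularForm.qExpansion_smul one_pos (one_mem_strictPeriods_Gamma0 N) c f⟩

theorem mem_qM1 {k : ℤ} {x : PowerSeries ℂ} :
    x ∈ qM1 k ↔ ∃ f : ModularForm 𝒮ℒ k, qExpansion 1 f = x := Iff.rfl

theorem mem_qS1 {k : ℤ} {x : PowerSeries ℂ} :
    x ∈ qS1 k ↔ ∃ f : CuspForm 𝒮ℒ k, qExpansion 1 f = x := Iff.rfl

theorem mem_qSΓ {N : ℕ} {k : ℤ} {x : PowerSeries ℂ} :
    x ∈ qSΓ N k ↔ ∃ f : CuspForm (Gamma0 N) k, qExpansion 1 f = x := Iff.rfl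

/-- The series-level normal form ("Shimura datum") for a power series `x`:
`x` is a ratio of two polynomials in `ε` with level-one coefficients of the right weights, and `x`
is a root of a monic polynomial whose coefficients are q-expansions of level-one cusp forms. -/
def IsShimuraDatum (k w : ℤ) (μ : ℕ) (ε x : PowerSeries ℂ) : Prop :=
  ∃ d c s : Fin μ → PowerSeries ℂ,
    (∀ m : Fin μ, d m ∈ qM1 (((μ : ℤ) - 1 - (m : ℕ)) * w)) ∧
    (∀ m : Fin μ, c m ∈ qM1 (k + ((μ : ℤ) - 1 - (m : ℕ)) * w)) ∧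
    (∀ r : Fin μ, s r ∈ qS1 ((((r : ℕ) : ℤ) + 1) * k)) ∧
    (∑ m : Fin μ, d m * ε ^ (m : ℕ)) ≠ 0 ∧
    (∑ m : Fin μ, d m * ε ^ (m : ℕ)) * x = ∑ m : Fin μ, c m * ε ^ (m : ℕ) ∧
    x ^ μ + ∑ r : Fin μ, s r * x ^ (μ - 1 - (r : ℕ)) = 0

end Fermat.Agent.S23

end
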