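import Mathlib
import Fermat.Agent.S23.Defs
import Fermat.Agent.S23.H80_LevelOne
import Fermat.Agent.S23.H85_DeltaN

/-!
The primitive element used in project S23, normalised so that its q-expansion has integer
coefficients: `eN N = 1728 • Δ(N z)`, a cusp form of weight 12 on `Gamma0 N`.
-/

set_option autoImplicit false

open UpperHalfPlane CongruenceSubgroup ModularForm ModularFormClass Matrix
open scoped MatrixGroups ModularForm Manifold

namespace Fermat.Agent.S23.H80

noncomputable section

variable (N : ℕ) [NeZero N]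

/-- `1728 • Δ(N z)` as a cusp form of weight `12` on `Gamma0 N`. -/
def eN : CuspForm ((Gamma0 N).map (SpecialLinearGroup.mapGL ℝ)) 12 :=
  (1728 : ℂ) • H85.deltaN N

lemma eN_apply (z : ℍ) :
    eN N z = 1728 * ModularForm.discriminant (heckeDiagMatrix N • z) := by
  change (1728 : ℂ) • H85.deltaN N z = _
  rw [H85.deltaN_apply, smul_eq_mul]

lemma coe_eN : (eN N : ℍ → ℂ) = (1728 : ℂ) • (H85.deltaN N : ℍ → ℂ) := rfl

lemma qExpansion_eN :
    qExpansion 1 (eN N) = (1728 : ℂ) • qExpansion 1 (H85.deltaN N) := by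
  rw [coe_eN]
  exact ModularForm.qExpansion_smul one_pos (one_mem_strictPeriods_Gamma0 N) _ _

/-- The coefficients of the q-expansion of `eN N`. -/
lemma coeff_qExpansion_eN (n : ℕ) :
    (qExpansion 1 (eN N)).coeff n =
      if N ∣ n then ((1728 : ℂ) • qExpansion 1 ModularForm.discriminant).coeff (n / N) else 0 := by
  rw [qExpansion_eN, PowerSeries.coeff_smul]
  have h := H85.qCoeff_deltaN N n
  change (qExpansion 1 (H85.deltaN N)).coeff n = _ at h
  rw [h]
  split_ifs with hn
  · rw [PowerSeries.coeff_smul]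
    rfl
  · simp

/-- The q-expansion of `eN N` has integer coefficients. -/
theorem qExpansion_eN_mem_intQ : qExpansion 1 (eN N) ∈ intQ := by
  rw [mem_intQ_iff_coeff]
  intro n
  rw [coeff_qExpansion_eN]
  split_ifs with hn
  · exact (mem_intQ_iff_coeff _).mp smul_qExpansion_discriminant_mem_intQ (n / N)
  · exact ⟨0, by simp⟩

/-- The q-expansion of `eN N` is the image of an integral power series. -/
theorem exists_int_qExpansion_eN :
    ∃ E : PowerSeries ℤ, qExpansion 1 (eN N) = E.map (Int.castRingHom ℂ) := by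
  obtain ⟨E, hE⟩ := qExpansion_eN_mem_intQ N
  exact ⟨E, hE.symm⟩

/-- The q-expansion of `eN N` is fixed by every ring endomorphism of `ℂ`. -/
theorem map_qExpansion_eN (σ : ℂ →+* ℂ) :
    (qExpansion 1 (eN N)).map σ = qExpansion 1 (eN N) :=
  map_eq_self_of_mem_intQ (qExpansion_eN_mem_intQ N) σ

/-- The q-expansion of `eN N` is nonzero (its coefficient of `q ^ N` is `1728`). -/
theorem qExpansion_eN_ne_zero : qExpansion 1 (eN N) ≠ 0 := by
  intro h
  have h1 := coeff_qExpansion_eN N N
  rw [h, if_pos (dvd_refl N), Nat.div_self (Nat.pos_of_ne_zero (NeZero.ne N)),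
    PowerSeries.coeff_smul, ModularForm.discriminant_qExpansion_coeff_one] at h1
  simp at h1

lemma quotientFunc_smul_aux (c : ℂ) (q : cosetsΓ0 N) :
    SlashInvariantForm.quotientFunc (ℋ := (𝒮ℒ : Subgroup (GL (Fin 2) ℝ))) (c • H85.deltaN N) q =
      c • SlashInvariantForm.quotientFunc (ℋ := (𝒮ℒ : Subgroup (GL (Fin 2) ℝ)))
        (H85.deltaN N) q := by
  induction q using Quotient.inductionOn with
  | h h₁ =>
    rw [SlashInvariantForm.quotientFunc_mk, SlashInvariantForm.quotientFunc_mk]
    have hσ : UpperHalfPlane.σ (h₁.val⁻¹) = .refl ℝ ℂ := by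
      obtain ⟨g, hg⟩ := inv_mem h₁.2
      rw [← hg]
      simp [UpperHalfPlane.σ]
    change ((c • (H85.deltaN N : ℍ → ℂ)) ∣[(12 : ℤ)] h₁.val⁻¹) = _
    rw [ModularForm.smul_slash, hσ]
    rfl

/-- The `SL(2,ℤ)`-conjugates of `eN N`, indexed by `cosetsΓ0 N`, are pairwise distinct. -/
theorem quotientFunc_eN_injective :
    Function.Injective (fun q : cosetsΓ0 N =>
      SlashInvariantForm.quotientFunc (ℋ := (𝒮ℒ : Subgroup (GL (Fin 2) ℝ))) (eN N) q) := by
  intro q₁ q₂ h
  simp only [eN] at h
  rw [quotientFunc_smul_aux, quotientFunc_smul_aux] at h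
  have h' := smul_right_injective (ℍ → ℂ) (show (1728 : ℂ) ≠ 0 by norm_num) h
  exact H85.quotientFunc_deltaN_injective N h'

end

end Fermat.Agent.S23.H80
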