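import Mathlib

set_option autoImplicit false

open Finset

namespace Fermat.Agent.S23.H90

theorem sum_half_pow (n : ℕ) : ∑ j ∈ range n, (1 / 2 : ℝ) ^ (j + 1) = 1 - (1 / 2) ^ n := by
  induction n with
  | zero => simp
  | succ n ih => rw [Finset.sum_range_succ, ih]; ring

/-- Cauchy-type root bound: a root `x` of the monic polynomial
`X^μ + ∑_{j<μ} c_{j+1} X^(μ-1-j)` with `‖c_j‖ ≤ δ^j` satisfies `‖x‖ ≤ 2δ`. -/
theorem norm_le_of_monic_root {μ : ℕ} (x : ℂ) (c : ℕ → ℂ) (δ : ℝ) (hδ : 0 ≤ δ)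
    (hc : ∀ j ∈ range μ, ‖c (j + 1)‖ ≤ δ ^ (j + 1))
    (h : x ^ μ + ∑ j ∈ range μ, c (j + 1) * x ^ (μ - 1 - j) = 0) :
    ‖x‖ ≤ 2 * δ := by
  by_contra hlt
  replace hlt := not_le.mp hlt
  set r : ℝ := ‖x‖ with hr
  have hr0 : 0 < r := lt_of_le_of_lt (by positivity) hlt
  have hxμ : x ^ μ = -∑ j ∈ range μ, c (j + 1) * x ^ (μ - 1 - j) := eq_neg_of_add_eq_zero_left h
  have h1 : r ^ μ ≤ ∑ j ∈ range μ, δ ^ (j + 1) * r ^ (μ - 1 - j) := by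
    calc r ^ μ = ‖x ^ μ‖ := by rw [norm_pow]
      _ = ‖∑ j ∈ range μ, c (j + 1) * x ^ (μ - 1 - j)‖ := by rw [hxμ, norm_neg]
      _ ≤ ∑ j ∈ range μ, ‖c (j + 1) * x ^ (μ - 1 - j)‖ := norm_sum_le _ _
      _ ≤ ∑ j ∈ range μ, δ ^ (j + 1) * r ^ (μ - 1 - j) := by
        apply Finset.sum_le_sum
        intro j hj
        rw [norm_mul, norm_pow]
        exact mul_le_mul_of_nonneg_right (hc j hj) (by positivity)
  have h2 : ∀ j ∈ range μ, δ ^ (j + 1) * r ^ (μ - 1 - j) ≤ r ^ μ * (1 / 2) ^ (j + 1) := by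
    intro j hj
    have hjμ : j < μ := mem_range.mp hj
    have hsplit : r ^ μ = r ^ (j + 1) * r ^ (μ - 1 - j) := by
      rw [← pow_add]; congr 1; omega
    have hδr : δ ^ (j + 1) ≤ (r / 2) ^ (j + 1) :=
      pow_le_pow_left₀ hδ (by linarith) _
    calc δ ^ (j + 1) * r ^ (μ - 1 - j) ≤ (r / 2) ^ (j + 1) * r ^ (μ - 1 - j) :=
          mul_le_mul_of_nonneg_right hδr (by positivity)
      _ = r ^ μ * (1 / 2) ^ (j + 1) := by
          rw [hsplit, div_pow, one_div, inv_pow]; ring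
  have h3 : ∑ j ∈ range μ, δ ^ (j + 1) * r ^ (μ - 1 - j)
      ≤ r ^ μ * ∑ j ∈ range μ, (1 / 2 : ℝ) ^ (j + 1) := by
    rw [Finset.mul_sum]
    exact Finset.sum_le_sum h2
  rw [sum_half_pow] at h3
  have h5 : (0 : ℝ) < r ^ μ * (1 / 2) ^ μ := by positivity
  nlinarith [h1, h3, h5]

end Fermat.Agent.S23.H90
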