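import Mathlib
import Fermat.Agent.S23.H90_RootBound

set_option autoImplicit false

open Finset Filter Topology Set Function

namespace Fermat.Agent.S23.H90

variable {U : Set ℂ}

/-- Zeros of a not identically zero holomorphic function on a preconnected open set are
isolated. -/
theorem eventually_ne_zero_of_not_eqOn_zero (hU : IsOpen U) (hUc : IsPreconnected U)
    {B : ℂ → ℂ} (hB : DifferentiableOn ℂ B U) (hB0 : ∃ z ∈ U, B z ≠ 0) {z₀ : ℂ} (hz₀ : z₀ ∈ U) :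
    ∀ᶠ z in 𝓝[≠] z₀, B z ≠ 0 := by
  have han : AnalyticOnNhd ℂ B U := hB.analyticOnNhd hU
  rcases (han z₀ hz₀).eventually_eq_zero_or_eventually_ne_zero with h | h
  · exfalso
    obtain ⟨z, hz, hBz⟩ := hB0
    exact hBz (han.eqOn_zero_of_preconnected_of_eventuallyEq_zero hUc hz₀ h hz)
  · exact h

/-- Cancellation: if `B * D = 0` on `U` with `B` holomorphic not identically zero and `D`
continuous, then `D = 0` on `U`. -/
theorem eq_zero_of_mul_eq_zero (hU : IsOpen U) (hUc : IsPreconnected U)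
    {B D : ℂ → ℂ} (hB : DifferentiableOn ℂ B U) (hB0 : ∃ z ∈ U, B z ≠ 0)
    (hD : ContinuousOn D U) (h : ∀ z ∈ U, B z * D z = 0) : ∀ z ∈ U, D z = 0 := by
  intro z₀ hz₀
  have hne := eventually_ne_zero_of_not_eqOn_zero hU hUc hB hB0 hz₀
  have hUn : ∀ᶠ z in 𝓝[≠] z₀, z ∈ U := nhdsWithin_le_nhds (hU.mem_nhds hz₀)
  have hD0 : ∀ᶠ z in 𝓝[≠] z₀, D z = 0 := by
    filter_upwards [hne, hUn] with z hz hzU
    exact (mul_eq_zero.mp (h z hzU)).resolve_left hz
  have hcont : Tendsto D (𝓝[≠] z₀) (𝓝 (D z₀)) :=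
    ((hD.continuousAt (hU.mem_nhds hz₀)).tendsto).mono_left nhdsWithin_le_nhds
  have h0 : Tendsto D (𝓝[≠] z₀) (𝓝 0) :=
    tendsto_const_nhds.congr' (hD0.mono fun z hz => hz.symm)
  exact tendsto_nhds_unique hcont h0

end Fermat.Agent.S23.H90

namespace Fermat.Agent.S23.H90

variable {U : Set ℂ}

/-- Dividing the homogeneous relation by `B^μ`. -/
theorem root_of_div {μ : ℕ} (a b : ℂ) (hb : b ≠ 0) (c : ℕ → ℂ)
    (h : a ^ μ + ∑ j ∈ range μ, c (j + 1) * a ^ (μ - 1 - j) * b ^ (j + 1) = 0) :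
    (a / b) ^ μ + ∑ j ∈ range μ, c (j + 1) * (a / b) ^ (μ - 1 - j) = 0 := by
  have hbμ : b ^ μ ≠ 0 := pow_ne_zero _ hb
  have hterm : ∀ j ∈ range μ,
      c (j + 1) * (a / b) ^ (μ - 1 - j) = c (j + 1) * a ^ (μ - 1 - j) * b ^ (j + 1) / b ^ μ := by
    intro j hj
    have hjμ : j < μ := mem_range.mp hj
    have hsplit : b ^ μ = b ^ (μ - 1 - j) * b ^ (j + 1) := by
      rw [← pow_add]; congr 1; omega
    rw [hsplit, div_pow]
    have h1 : b ^ (μ - 1 - j) ≠ 0 := pow_ne_zero _ hb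
    have h2 : b ^ (j + 1) ≠ 0 := pow_ne_zero _ hb
    field_simp
  rw [Finset.sum_congr rfl hterm, div_pow, ← Finset.sum_div, ← add_div, h, zero_div]

theorem exists_quotient_extension (hU : IsOpen U) (hUc : IsPreconnected U)
    {A B : ℂ → ℂ} (hA : DifferentiableOn ℂ A U) (hB : DifferentiableOn ℂ B U)
    (hB0 : ∃ z ∈ U, B z ≠ 0) {μ : ℕ} (C : ℕ → ℂ → ℂ)
    (hC : ∀ j ∈ range μ, ContinuousOn (C (j + 1)) U)
    (hrel : ∀ z ∈ U,
      A z ^ μ + ∑ j ∈ range μ, C (j + 1) z * A z ^ (μ - 1 - j) * B z ^ (j + 1) = 0) :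
    ∃ F : ℂ → ℂ, DifferentiableOn ℂ F U ∧ (∀ z ∈ U, B z * F z = A z) ∧
      ∀ z ∈ U, F z ^ μ + ∑ j ∈ range μ, C (j + 1) z * F z ^ (μ - 1 - j) = 0 := by
  classical
  have hμ : μ ≠ 0 := by
    rintro rfl
    obtain ⟨z, hz, -⟩ := hB0
    simpa using hrel z hz
  set G : ℂ → ℂ := fun z => A z / B z with hG
  set F : ℂ → ℂ := fun z => limUnder (𝓝[≠] z) G with hF
  -- G is differentiable where B ≠ 0
  have hGdiff : ∀ z ∈ U, B z ≠ 0 → DifferentiableAt ℂ G z := fun z hz hBz =>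
    (hA.differentiableAt (hU.mem_nhds hz)).div (hB.differentiableAt (hU.mem_nhds hz)) hBz
  -- F = G where B ≠ 0
  have hFG : ∀ z ∈ U, B z ≠ 0 → F z = G z := fun z hz hBz =>
    ((hGdiff z hz hBz).continuousAt.tendsto.mono_left nhdsWithin_le_nhds).limUnder_eq
  -- root identity for G where B ≠ 0
  have hGroot : ∀ z ∈ U, B z ≠ 0 →
      G z ^ μ + ∑ j ∈ range μ, C (j + 1) z * G z ^ (μ - 1 - j) = 0 := fun z hz hBz =>
    root_of_div (A z) (B z) hBz (fun j => C j z) (hrel z hz)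
  -- differentiability of F
  have hFdiff : DifferentiableOn ℂ F U := by
    intro z₀ hz₀
    apply DifferentiableAt.differentiableWithinAt
    have hne := eventually_ne_zero_of_not_eqOn_zero hU hUc hB hB0 hz₀
    rw [eventually_nhdsWithin_iff] at hne
    have hCb : ∀ j ∈ range μ, ∀ᶠ z in 𝓝 z₀, ‖C (j + 1) z‖ ≤ ‖C (j + 1) z₀‖ + 1 := by
      intro j hj
      have hcont : ContinuousAt (fun z => ‖C (j + 1) z‖) z₀ :=
        ((hC j hj).continuousAt (hU.mem_nhds hz₀)).norm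
      have : ∀ᶠ z in 𝓝 z₀, ‖C (j + 1) z‖ < ‖C (j + 1) z₀‖ + 1 :=
        hcont.eventually_lt continuousAt_const (by simp)
      exact this.mono fun z hz => hz.le
    have hCb' : ∀ᶠ z in 𝓝 z₀, ∀ j ∈ range μ, ‖C (j + 1) z‖ ≤ ‖C (j + 1) z₀‖ + 1 :=
      (eventually_all_finset _).mpr hCb
    set s : Set ℂ := {z | z ∈ U ∧ (z ∈ ({z₀}ᶜ : Set ℂ) → B z ≠ 0) ∧
      ∀ j ∈ range μ, ‖C (j + 1) z‖ ≤ ‖C (j + 1) z₀‖ + 1} with hs
    have hsn : s ∈ 𝓝 z₀ := by
      filter_upwards [hU.mem_nhds hz₀, hne, hCb'] with z h1 h2 h3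
      exact ⟨h1, h2, h3⟩
    -- a uniform bound δ ≥ 1 for the coefficients on s
    set δ : ℝ := 1 + ∑ j ∈ range μ, (‖C (j + 1) z₀‖ + 1) with hδ
    have hδ1 : 1 ≤ δ := by
      rw [hδ]
      have : 0 ≤ ∑ j ∈ range μ, (‖C (j + 1) z₀‖ + 1) :=
        Finset.sum_nonneg fun j _ => by positivity
      linarith
    have hbound : ∀ z ∈ s \ {z₀}, ‖G z‖ ≤ 2 * δ := by
      rintro z ⟨⟨hzU, hzB, hzC⟩, hzz⟩
      have hBz : B z ≠ 0 := hzB hzz
      refine norm_le_of_monic_root (G z) (fun j => C j z) δ (by linarith) ?_ (hGroot z hzU hBz)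
      intro j hj
      calc ‖C (j + 1) z‖ ≤ ‖C (j + 1) z₀‖ + 1 := hzC j hj
        _ ≤ ∑ i ∈ range μ, (‖C (i + 1) z₀‖ + 1) :=
          Finset.single_le_sum (f := fun i => ‖C (i + 1) z₀‖ + 1)
            (fun i _ => by positivity) hj
        _ ≤ δ := by rw [hδ]; linarith
        _ = δ ^ 1 := (pow_one δ).symm
        _ ≤ δ ^ (j + 1) := pow_le_pow_right₀ hδ1 (by omega)
    have hdiffG : DifferentiableOn ℂ G (s \ {z₀}) := by
      rintro z ⟨⟨hzU, hzB, -⟩, hzz⟩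
      exact (hGdiff z hzU (hzB hzz)).differentiableWithinAt
    have hbdd : BddAbove (norm ∘ G '' (s \ {z₀})) := by
      refine ⟨2 * δ, ?_⟩
      rintro _ ⟨z, hz, rfl⟩
      exact hbound z hz
    have hupd := Complex.differentiableOn_update_limUnder_of_bddAbove hsn hdiffG hbdd
    have hev : F =ᶠ[𝓝 z₀] update G z₀ (limUnder (𝓝[≠] z₀) G) := by
      filter_upwards [hsn] with z hz
      by_cases hzz : z = z₀
      · subst hzz; simp [hF]
      · rw [update_of_ne hzz]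
        exact hFG z hz.1 (hz.2.1 hzz)
    exact (hupd.differentiableAt hsn).congr_of_eventuallyEq hev
  refine ⟨F, hFdiff, ?_, ?_⟩
  · intro z hz
    by_cases hBz : B z = 0
    · have h := hrel z hz
      have hsum : ∑ j ∈ range μ, C (j + 1) z * A z ^ (μ - 1 - j) * B z ^ (j + 1) = 0 :=
        Finset.sum_eq_zero fun j _ => by rw [hBz, zero_pow (Nat.succ_ne_zero j), mul_zero]
      rw [hsum, add_zero] at h
      rw [hBz, zero_mul, pow_eq_zero_iff hμ |>.mp h]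
    · rw [hFG z hz hBz, hG]
      exact mul_div_cancel₀ _ hBz
  · set D : ℂ → ℂ := fun z => F z ^ μ + ∑ j ∈ range μ, C (j + 1) z * F z ^ (μ - 1 - j) with hD
    have hDc : ContinuousOn D U :=
      (hFdiff.continuousOn.pow μ).add
        (continuousOn_finsetSum _ fun j hj => (hC j hj).mul (hFdiff.continuousOn.pow _))
    have hBD : ∀ z ∈ U, B z * D z = 0 := by
      intro z hz
      by_cases hBz : B z = 0
      · rw [hBz, zero_mul]
      · have : D z = 0 := by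
          rw [hD]
          simp only
          rw [hFG z hz hBz]
          exact hGroot z hz hBz
        rw [this, mul_zero]
    exact eq_zero_of_mul_eq_zero hU hUc hB hB0 hDc hBD

end Fermat.Agent.S23.H90
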