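import Mathlib
import Fermat.Agent.S23.H90_Removable
import Fermat.Prelude.Thm_CongruenceSubgroup_one_mem_strictPeriods_Gamma0

set_option autoImplicit false

open Finset Filter Topology Set Function
open CongruenceSubgroup UpperHalfPlane ModularForm Matrix.SpecialLinearGroup
open scoped MatrixGroups ModularForm Manifold

namespace Fermat.Agent.S23.H90

/-- A continuous function on `ℍ` composed with `ofComplex` is continuous on the open upper half
plane. -/
theorem continuousOn_comp_ofComplex {D : ℍ → ℂ} (hD : Continuous D) :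
    ContinuousOn (D ∘ ofComplex) {z : ℂ | 0 < z.im} := fun _ hz =>
  (hD.continuousAt.comp (contMDiffAt_ofComplex (n := 0) hz).continuousAt).continuousWithinAt

theorem isPreconnected_upperHalfPlaneSet : IsPreconnected {z : ℂ | 0 < z.im} :=
  (convex_halfSpace_im_gt 0).isPreconnected

/-- Cancellation on `ℍ`: if `b * D = 0` with `b` holomorphic, not identically zero, and `D`
continuous, then `D = 0`. -/
theorem eq_zero_of_mul_eq_zero_upperHalfPlane {b D : ℍ → ℂ} (hb : MDiff b)
    (hb0 : ∃ τ, b τ ≠ 0) (hD : Continuous D) (h : ∀ τ, b τ * D τ = 0) : ∀ τ, D τ = 0 := by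
  intro τ
  have hB : DifferentiableOn ℂ (b ∘ ofComplex) {z : ℂ | 0 < z.im} :=
    UpperHalfPlane.mdifferentiable_iff.mp hb
  have hB0 : ∃ z ∈ {z : ℂ | 0 < z.im}, (b ∘ ofComplex) z ≠ 0 := by
    obtain ⟨τ₀, hτ₀⟩ := hb0
    exact ⟨τ₀, τ₀.im_pos, by simpa using hτ₀⟩
  have := eq_zero_of_mul_eq_zero isOpen_upperHalfPlaneSet isPreconnected_upperHalfPlaneSet hB hB0
    (continuousOn_comp_ofComplex hD) (fun z _ => h (ofComplex z)) τ τ.im_pos
  simpa using this


/-- Transport of the monic relation under a rescaling `y ↦ y * t` (slash action, pointwise). -/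
theorem root_rescale {μ : ℕ} (y t : ℂ) (ht : t ≠ 0) (c c' : ℕ → ℂ)
    (hc : ∀ j ∈ range μ, c' (j + 1) = (t⁻¹) ^ (j + 1) * c (j + 1))
    (h : y ^ μ + ∑ j ∈ range μ, c' (j + 1) * y ^ (μ - 1 - j) = 0) :
    (y * t) ^ μ + ∑ j ∈ range μ, c (j + 1) * (y * t) ^ (μ - 1 - j) = 0 := by
  have hterm : ∀ j ∈ range μ,
      c (j + 1) * (y * t) ^ (μ - 1 - j) = t ^ μ * (c' (j + 1) * y ^ (μ - 1 - j)) := by
    intro j hj
    have hjμ : j < μ := mem_range.mp hj
    have hsplit : t ^ μ = t ^ (μ - 1 - j) * t ^ (j + 1) := by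
      rw [← pow_add]; congr 1; omega
    rw [hc j hj, hsplit, mul_pow, inv_pow]
    have h2 : t ^ (j + 1) ≠ 0 := pow_ne_zero _ ht
    field_simp
  rw [Finset.sum_congr rfl hterm, ← Finset.mul_sum, mul_pow, mul_comm (y ^ μ), ← mul_add, h,
    mul_zero]


/-- Value transformation of a function invariant under the slash action of `g`. -/
theorem apply_smul_of_slash_eq {h : ℍ → ℂ} {w : ℤ} {g : SL(2, ℤ)} (hg : h ∣[w] g = h) (z : ℍ) :
    h (g • z) = denom g z ^ w * h z := by
  have := congrFun hg z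
  rw [SL_slash_apply] at this
  have hd : denom g z ≠ 0 := denom_ne_zero g z
  rw [← this, mul_comm (h (g • z)), ← mul_assoc, ← zpow_add₀ hd, add_neg_cancel, zpow_zero,
    one_mul]

section Main

variable {N : ℕ} [NeZero N] {k ka kb : ℤ}

theorem exists_cuspForm_of_div (hk : ka = k + kb)
    (a : ModularForm (Gamma0 N) ka) (b : ModularForm (Gamma0 N) kb) (hb : b ≠ 0) (μ : ℕ)
    (c : ℕ → ℍ → ℂ)
    (hc : ∀ j, 1 ≤ j → j ≤ μ → ∃ cf : CuspForm 𝒮ℒ ((j : ℤ) * k), ⇑cf = c j)
    (hpoly : ∀ z : ℍ,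
      a z ^ μ + ∑ j ∈ range μ, c (j + 1) z * a z ^ (μ - 1 - j) * b z ^ (j + 1) = 0) :
    ∃ f : CuspForm (Gamma0 N) k, ∀ z, b z * f z = a z := by
  classical
  -- properties of the coefficient functions
  have hc' : ∀ j ∈ range μ, ∃ cf : CuspForm 𝒮ℒ (((j + 1 : ℕ) : ℤ) * k), ⇑cf = c (j + 1) :=
    fun j hj => hc (j + 1) (by omega) (by have := mem_range.mp hj; omega)
  have hc_md : ∀ j ∈ range μ, MDiff (c (j + 1)) := by
    intro j hj
    obtain ⟨cf, hcf⟩ := hc' j hj
    rw [← hcf]; exact cf.holo'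
  have hc_slash : ∀ j ∈ range μ, ∀ g : SL(2, ℤ),
      c (j + 1) ∣[((j + 1 : ℕ) : ℤ) * k] g = c (j + 1) := by
    intro j hj g
    obtain ⟨cf, hcf⟩ := hc' j hj
    rw [← hcf]
    exact cf.slash_action_eq' _ ⟨g, rfl⟩
  have hc_zero : ∀ j ∈ range μ, IsZeroAtImInfty (c (j + 1)) := by
    intro j hj
    obtain ⟨cf, hcf⟩ := hc' j hj
    rw [← hcf]
    exact CuspFormClass.zero_at_infty cf
  -- b is not identically zero
  have hb0 : ∃ τ, b τ ≠ 0 := by
    by_contra hcon
    push Not at hcon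
    exact hb (ModularForm.ext hcon)
  -- the analytic construction
  have hA : DifferentiableOn ℂ (a ∘ ofComplex) {z : ℂ | 0 < z.im} :=
    UpperHalfPlane.mdifferentiable_iff.mp a.holo'
  have hB : DifferentiableOn ℂ (b ∘ ofComplex) {z : ℂ | 0 < z.im} :=
    UpperHalfPlane.mdifferentiable_iff.mp b.holo'
  have hB0 : ∃ z ∈ {z : ℂ | 0 < z.im}, (b ∘ ofComplex) z ≠ 0 := by
    obtain ⟨τ₀, hτ₀⟩ := hb0
    exact ⟨τ₀, τ₀.im_pos, by simpa using hτ₀⟩
  have hC : ∀ j ∈ range μ, ContinuousOn ((fun j => c j ∘ ofComplex) (j + 1))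
      {z : ℂ | 0 < z.im} := fun j hj =>
    (UpperHalfPlane.mdifferentiable_iff.mp (hc_md j hj)).continuousOn
  obtain ⟨F₀, hF₀d, hF₀b, hF₀r⟩ := exists_quotient_extension isOpen_upperHalfPlaneSet
    isPreconnected_upperHalfPlaneSet hA hB hB0 (fun j => c j ∘ ofComplex) hC
    (fun z _ => hpoly (ofComplex z))
  set F : ℍ → ℂ := fun τ => F₀ τ with hF
  have hbF : ∀ τ : ℍ, b τ * F τ = a τ := by
    intro τ
    simpa using hF₀b τ τ.im_pos
  have hroot : ∀ τ : ℍ, F τ ^ μ + ∑ j ∈ range μ, c (j + 1) τ * F τ ^ (μ - 1 - j) = 0 := by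
    intro τ
    simpa using hF₀r τ τ.im_pos
  have hFmd : MDiff F := by
    rw [UpperHalfPlane.mdifferentiable_iff]
    refine hF₀d.congr fun z hz => ?_
    simp only [Function.comp_apply, hF]
    rw [ofComplex_apply_of_im_pos hz]
  -- the monic relation for slashes by SL(2, ℤ)
  have hroot_slash : ∀ (g : SL(2, ℤ)) (z : ℍ), (F ∣[k] g) z ^ μ +
      ∑ j ∈ range μ, c (j + 1) z * (F ∣[k] g) z ^ (μ - 1 - j) = 0 := by
    intro g z
    rw [SL_slash_apply]
    have hd : denom g z ≠ 0 := denom_ne_zero g z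
    refine root_rescale (F (g • z)) (denom g z ^ (-k)) (zpow_ne_zero _ hd)
      (fun j => c j z) (fun j => c j (g • z)) ?_ (hroot (g • z))
    intro j hj
    rw [apply_smul_of_slash_eq (hc_slash j hj g) z, zpow_neg, inv_inv, ← zpow_natCast,
      ← zpow_mul, mul_comm k]
  -- zero at infinity for all slashes
  have hzero : ∀ g : SL(2, ℤ), IsZeroAtImInfty (F ∣[k] g) := by
    intro g
    rw [IsZeroAtImInfty, ZeroAtFilter, Metric.tendsto_nhds]
    intro ε hε
    have hsmall : ∀ j ∈ range μ, ∀ᶠ z in atImInfty, ‖c (j + 1) z‖ ≤ (ε / 4) ^ (j + 1) := by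
      intro j hj
      have h0 := hc_zero j hj
      rw [IsZeroAtImInfty, ZeroAtFilter, Metric.tendsto_nhds] at h0
      have := h0 ((ε / 4) ^ (j + 1)) (by positivity)
      filter_upwards [this] with z hz
      rw [dist_zero_right] at hz
      exact hz.le
    have hall : ∀ᶠ z in atImInfty, ∀ j ∈ range μ, ‖c (j + 1) z‖ ≤ (ε / 4) ^ (j + 1) :=
      (eventually_all_finset _).mpr hsmall
    filter_upwards [hall] with z hz
    rw [dist_zero_right]
    have := norm_le_of_monic_root ((F ∣[k] g) z) (fun j => c j z) (ε / 4) (by positivity) hz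
      (hroot_slash g z)
    linarith
  -- invariance under Γ₀(N)
  have hinv : ∀ γ ∈ Subgroup.map (mapGL ℝ) (Gamma0 N), F ∣[k] γ = F := by
    rintro _ ⟨γ, hγ, rfl⟩
    have hγ' : (mapGL ℝ γ) ∈ Subgroup.map (mapGL ℝ) (Gamma0 N) := Subgroup.mem_map_of_mem _ hγ
    have hainv : ⇑a ∣[ka] γ = ⇑a := a.slash_action_eq' _ hγ'
    have hbinv : ⇑b ∣[kb] γ = ⇑b := b.slash_action_eq' _ hγ'
    have hDc : Continuous (fun z => (F ∣[k] γ) z - F z) :=
      ((hFmd.slash k (mapGL ℝ γ)).continuous).sub hFmd.continuous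
    have hzero' := eq_zero_of_mul_eq_zero_upperHalfPlane b.holo' hb0 hDc ?_
    · funext z
      have := hzero' z
      exact sub_eq_zero.mp this
    · intro z
      have hd : denom γ z ≠ 0 := denom_ne_zero γ z
      have h1 : b (γ • z) = denom γ z ^ kb * b z := apply_smul_of_slash_eq hbinv z
      have h2 : a (γ • z) = denom γ z ^ ka * a z := apply_smul_of_slash_eq hainv z
      have h3 := hbF (γ • z)
      rw [h1, h2] at h3
      have h4 : b z * (F ∣[k] γ) z = a z := by
        rw [SL_slash_apply]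
        have hdk : denom γ z ^ kb ≠ 0 := zpow_ne_zero _ hd
        have : b z * F (γ • z) = denom γ z ^ k * a z := by
          have hka : denom γ z ^ ka = denom γ z ^ k * denom γ z ^ kb := by
            rw [hk, zpow_add₀ hd]
          have h5 : denom γ z ^ kb * (b z * F (γ • z)) =
              denom γ z ^ kb * (denom γ z ^ k * a z) := by
            rw [← mul_assoc, h3, hka]; ring
          exact mul_left_cancel₀ hdk h5
        rw [← mul_assoc, this, mul_comm (denom γ z ^ k), mul_assoc, ← zpow_add₀ hd,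
          add_neg_cancel, zpow_zero, mul_one]
      have h6 := hbF z
      linear_combination h4 - h6
  refine ⟨{ toFun := F
            slash_action_eq' := hinv
            holo' := hFmd
            zero_at_cusps' := fun {c} hc => ?_ }, fun z => hbF z⟩
  rw [Subgroup.IsArithmetic.isCusp_iff_isCusp_SL2Z] at hc
  rw [OnePoint.isZeroAt_iff_forall_SL2Z hc]
  intro γ _
  exact hzero γ

end Main

end Fermat.Agent.S23.H90
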