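import Mathlib
import Fermat.Agent.S23.H90_Converse
import Fermat.Prelude.Thm_CongruenceSubgroup_one_mem_strictPeriods_Gamma0

set_option autoImplicit false

open Finset Filter Topology Set Function
open CongruenceSubgroup UpperHalfPlane ModularForm Matrix.SpecialLinearGroup
open scoped MatrixGroups ModularForm Manifold

namespace Fermat.Agent.S23.H90

/-- Functions on the upper half plane with period one, holomorphic and bounded at infinity:
the class of functions on which `qExpansion 1` behaves like a ring homomorphism. -/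
structure IsQNice (f : ℍ → ℂ) : Prop where
  periodic : Periodic (f ∘ ofComplex) 1
  holo : MDiff f
  bdd : IsBoundedAtImInfty f

namespace IsQNice

variable {f g : ℍ → ℂ}

theorem analyticAt (hf : IsQNice f) : AnalyticAt ℂ (cuspFunction 1 f) 0 :=
  analyticAt_cuspFunction_zero one_pos (by simpa using hf.periodic) hf.holo hf.bdd

theorem of_modularForm {Γ : Subgroup (GL (Fin 2) ℝ)} {k : ℤ} {F : Type*} [FunLike F ℍ ℂ]
    [ModularFormClass F Γ k] (hΓ : (1 : ℝ) ∈ Γ.strictPeriods) (φ : F) : IsQNice (φ : ℍ → ℂ) := by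
  have : Fact (IsCusp OnePoint.infty Γ) := ⟨Γ.isCusp_of_mem_strictPeriods one_pos hΓ⟩
  exact ⟨SlashInvariantFormClass.periodic_comp_ofComplex φ hΓ, ModularFormClass.holo φ,
    ModularFormClass.bdd_at_infty φ⟩

theorem one : IsQNice (1 : ℍ → ℂ) :=
  ⟨fun _ => rfl, mdifferentiable_const, const_boundedAtFilter _ _⟩

theorem mul (hf : IsQNice f) (hg : IsQNice g) : IsQNice (f * g) :=
  ⟨fun z => by
    have h1 := hf.periodic z
    have h2 := hg.periodic z
    simp only [comp_apply, Pi.mul_apply] at h1 h2 ⊢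
    rw [h1, h2], hf.holo.mul hg.holo, hf.bdd.mul hg.bdd⟩

theorem add (hf : IsQNice f) (hg : IsQNice g) : IsQNice (f + g) :=
  ⟨fun z => by
    have h1 := hf.periodic z
    have h2 := hg.periodic z
    simp only [comp_apply, Pi.add_apply] at h1 h2 ⊢
    rw [h1, h2], hf.holo.add hg.holo, hf.bdd.add hg.bdd⟩

theorem pow (hf : IsQNice f) (n : ℕ) : IsQNice (f ^ n) := by
  induction n with
  | zero => simpa using one
  | succ n ih => rw [pow_succ]; exact ih.mul hf

theorem zero : IsQNice (0 : ℍ → ℂ) :=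
  ⟨fun _ => rfl, mdifferentiable_const, const_boundedAtFilter _ (0 : ℂ)⟩

theorem sum {ι : Type*} (s : Finset ι) (F : ι → ℍ → ℂ) (hF : ∀ i ∈ s, IsQNice (F i)) :
    IsQNice (∑ i ∈ s, F i) := by
  classical
  induction s using Finset.induction_on with
  | empty => simpa using zero
  | insert i s hi ih =>
    rw [Finset.sum_insert hi]
    exact (hF i (Finset.mem_insert_self i s)).add
      (ih fun j hj => hF j (Finset.mem_insert_of_mem hj))

theorem qExpansion_mul (hf : IsQNice f) (hg : IsQNice g) :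
    qExpansion 1 (f * g) = qExpansion 1 f * qExpansion 1 g :=
  UpperHalfPlane.qExpansion_mul hf.analyticAt hg.analyticAt

theorem qExpansion_add (hf : IsQNice f) (hg : IsQNice g) :
    qExpansion 1 (f + g) = qExpansion 1 f + qExpansion 1 g :=
  UpperHalfPlane.qExpansion_add hf.analyticAt hg.analyticAt

theorem qExpansion_pow (hf : IsQNice f) (n : ℕ) :
    qExpansion 1 (f ^ n) = qExpansion 1 f ^ n := by
  induction n with
  | zero => simpa using UpperHalfPlane.qExpansion_one 1
  | succ n ih => rw [pow_succ, qExpansion_mul (hf.pow n) hf, ih, pow_succ]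

theorem qExpansion_sum {ι : Type*} (s : Finset ι) (F : ι → ℍ → ℂ) (hF : ∀ i ∈ s, IsQNice (F i)) :
    qExpansion 1 (∑ i ∈ s, F i) = ∑ i ∈ s, qExpansion 1 (F i) := by
  classical
  induction s using Finset.induction_on with
  | empty => simpa using UpperHalfPlane.qExpansion_zero 1
  | insert i s hi ih =>
    rw [Finset.sum_insert hi, Finset.sum_insert hi,
      qExpansion_add (hF i (Finset.mem_insert_self i s))
        (sum s F fun j hj => hF j (Finset.mem_insert_of_mem hj)),
      ih fun j hj => hF j (Finset.mem_insert_of_mem hj)]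

theorem eq_zero_of_qExpansion_eq_zero (hf : IsQNice f) (h : qExpansion 1 f = 0) : f = 0 :=
  (UpperHalfPlane.qExpansion_eq_zero_iff one_pos (by simpa using hf.periodic) hf.holo hf.bdd).mp h

end IsQNice

section Main

variable {N : ℕ} [NeZero N] {k ka kb : ℤ}

/-- SERIES form of the converse: if `x` is a power series with `q(b) * x = q(a)` for modular forms
`a`, `b ≠ 0` on `Γ₀(N)` of weights `k + kb`, `kb`, and `x` is a root of a monic polynomial whose
`j`-th coefficient is the `q`-expansion of a level one cusp form of weight `j * k`, then `x` is the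
`q`-expansion of a cusp form of weight `k` on `Γ₀(N)`. -/
theorem exists_cuspForm_of_qExpansion (hk : ka = k + kb)
    (a : ModularForm (Gamma0 N) ka) (b : ModularForm (Gamma0 N) kb) (hb : b ≠ 0) (μ : ℕ)
    (c : ℕ → ℍ → ℂ)
    (hc : ∀ j, 1 ≤ j → j ≤ μ → ∃ cf : CuspForm 𝒮ℒ ((j : ℤ) * k), ⇑cf = c j)
    (x : PowerSeries ℂ) (hx : qExpansion 1 b * x = qExpansion 1 a)
    (hroot : x ^ μ + ∑ j ∈ range μ, qExpansion 1 (c (j + 1)) * x ^ (μ - 1 - j) = 0) :
    ∃ f : CuspForm (Gamma0 N) k, qExpansion 1 f = x := by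
  classical
  have hΓ := one_mem_strictPeriods_Gamma0 N
  have ha : IsQNice (a : ℍ → ℂ) := IsQNice.of_modularForm hΓ a
  have hbn : IsQNice (b : ℍ → ℂ) := IsQNice.of_modularForm hΓ b
  have hcn : ∀ j ∈ range μ, IsQNice (c (j + 1)) := by
    intro j hj
    obtain ⟨cf, hcf⟩ := hc (j + 1) (by omega) (by have := mem_range.mp hj; omega)
    rw [← hcf]
    exact IsQNice.of_modularForm one_mem_strictPeriods_SL cf
  -- the homogeneous relation as a function
  set G : ℍ → ℂ := (a : ℍ → ℂ) ^ μ +
    ∑ j ∈ range μ, c (j + 1) * (a : ℍ → ℂ) ^ (μ - 1 - j) * (b : ℍ → ℂ) ^ (j + 1) with hG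
  have hterm : ∀ j ∈ range μ,
      IsQNice (c (j + 1) * (a : ℍ → ℂ) ^ (μ - 1 - j) * (b : ℍ → ℂ) ^ (j + 1)) :=
    fun j hj => ((hcn j hj).mul (ha.pow _)).mul (hbn.pow _)
  have hGn : IsQNice G := (ha.pow μ).add (IsQNice.sum _ _ hterm)
  have hqG : qExpansion 1 G = 0 := by
    rw [hG, IsQNice.qExpansion_add (ha.pow μ) (IsQNice.sum _ _ hterm), IsQNice.qExpansion_pow ha,
      IsQNice.qExpansion_sum _ _ hterm]
    have h1 : ∀ j ∈ range μ,
        qExpansion 1 (c (j + 1) * (a : ℍ → ℂ) ^ (μ - 1 - j) * (b : ℍ → ℂ) ^ (j + 1)) =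
          qExpansion 1 b ^ μ * (qExpansion 1 (c (j + 1)) * x ^ (μ - 1 - j)) := by
      intro j hj
      have hjμ : j < μ := mem_range.mp hj
      rw [IsQNice.qExpansion_mul ((hcn j hj).mul (ha.pow _)) (hbn.pow _),
        IsQNice.qExpansion_mul (hcn j hj) (ha.pow _), IsQNice.qExpansion_pow ha,
        IsQNice.qExpansion_pow hbn, ← hx]
      have hsplit : qExpansion 1 b ^ μ = qExpansion 1 b ^ (μ - 1 - j) * qExpansion 1 b ^ (j + 1) := by
        rw [← pow_add]; congr 1; omega
      rw [hsplit, mul_pow]; ring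
    rw [Finset.sum_congr rfl h1, ← Finset.mul_sum, ← hx, mul_pow, ← mul_add, hroot, mul_zero]
  have hG0 : G = 0 := hGn.eq_zero_of_qExpansion_eq_zero hqG
  have hpoly : ∀ z : ℍ,
      a z ^ μ + ∑ j ∈ range μ, c (j + 1) z * a z ^ (μ - 1 - j) * b z ^ (j + 1) = 0 := by
    intro z
    have := congrFun hG0 z
    simpa [hG] using this
  obtain ⟨f, hf⟩ := exists_cuspForm_of_div hk a b hb μ c hc hpoly
  refine ⟨f, ?_⟩
  have hqb : qExpansion 1 b ≠ 0 := by
    intro h0
    exact hb ((ModularForm.qExpansion_eq_zero_iff one_pos hΓ b).mp h0)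
  have hmul : qExpansion 1 b * qExpansion 1 f = qExpansion 1 a := by
    rw [← ModularForm.qExpansion_mul_coe one_pos hΓ b f]
    congr 1
    funext z
    exact hf z
  exact mul_left_cancel₀ hqb (hmul.trans hx.symm)

end Main

end Fermat.Agent.S23.H90
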