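import Mathlib
import Fermat.Agent.S23.Defs
import Fermat.Agent.S23.H2_Restrict
import Fermat.Agent.S23.H90_Series

set_option autoImplicit false

open Finset Filter Topology Set Function
open CongruenceSubgroup UpperHalfPlane ModularForm Matrix.SpecialLinearGroup
open scoped MatrixGroups ModularForm Manifold

namespace Fermat.Agent.S23.H90

/-- Weight cast for cusp forms, existence form. -/
theorem exists_cuspForm_cast {Γ : Subgroup (GL (Fin 2) ℝ)} {k1 k2 : ℤ} (h : k1 = k2)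
    (f : CuspForm Γ k1) : ∃ g : CuspForm Γ k2, (⇑g : ℍ → ℂ) = ⇑f := by
  subst h
  exact ⟨f, rfl⟩

/-- The converse direction consumed by the conjugation step: a series admitting a Shimura datum
relative to `ε = q(e)`, `e` a modular form of weight `w` on `Γ₀(N)`, is the `q`-expansion of a cusp
form of weight `k` on `Γ₀(N)`. -/
theorem mem_qSΓ_of_isShimuraDatum {N : ℕ} [NeZero N] {k w : ℤ} {μ : ℕ}
    (e : ModularForm (Gamma0 N) w) {x : PowerSeries ℂ}
    (h : IsShimuraDatum k w μ (qExpansion 1 e) x) : x ∈ qSΓ N k := by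
  classical
  obtain ⟨d, c, s, hd, hc, hs, hne, hrel, hroot⟩ := h
  choose Dm hDm using hd
  choose Cm hCm using hc
  choose Sr hSr using hs
  -- the denominator
  obtain ⟨B, -, hqB⟩ := H2.exists_modularForm_eq_sum (H2.gamma0_le_SL N)
    (H2.one_mem_strictPeriods_gamma0 N) (w := w) (K := ((μ : ℤ) - 1) * w)
    (fun m : Fin μ => ((μ : ℤ) - 1 - ((m : ℕ) : ℤ)) * w) (fun m => by ring)
    (fun m => ⇑(Dm m)) (fun m => ⟨Dm m, rfl⟩) e
  -- the numerator
  obtain ⟨A, -, hqA⟩ := H2.exists_modularForm_eq_sum (H2.gamma0_le_SL N)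
    (H2.one_mem_strictPeriods_gamma0 N) (w := w) (K := k + ((μ : ℤ) - 1) * w)
    (fun m : Fin μ => k + ((μ : ℤ) - 1 - ((m : ℕ) : ℤ)) * w) (fun m => by ring)
    (fun m => ⇑(Cm m)) (fun m => ⟨Cm m, rfl⟩) e
  have hqB' : qExpansion 1 B = ∑ m : Fin μ, d m * qExpansion 1 e ^ (m : ℕ) := by
    rw [hqB]; exact Finset.sum_congr rfl fun m _ => by rw [hDm m]
  have hqA' : qExpansion 1 A = ∑ m : Fin μ, c m * qExpansion 1 e ^ (m : ℕ) := by
    rw [hqA]; exact Finset.sum_congr rfl fun m _ => by rw [hCm m]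
  have hB0 : B ≠ 0 := by
    intro h0
    apply hne
    rw [← hqB', h0]
    exact qExpansion_zero 1
  -- the coefficient functions of the monic relation
  let c' : ℕ → ℍ → ℂ := fun j => if hj : j - 1 < μ then ⇑(Sr ⟨j - 1, hj⟩) else 0
  have hc' : ∀ j, 1 ≤ j → j ≤ μ → ∃ cf : CuspForm 𝒮ℒ ((j : ℤ) * k), ⇑cf = c' j := by
    intro j h1 h2
    have hj : j - 1 < μ := by omega
    have hw : ((((⟨j - 1, hj⟩ : Fin μ) : ℕ) : ℤ) + 1) * k = (j : ℤ) * k := by
      congr 1
      push_cast [Nat.cast_sub h1]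
      ring
    obtain ⟨g, hg⟩ := exists_cuspForm_cast hw (Sr ⟨j - 1, hj⟩)
    refine ⟨g, ?_⟩
    rw [hg]
    simp only [c', dif_pos hj]
  have hroot' : x ^ μ + ∑ j ∈ range μ, qExpansion 1 (c' (j + 1)) * x ^ (μ - 1 - j) = 0 := by
    rw [← hroot, ← Fin.sum_univ_eq_sum_range (fun j => qExpansion 1 (c' (j + 1)) * x ^ (μ - 1 - j))]
    congr 1
    refine Finset.sum_congr rfl fun r _ => ?_
    have hr : (r : ℕ) + 1 - 1 < μ := by simp
    have : c' ((r : ℕ) + 1) = ⇑(Sr r) := by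
      simp only [c', dif_pos hr]
      congr
    rw [this, hSr r]
  obtain ⟨f, hf⟩ := exists_cuspForm_of_qExpansion (k := k) rfl A B hB0 μ c' hc' x
    (by rw [hqB', hqA', hrel]) hroot'
  exact ⟨f, hf⟩

end Fermat.Agent.S23.H90
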