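import Fermat.Agent.S23.H23_Conj
import Fermat.Agent.S23.H23_Final
import Fermat.Agent.S23.H57_BoundedDenominators
import Fermat.Agent.S23.H80_PrimElt
import Fermat.Agent.S23.H90_Bridge

/-!
S23 assembly, part 3 (helper23): everything except the forward direction.
Given the forward direction (every q-expansion of a cusp form on `Gamma0 N` admits a Shimura datum
relative to the integral primitive element `H80.eN N` of weight 12), the integral structure follows
from: the converse (H90), the conjugation step (H23_Conj), Galois descent (H71), and bounded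
denominators (H57).
-/

set_option autoImplicit false

noncomputable section

namespace Fermat.Agent.S23.H23

open UpperHalfPlane ModularForm CongruenceSubgroup PowerSeries
open scoped MatrixGroups

variable (N : ℕ) [NeZero N]

/-- The integral primitive element, as a modular form. -/
def eM : ModularForm (Gamma0 N) 12 := CuspForm.toModularFormₗ (H80.eN N)

theorem qExpansion_eM : qExpansion 1 (eM N) = qExpansion 1 (H80.eN N) := rfl

theorem le_intSpan_of_intSpanned {V : Submodule ℂ (PowerSeries ℂ)} (hV : IntSpanned V) :
    V ≤ H57.intSpan := by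
  obtain ⟨n, B, rfl⟩ := hV
  refine Submodule.span_mono ?_
  rintro _ ⟨i, rfl⟩
  exact ⟨B i, rfl⟩

/-- Everything except the forward direction. -/
theorem hasIntegralStructure_of_forward (k : ℤ)
    (hF : ∀ x ∈ qSΓ N k,
      IsShimuraDatum k 12 (indexΓ0 N) (qExpansion 1 (H80.eN N)) x) :
    CuspForm.HasIntegralStructure N k := by
  refine hasIntegralStructure_of N k ?_ ?_
  · intro σ x hx
    exact map_mem_qSΓ intSpanned_qM1 intSpanned_qS1 hF
      (fun x h => H90.mem_qSΓ_of_isShimuraDatum (eM N) h) (σ : ℂ →+* ℂ)
      (H80.map_qExpansion_eN N _) hx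
  · intro X hX
    obtain ⟨d, c, s, hd, hc, hs, hne, hfrac, hroot⟩ := hF _ hX
    obtain ⟨E, hE⟩ := H80.exists_int_qExpansion_eN N
    rw [hE] at hne hfrac
    have hmem : X ∈ H57.bddDen :=
      H57.bounded_denominators (indexΓ0 N) X E d c s
        (fun m => le_intSpan_of_intSpanned (intSpanned_qM1 _) (hd m))
        (fun m => le_intSpan_of_intSpanned (intSpanned_qM1 _) (hc m))
        (fun r => le_intSpan_of_intSpanned (intSpanned_qS1 _) (hs r)) hne hfrac hroot
    obtain ⟨D, hD, G, hG⟩ := H57.exists_int_mul_of_mem_bddDen hmem
    refine ⟨D, G, hD, ?_⟩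
    ext n
    rw [PowerSeries.coeff_smul, PowerSeries.coeff_map, smul_eq_mul, hG n]
    rfl

end Fermat.Agent.S23.H23

end
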