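import Mathlib

/-!
# Conjugates of a modular form under `SL(2,ℤ)` (helper66, S23 / AN2)

Basic facts about `SlashInvariantForm.quotientFunc`: holomorphy, boundedness at `i∞`, and the
pointwise transformation law under `SL(2, ℤ)`.
-/

open UpperHalfPlane Filter
open scoped ModularForm MatrixGroups Manifold Topology Pointwise

noncomputable section

namespace Fermat.Agent.S23.H66

open SlashInvariantForm Matrix.SpecialLinearGroup

variable {𝒢 : Subgroup (GL (Fin 2) ℝ)} [𝒢.IsFiniteRelIndex 𝒮ℒ]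
variable {F : Type*} [FunLike F ℍ ℂ] {k : ℤ}

local notation "𝒬" => 𝒮ℒ ⧸ (𝒢.subgroupOf 𝒮ℒ)

lemma infty_isCusp_SL : IsCusp OnePoint.infty 𝒮ℒ := by
  rw [isCusp_SL2Z_iff']
  exact ⟨1, by simp⟩

omit [𝒢.IsFiniteRelIndex 𝒮ℒ] in
/-- Each conjugate of a modular form is holomorphic. -/
lemma mdiff_quotientFunc [ModularFormClass F 𝒢 k] (f : F) (q : 𝒬) :
    MDiff (quotientFunc f q) := by
  induction q using Quotient.inductionOn with
  | h r => exact (ModularForm.translate f r.val⁻¹).holo'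

/-- Each conjugate of a modular form is bounded at `i∞`. -/
lemma isBoundedAtImInfty_quotientFunc [ModularFormClass F 𝒢 k] (f : F) (q : 𝒬) :
    IsBoundedAtImInfty (quotientFunc f q) := by
  induction q using Quotient.inductionOn with
  | h r =>
    obtain ⟨r, hr⟩ := r
    have hc : IsCusp OnePoint.infty (ConjAct.toConjAct r • 𝒢) :=
      infty_isCusp_SL.of_isFiniteRelIndex_conj hr
    have := (ModularForm.translate f r⁻¹).bdd_at_cusps' (c := OnePoint.infty)
      (by simpa using hc) 1 (by simp)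
    rw [SlashAction.slash_one] at this
    exact this

/-- Each conjugate of a cusp form is zero at `i∞`. -/
lemma isZeroAtImInfty_quotientFunc [CuspFormClass F 𝒢 k] (f : F) (q : 𝒬) :
    IsZeroAtImInfty (quotientFunc f q) := by
  induction q using Quotient.inductionOn with
  | h r =>
    obtain ⟨r, hr⟩ := r
    have hc : IsCusp OnePoint.infty (ConjAct.toConjAct r • 𝒢) :=
      infty_isCusp_SL.of_isFiniteRelIndex_conj hr
    have := (CuspForm.translate f r⁻¹).zero_at_cusps' (c := OnePoint.infty)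
      (by simpa using hc) 1 (by simp)
    rw [SlashAction.slash_one] at this
    exact this

end Fermat.Agent.S23.H66

namespace Fermat.Agent.S23.H66

open SlashInvariantForm Matrix.SpecialLinearGroup

variable {𝒢 : Subgroup (GL (Fin 2) ℝ)}
variable {F : Type*} [FunLike F ℍ ℂ] {k : ℤ}

local notation "𝒬" => 𝒮ℒ ⧸ (𝒢.subgroupOf 𝒮ℒ)

/-- An element of `SL(2, ℤ)` viewed in the subgroup `𝒮ℒ` of `GL(2, ℝ)`. -/
def toSL (γ : SL(2, ℤ)) : 𝒮ℒ := ⟨mapGL ℝ γ, γ, rfl⟩

@[simp] lemma coe_toSL (γ : SL(2, ℤ)) : ((toSL γ : 𝒮ℒ) : GL (Fin 2) ℝ) = mapGL ℝ γ := rfl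

/-- Pointwise transformation law for the conjugates under `SL(2, ℤ)`. -/
lemma quotientFunc_smul_apply [SlashInvariantFormClass F 𝒢 k] (f : F) (q : 𝒬) (γ : SL(2, ℤ))
    (τ : ℍ) :
    quotientFunc f q (γ • τ) = denom γ τ ^ k * quotientFunc f ((toSL γ)⁻¹ • q) τ := by
  have h := congrFun (quotientFunc_smul f (toSL γ).2 q) τ
  have h2 : (quotientFunc f q ∣[k] (mapGL ℝ γ)) τ
      = quotientFunc f q (γ • τ) * denom γ τ ^ (-k) := ModularForm.SL_slash_apply (f := quotientFunc f q) (k := k) γ τ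
  have hd : denom γ τ ^ k ≠ 0 := zpow_ne_zero k (denom_ne_zero γ τ)
  have h3 : quotientFunc f ((toSL γ)⁻¹ • q) τ = quotientFunc f q (γ • τ) * denom γ τ ^ (-k) := by
    rw [← h2]; exact h.symm
  rw [h3, zpow_neg]
  field_simp

end Fermat.Agent.S23.H66
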