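import Mathlib
import Fermat.Agent.S23.H66_Conj

/-!
# Lagrange interpolation over the cosets `SL(2,ℤ) / Γ` (helper66, S23 / AN2)

For `f` of weight `k` and `e` of weight `w` on a finite index subgroup `𝒢`, with conjugates
`f_q`, `e_q` (`q ∈ 𝒬 = SL(2,ℤ)/𝒢`), the coefficients of
`Q(X) = ∑_q f_q ∏_{i ≠ q} (X - e_i)` and of `P(X) = ∏_q (X - e_q)` are level one modular forms.
-/

open UpperHalfPlane Filter Polynomial
open scoped ModularForm MatrixGroups Manifold Topology Pointwise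

noncomputable section

set_option linter.unusedSectionVars false

namespace Fermat.Agent.S23.H66

open SlashInvariantForm Matrix.SpecialLinearGroup Classical

section poly

variable {ι : Type*}

/-- Scaling the roots of `∏ (X - a_i)` by `u`. -/
lemma prod_X_sub_C_mul (u : ℂ) (hu : u ≠ 0) (a : ι → ℂ) (s : Finset ι) :
    ∏ i ∈ s, (X - C (u * a i))
      = C (u ^ s.card) * (∏ i ∈ s, (X - C (a i))).comp (C u⁻¹ * X) := by
  rw [prod_comp, C_pow, ← Finset.prod_const, ← Finset.prod_mul_distrib]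
  refine Finset.prod_congr rfl fun i _ => ?_
  rw [sub_comp, X_comp, C_comp, mul_sub, ← mul_assoc, ← C_mul, mul_inv_cancel₀ hu, C_1, one_mul,
    C_mul]

lemma coeff_prod_X_sub_C_mul (u : ℂ) (hu : u ≠ 0) (a : ι → ℂ) (s : Finset ι) (m : ℕ) :
    (∏ i ∈ s, (X - C (u * a i))).coeff m
      = u ^ s.card * u⁻¹ ^ m * (∏ i ∈ s, (X - C (a i))).coeff m := by
  rw [prod_X_sub_C_mul u hu, coeff_C_mul, comp_C_mul_X_coeff]
  ring

end poly

variable {𝒢 : Subgroup (GL (Fin 2) ℝ)} [𝒢.IsFiniteRelIndex 𝒮ℒ]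
variable {F E : Type*} [FunLike F ℍ ℂ] [FunLike E ℍ ℂ] {k w : ℤ}

local notation "𝒬" => 𝒮ℒ ⧸ (𝒢.subgroupOf 𝒮ℒ)

instance instFintypeQuot : Fintype 𝒬 := Fintype.ofFinite _

/-- The polynomial `∏_{i ∈ s} (X - e_i(τ))`. -/
def conjProd [SlashInvariantFormClass E 𝒢 w] (e : E) (s : Finset 𝒬) (τ : ℍ) : ℂ[X] :=
  ∏ i ∈ s, (X - C (quotientFunc e i τ))

/-- A function `ℍ → ℂ` is *good* if it is holomorphic and bounded at `i∞`. -/
def Good (g : ℍ → ℂ) : Prop := MDiff g ∧ IsBoundedAtImInfty g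

lemma Good.add {g h : ℍ → ℂ} (hg : Good g) (hh : Good h) : Good (g + h) :=
  ⟨hg.1.add hh.1, hg.2.add hh.2⟩

lemma Good.sub {g h : ℍ → ℂ} (hg : Good g) (hh : Good h) : Good (g - h) :=
  ⟨hg.1.sub hh.1, hg.2.sub hh.2⟩

lemma Good.mul {g h : ℍ → ℂ} (hg : Good g) (hh : Good h) : Good (g * h) :=
  ⟨hg.1.mul hh.1, hg.2.mul hh.2⟩

lemma Good.const (c : ℂ) : Good (fun _ => c) :=
  ⟨mdifferentiable_const, Filter.const_boundedAtFilter _ c⟩

lemma good_quotientFunc [ModularFormClass E 𝒢 w] (e : E) (q : 𝒬) : Good (quotientFunc e q) :=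
  ⟨mdiff_quotientFunc e q, isBoundedAtImInfty_quotientFunc e q⟩

/-- All coefficient functions of `conjProd e s` are holomorphic and bounded at `i∞`. -/
lemma good_coeff_conjProd [ModularFormClass E 𝒢 w] (e : E) (s : Finset 𝒬) :
    ∀ m : ℕ, Good (fun τ => (conjProd e s τ).coeff m) := by
  induction s using Finset.induction_on with
  | empty =>
    intro m
    simp only [conjProd, Finset.prod_empty, coeff_one]
    exact Good.const _
  | insert a s ha ih =>
    intro m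
    have h1 : ∀ τ, conjProd e (insert a s) τ = (X - C (quotientFunc e a τ)) * conjProd e s τ := by
      intro τ; simp only [conjProd, Finset.prod_insert ha]
    cases m with
    | zero =>
      have : (fun τ => (conjProd e (insert a s) τ).coeff 0)
          = (fun _ => (0:ℂ)) - quotientFunc e a * (fun τ => (conjProd e s τ).coeff 0) := by
        funext τ
        simp [h1, mul_coeff_zero]
      rw [this]
      exact (Good.const 0).sub ((good_quotientFunc e a).mul (ih 0))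
    | succ n =>
      have : (fun τ => (conjProd e (insert a s) τ).coeff (n + 1))
          = (fun τ => (conjProd e s τ).coeff n)
            - quotientFunc e a * (fun τ => (conjProd e s τ).coeff (n + 1)) := by
        funext τ
        simp [h1, coeff_X_sub_C_mul]
      rw [this]
      exact (ih n).sub ((good_quotientFunc e a).mul (ih (n + 1)))

/-- `Q_τ(X) = ∑_q f_q(τ) ∏_{i ≠ q} (X - e_i(τ))`. -/
def lagPoly [SlashInvariantFormClass F 𝒢 k] [SlashInvariantFormClass E 𝒢 w] (f : F) (e : E)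
    (τ : ℍ) : ℂ[X] :=
  ∑ q : 𝒬, C (quotientFunc f q τ) * conjProd e (Finset.univ.erase q) τ

/-- `P_τ(X) = ∏_q (X - e_q(τ))`. -/
def conjPoly [SlashInvariantFormClass E 𝒢 w] (e : E) (τ : ℍ) : ℂ[X] :=
  conjProd e Finset.univ τ

/-- The permutation of the cosets induced by `γ⁻¹`. -/
def cosetPerm (γ : SL(2, ℤ)) : Equiv.Perm 𝒬 := MulAction.toPerm (toSL γ)⁻¹

@[simp] lemma cosetPerm_apply (γ : SL(2, ℤ)) (q : 𝒬) :
    cosetPerm (𝒢 := 𝒢) γ q = (toSL γ)⁻¹ • q := rfl

/-- Transformation law of `conjProd` under `SL(2, ℤ)`. -/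
lemma conjProd_smul [SlashInvariantFormClass E 𝒢 w] (e : E) (s : Finset 𝒬) (γ : SL(2, ℤ))
    (τ : ℍ) :
    conjProd e s (γ • τ) = C ((denom γ τ ^ w) ^ s.card) *
      (conjProd e (s.map (cosetPerm γ).toEmbedding) τ).comp (C (denom γ τ ^ w)⁻¹ * X) := by
  have hu : denom γ τ ^ w ≠ 0 := zpow_ne_zero w (denom_ne_zero γ τ)
  have := prod_X_sub_C_mul (denom γ τ ^ w) hu (fun i : 𝒬 => quotientFunc e i τ)
    (s.map (cosetPerm γ).toEmbedding)
  rw [Finset.card_map] at this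
  rw [conjProd, conjProd, ← this, Finset.prod_map]
  refine Finset.prod_congr rfl fun i _ => ?_
  rw [quotientFunc_smul_apply]
  rfl

lemma map_erase_cosetPerm (γ : SL(2, ℤ)) (q : 𝒬) :
    (Finset.univ.erase q).map (cosetPerm (𝒢 := 𝒢) γ).toEmbedding
      = Finset.univ.erase (cosetPerm γ q) := by
  ext i
  simp only [Finset.mem_map_equiv, Finset.mem_erase, Finset.mem_univ, and_true, ne_eq]
  rw [Equiv.symm_apply_eq]

lemma card_erase_univ (q : 𝒬) : (Finset.univ.erase q).card = Fintype.card 𝒬 - 1 := by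
  rw [Finset.card_erase_of_mem (Finset.mem_univ q), Finset.card_univ]

/-- Transformation law of `conjPoly` under `SL(2, ℤ)`. -/
lemma conjPoly_smul [SlashInvariantFormClass E 𝒢 w] (e : E) (γ : SL(2, ℤ)) (τ : ℍ) :
    conjPoly e (γ • τ) = C ((denom γ τ ^ w) ^ Fintype.card 𝒬) *
      (conjPoly e τ).comp (C (denom γ τ ^ w)⁻¹ * X) := by
  rw [conjPoly, conjProd_smul, Finset.map_univ_equiv, Finset.card_univ]
  rfl

/-- Transformation law of `lagPoly` under `SL(2, ℤ)`. -/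
lemma lagPoly_smul [SlashInvariantFormClass F 𝒢 k] [SlashInvariantFormClass E 𝒢 w] (f : F) (e : E)
    (γ : SL(2, ℤ)) (τ : ℍ) :
    lagPoly f e (γ • τ) = C (denom γ τ ^ k * (denom γ τ ^ w) ^ (Fintype.card 𝒬 - 1)) *
      (lagPoly f e τ).comp (C (denom γ τ ^ w)⁻¹ * X) := by
  rw [lagPoly, lagPoly, sum_comp, Finset.mul_sum]
  refine Fintype.sum_equiv (cosetPerm (𝒢 := 𝒢) γ) _ _ fun q => ?_
  rw [conjProd_smul, map_erase_cosetPerm, card_erase_univ, quotientFunc_smul_apply, mul_comp,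
    C_comp, cosetPerm_apply, C_mul, C_mul]
  ring

/-- Slash invariance under `𝒮ℒ` from the pointwise transformation law. -/
lemma slash_eq_of_smul_apply {g : ℍ → ℂ} {κ : ℤ}
    (h : ∀ (γ : SL(2, ℤ)) (τ : ℍ), g (γ • τ) = denom γ τ ^ κ * g τ) :
    ∀ γ ∈ 𝒮ℒ, g ∣[κ] γ = g := by
  rintro _ ⟨γ, rfl⟩
  ext τ
  have h1 : (g ∣[κ] (mapGL ℝ γ)) τ = g (γ • τ) * denom γ τ ^ (-κ) :=
    ModularForm.SL_slash_apply (f := g) (k := κ) γ τ
  have hd : denom γ τ ^ κ ≠ 0 := zpow_ne_zero κ (denom_ne_zero γ τ)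
  rw [h1, h, zpow_neg]
  field_simp

/-- The coefficient functions of the Lagrange polynomial. -/
def lagCoeff [SlashInvariantFormClass F 𝒢 k] [SlashInvariantFormClass E 𝒢 w] (f : F) (e : E)
    (m : ℕ) (τ : ℍ) : ℂ := (lagPoly f e τ).coeff m

/-- The coefficient functions of the conjugate polynomial. -/
def conjCoeff [SlashInvariantFormClass E 𝒢 w] (e : E) (m : ℕ) (τ : ℍ) : ℂ :=
  (conjPoly e τ).coeff m

variable (𝒢) in
/-- Weight of the `m`-th coefficient of the Lagrange polynomial. -/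
def lagWeight (k w : ℤ) (m : ℕ) : ℤ := k + w * (((Fintype.card 𝒬 - 1 : ℕ) : ℤ) - m)

variable (𝒢) in
/-- Weight of the `m`-th coefficient of the conjugate polynomial. -/
def conjWeight (w : ℤ) (m : ℕ) : ℤ := w * ((Fintype.card 𝒬 : ℤ) - m)

lemma lagCoeff_smul_apply [SlashInvariantFormClass F 𝒢 k] [SlashInvariantFormClass E 𝒢 w] (f : F)
    (e : E) (m : ℕ) (γ : SL(2, ℤ)) (τ : ℍ) :
    lagCoeff f e m (γ • τ) = denom γ τ ^ (lagWeight 𝒢 k w m) * lagCoeff f e m τ := by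
  have hd : denom γ τ ≠ 0 := denom_ne_zero γ τ
  rw [lagCoeff, lagPoly_smul, coeff_C_mul, comp_C_mul_X_coeff, lagCoeff, lagWeight,
    zpow_add₀ hd, mul_sub, zpow_sub₀ hd, zpow_mul, zpow_mul, zpow_natCast, zpow_natCast, inv_pow]
  field_simp

lemma conjCoeff_smul_apply [SlashInvariantFormClass E 𝒢 w] (e : E) (m : ℕ) (γ : SL(2, ℤ))
    (τ : ℍ) :
    conjCoeff e m (γ • τ) = denom γ τ ^ (conjWeight 𝒢 w m) * conjCoeff e m τ := by
  have hd : denom γ τ ≠ 0 := denom_ne_zero γ τ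
  rw [conjCoeff, conjPoly_smul, coeff_C_mul, comp_C_mul_X_coeff, conjCoeff, conjWeight,
    mul_sub, zpow_sub₀ hd, zpow_mul, zpow_mul, zpow_natCast, zpow_natCast, inv_pow]
  field_simp

lemma good_conjCoeff [ModularFormClass E 𝒢 w] (e : E) (m : ℕ) : Good (conjCoeff e m) :=
  good_coeff_conjProd e Finset.univ m

lemma lagCoeff_eq_sum [SlashInvariantFormClass F 𝒢 k] [SlashInvariantFormClass E 𝒢 w] (f : F)
    (e : E) (m : ℕ) :
    lagCoeff f e m = ∑ q : 𝒬, quotientFunc f q *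
      (fun τ => (conjProd e (Finset.univ.erase q) τ).coeff m) := by
  funext τ
  simp only [lagCoeff, lagPoly, finsetSum_coeff, coeff_C_mul, Finset.sum_apply, Pi.mul_apply]

lemma good_finset_sum {ι : Type*} (s : Finset ι) (g : ι → ℍ → ℂ) (h : ∀ i ∈ s, Good (g i)) :
    Good (∑ i ∈ s, g i) := by
  induction s using Finset.induction_on with
  | empty =>
    rw [Finset.sum_empty]
    exact Good.const 0
  | insert a s ha ih =>
    rw [Finset.sum_insert ha]
    exact (h a (Finset.mem_insert_self a s)).add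
      (ih fun i hi => h i (Finset.mem_insert_of_mem hi))

lemma good_lagCoeff [ModularFormClass F 𝒢 k] [ModularFormClass E 𝒢 w] (f : F) (e : E) (m : ℕ) :
    Good (lagCoeff f e m) := by
  rw [lagCoeff_eq_sum]
  exact good_finset_sum _ _ fun q _ =>
    (good_quotientFunc f q).mul (good_coeff_conjProd e _ m)

lemma isZeroAtImInfty_lagCoeff [CuspFormClass F 𝒢 k] [ModularFormClass E 𝒢 w] (f : F) (e : E)
    (m : ℕ) : IsZeroAtImInfty (lagCoeff f e m) := by
  rw [lagCoeff_eq_sum]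
  have : ∀ s : Finset 𝒬, IsZeroAtImInfty (∑ q ∈ s, quotientFunc f q *
      (fun τ => (conjProd e (Finset.univ.erase q) τ).coeff m)) := by
    intro s
    induction s using Finset.induction_on with
    | empty =>
      rw [Finset.sum_empty]
      exact Filter.zero_zeroAtFilter atImInfty
    | insert a s ha ih =>
      rw [Finset.sum_insert ha]
      exact ((isZeroAtImInfty_quotientFunc f a).mul_boundedAtFilter
        (good_coeff_conjProd e _ m).2).add ih
  exact this _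

/-- Boundedness at all cusps of `𝒮ℒ` for an `𝒮ℒ`-invariant function bounded at `i∞`. -/
lemma isBoundedAt_of_slash_eq {g : ℍ → ℂ} {κ : ℤ} (hinv : ∀ γ ∈ 𝒮ℒ, g ∣[κ] γ = g)
    (hb : IsBoundedAtImInfty g) {c : OnePoint ℝ} (hc : IsCusp c 𝒮ℒ) : c.IsBoundedAt g κ := by
  rw [OnePoint.isBoundedAt_iff_forall_SL2Z hc]
  intro γ _
  have : g ∣[κ] γ = g := hinv (mapGL ℝ γ) ⟨γ, rfl⟩
  rw [this]
  exact hb

/-- Vanishing at all cusps of `𝒮ℒ` for an `𝒮ℒ`-invariant function vanishing at `i∞`. -/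
lemma isZeroAt_of_slash_eq {g : ℍ → ℂ} {κ : ℤ} (hinv : ∀ γ ∈ 𝒮ℒ, g ∣[κ] γ = g)
    (hb : IsZeroAtImInfty g) {c : OnePoint ℝ} (hc : IsCusp c 𝒮ℒ) : c.IsZeroAt g κ := by
  rw [OnePoint.isZeroAt_iff_forall_SL2Z hc]
  intro γ _
  have : g ∣[κ] γ = g := hinv (mapGL ℝ γ) ⟨γ, rfl⟩
  rw [this]
  exact hb

/-- The `m`-th coefficient of `∏_q (X - e_q)` as a level one modular form. -/
def conjCoeffForm [ModularFormClass E 𝒢 w] (e : E) (m : ℕ) :
    ModularForm 𝒮ℒ (conjWeight 𝒢 w m) where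
  toFun := conjCoeff e m
  slash_action_eq' := slash_eq_of_smul_apply (conjCoeff_smul_apply e m)
  holo' := (good_conjCoeff e m).1
  bdd_at_cusps' hc := isBoundedAt_of_slash_eq
    (slash_eq_of_smul_apply (conjCoeff_smul_apply e m)) (good_conjCoeff e m).2 hc

/-- The `m`-th coefficient of `∑_q f_q ∏_{i ≠ q} (X - e_i)` as a level one modular form. -/
def lagCoeffForm [ModularFormClass F 𝒢 k] [ModularFormClass E 𝒢 w] (f : F) (e : E) (m : ℕ) :
    ModularForm 𝒮ℒ (lagWeight 𝒢 k w m) where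
  toFun := lagCoeff f e m
  slash_action_eq' := slash_eq_of_smul_apply (lagCoeff_smul_apply f e m)
  holo' := (good_lagCoeff f e m).1
  bdd_at_cusps' hc := isBoundedAt_of_slash_eq
    (slash_eq_of_smul_apply (lagCoeff_smul_apply f e m)) (good_lagCoeff f e m).2 hc

/-- The `m`-th coefficient of `∑_q f_q ∏_{i ≠ q} (X - e_i)` as a level one cusp form, for `f` a
cusp form. -/
def lagCoeffCuspForm [CuspFormClass F 𝒢 k] [ModularFormClass E 𝒢 w] (f : F) (e : E) (m : ℕ) :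
    CuspForm 𝒮ℒ (lagWeight 𝒢 k w m) where
  toFun := lagCoeff f e m
  slash_action_eq' := slash_eq_of_smul_apply (lagCoeff_smul_apply f e m)
  holo' := (good_lagCoeff f e m).1
  zero_at_cusps' hc := isZeroAt_of_slash_eq
    (slash_eq_of_smul_apply (lagCoeff_smul_apply f e m)) (isZeroAtImInfty_lagCoeff f e m) hc

@[simp] lemma coe_conjCoeffForm [ModularFormClass E 𝒢 w] (e : E) (m : ℕ) :
    ⇑(conjCoeffForm e m) = conjCoeff e m := rfl

@[simp] lemma coe_lagCoeffForm [ModularFormClass F 𝒢 k] [ModularFormClass E 𝒢 w] (f : F) (e : E)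
    (m : ℕ) : ⇑(lagCoeffForm f e m) = lagCoeff f e m := rfl

@[simp] lemma coe_lagCoeffCuspForm [CuspFormClass F 𝒢 k] [ModularFormClass E 𝒢 w] (f : F) (e : E)
    (m : ℕ) : ⇑(lagCoeffCuspForm f e m) = lagCoeff f e m := rfl

/-! ### The interpolation identities -/

/-- The trivial coset. -/
def q₀ : 𝒬 := QuotientGroup.mk 1

@[simp] lemma quotientFunc_q₀ [SlashInvariantFormClass F 𝒢 k] (f : F) :
    quotientFunc f (q₀ (𝒢 := 𝒢)) = f := by
  show quotientFunc f ⟦(1 : 𝒮ℒ)⟧ = f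
  rw [quotientFunc_mk]
  simp

lemma natDegree_conjProd [SlashInvariantFormClass E 𝒢 w] (e : E) (s : Finset 𝒬) (τ : ℍ) :
    (conjProd e s τ).natDegree = s.card :=
  natDegree_finsetProd_X_sub_C_eq_card s _

lemma natDegree_lagPoly_lt [SlashInvariantFormClass F 𝒢 k] [SlashInvariantFormClass E 𝒢 w] (f : F)
    (e : E) (τ : ℍ) : (lagPoly f e τ).natDegree < Fintype.card 𝒬 := by
  have hpos : 0 < Fintype.card 𝒬 := Fintype.card_pos_iff.mpr ⟨q₀⟩
  refine lt_of_le_of_lt (natDegree_sum_le_of_forall_le (n := Fintype.card 𝒬 - 1) _ _ ?_)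
    (Nat.sub_lt hpos one_pos)
  intro q _
  refine (natDegree_C_mul_le _ _).trans ?_
  rw [natDegree_conjProd, card_erase_univ]

/-- `Q_τ(e(τ)) = f(τ) ∏_{i ≠ q₀} (e(τ) - e_i(τ))`. -/
lemma eval_lagPoly [SlashInvariantFormClass F 𝒢 k] [SlashInvariantFormClass E 𝒢 w] (f : F) (e : E)
    (τ : ℍ) :
    (lagPoly f e τ).eval (e τ)
      = f τ * ∏ i ∈ Finset.univ.erase (q₀ (𝒢 := 𝒢)), (e τ - quotientFunc e i τ) := by
  rw [lagPoly, eval_finsetSum, Finset.sum_eq_single (q₀ (𝒢 := 𝒢))]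
  · simp [conjProd, eval_prod]
  · intro q _ hq
    rw [eval_mul, conjProd, eval_prod]
    refine mul_eq_zero_of_right _ (Finset.prod_eq_zero (i := q₀) ?_ ?_)
    · exact Finset.mem_erase.mpr ⟨fun h => hq h.symm, Finset.mem_univ _⟩
    · simp
  · intro h; exact absurd (Finset.mem_univ _) h

/-- `P_τ'(e(τ)) = ∏_{i ≠ q₀} (e(τ) - e_i(τ))`. -/
lemma eval_derivative_conjPoly [SlashInvariantFormClass E 𝒢 w] (e : E) (τ : ℍ) :
    (derivative (conjPoly e τ)).eval (e τ)
      = ∏ i ∈ Finset.univ.erase (q₀ (𝒢 := 𝒢)), (e τ - quotientFunc e i τ) := by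
  rw [conjPoly, conjProd, derivative_prod_finset, eval_finsetSum,
    Finset.sum_eq_single (q₀ (𝒢 := 𝒢))]
  · simp [eval_prod]
  · intro q _ hq
    rw [eval_mul, eval_prod]
    refine mul_eq_zero_of_left (Finset.prod_eq_zero (i := q₀) ?_ ?_) _
    · exact Finset.mem_erase.mpr ⟨fun h => hq h.symm, Finset.mem_univ _⟩
    · simp
  · intro h; exact absurd (Finset.mem_univ _) h

/-- The Lagrange denominator `D(τ) = ∏_{i ≠ q₀} (e(τ) - e_i(τ)) = P_τ'(e(τ))`. -/
def lagDenom [SlashInvariantFormClass E 𝒢 w] (e : E) (τ : ℍ) : ℂ :=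
  ∏ i ∈ Finset.univ.erase (q₀ (𝒢 := 𝒢)), (e τ - quotientFunc e i τ)

/-- `f · D = ∑_{m < μ} c_m e^m` with `c_m` the level one coefficient forms. -/
theorem lagrange_identity [SlashInvariantFormClass F 𝒢 k] [SlashInvariantFormClass E 𝒢 w] (f : F)
    (e : E) (τ : ℍ) :
    f τ * lagDenom e τ
      = ∑ m ∈ Finset.range (Fintype.card 𝒬), lagCoeff f e m τ * e τ ^ m := by
  rw [lagDenom, ← eval_lagPoly, eval_eq_sum_range' (natDegree_lagPoly_lt f e τ)]
  rfl

lemma monic_conjPoly [SlashInvariantFormClass E 𝒢 w] (e : E) (τ : ℍ) : (conjPoly e τ).Monic :=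
  monic_prod_of_monic _ _ fun _ _ => monic_X_sub_C _

lemma natDegree_conjPoly [SlashInvariantFormClass E 𝒢 w] (e : E) (τ : ℍ) :
    (conjPoly e τ).natDegree = Fintype.card 𝒬 := by
  rw [conjPoly, natDegree_conjProd, Finset.card_univ]

/-- `P_τ(e(τ)) = 0`. -/
lemma eval_conjPoly [SlashInvariantFormClass E 𝒢 w] (e : E) (τ : ℍ) :
    (conjPoly e τ).eval (e τ) = 0 := by
  rw [conjPoly, conjProd, eval_prod]
  refine Finset.prod_eq_zero (Finset.mem_univ (q₀ (𝒢 := 𝒢))) ?_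
  simp

lemma conjCoeff_card [SlashInvariantFormClass E 𝒢 w] (e : E) (τ : ℍ) :
    conjCoeff e (Fintype.card 𝒬) τ = 1 := by
  have := (monic_conjPoly e τ).coeff_natDegree
  rwa [natDegree_conjPoly] at this

lemma conjCoeff_eq_zero_of_lt [SlashInvariantFormClass E 𝒢 w] (e : E) (τ : ℍ) {m : ℕ}
    (hm : Fintype.card 𝒬 < m) : conjCoeff e m τ = 0 := by
  apply coeff_eq_zero_of_natDegree_lt
  rwa [natDegree_conjPoly]

/-- The monic relation `e^μ + ∑_{m < μ} a_m e^m = 0` with `a_m` level one forms. -/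
theorem conj_identity [SlashInvariantFormClass E 𝒢 w] (e : E) (τ : ℍ) :
    e τ ^ Fintype.card 𝒬 + ∑ m ∈ Finset.range (Fintype.card 𝒬), conjCoeff e m τ * e τ ^ m
      = 0 := by
  have h := eval_conjPoly e τ
  rw [eval_eq_sum_range, natDegree_conjPoly, Finset.sum_range_succ] at h
  rw [← h, add_comm]
  congr 1
  show _ = conjCoeff e _ τ * _
  rw [conjCoeff_card, one_mul]

/-- `D = ∑_{m < μ} (m+1) a_{m+1} e^m`. -/
theorem lagDenom_eq_sum [SlashInvariantFormClass E 𝒢 w] (e : E) (τ : ℍ) :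
    lagDenom e τ
      = ∑ m ∈ Finset.range (Fintype.card 𝒬),
          ((m + 1 : ℕ) : ℂ) * conjCoeff e (m + 1) τ * e τ ^ m := by
  have hdeg : (derivative (conjPoly e τ)).natDegree < Fintype.card 𝒬 := by
    have hpos : 0 < Fintype.card 𝒬 := Fintype.card_pos_iff.mpr ⟨q₀⟩
    refine lt_of_le_of_lt (natDegree_derivative_le _) ?_
    rw [natDegree_conjPoly]
    exact Nat.sub_lt hpos one_pos
  rw [lagDenom, ← eval_derivative_conjPoly, eval_eq_sum_range' hdeg]
  refine Finset.sum_congr rfl fun m _ => ?_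
  rw [coeff_derivative, conjCoeff]
  push_cast
  ring

end Fermat.Agent.S23.H66
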