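import Mathlib

/-!
# Algebra of `q`-expansions of period one functions (helper66, S23 / AN2)

`Nice g` : `g : ℍ → ℂ` is `1`-periodic, holomorphic and bounded at `i∞`.  On such functions
`qExpansion 1` is additive, multiplicative and injective.
-/

open UpperHalfPlane Filter Function
open scoped ModularForm MatrixGroups Manifold Topology

noncomputable section

namespace Fermat.Agent.S23.H66

/-- `g` is `1`-periodic, holomorphic and bounded at `i∞`. -/
structure Nice (g : ℍ → ℂ) : Prop where
  periodic : Function.Periodic (g ∘ ofComplex) ((1 : ℝ) : ℂ)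
  mdiff : MDiff g
  bdd : IsBoundedAtImInfty g

namespace Nice

variable {f g : ℍ → ℂ}

lemma analyticAt (hf : Nice f) : AnalyticAt ℂ (cuspFunction 1 f) 0 :=
  analyticAt_cuspFunction_zero one_pos hf.periodic hf.mdiff hf.bdd

lemma add (hf : Nice f) (hg : Nice g) : Nice (f + g) :=
  ⟨hf.periodic.add hg.periodic, hf.mdiff.add hg.mdiff, hf.bdd.add hg.bdd⟩

lemma sub (hf : Nice f) (hg : Nice g) : Nice (f - g) :=
  ⟨hf.periodic.sub hg.periodic, hf.mdiff.sub hg.mdiff, hf.bdd.sub hg.bdd⟩

lemma mul (hf : Nice f) (hg : Nice g) : Nice (f * g) :=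
  ⟨hf.periodic.mul hg.periodic, hf.mdiff.mul hg.mdiff, hf.bdd.mul hg.bdd⟩

lemma const (c : ℂ) : Nice (fun _ => c) :=
  ⟨fun _ => rfl, mdifferentiable_const, Filter.const_boundedAtFilter _ c⟩

lemma one : Nice (1 : ℍ → ℂ) := const 1

lemma zero : Nice (0 : ℍ → ℂ) := const 0

lemma smul (c : ℂ) (hf : Nice f) : Nice (c • f) := by
  have : c • f = (fun _ => c) * f := by ext τ; simp
  rw [this]
  exact (const c).mul hf

lemma neg (hf : Nice f) : Nice (-f) := by
  have : -f = (-1 : ℂ) • f := by ext τ; simp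
  rw [this]
  exact hf.smul _

lemma pow (hf : Nice f) (n : ℕ) : Nice (f ^ n) := by
  induction n with
  | zero => rw [pow_zero]; exact one
  | succ n ih => rw [pow_succ]; exact ih.mul hf

lemma sum {ι : Type*} (s : Finset ι) (F : ι → ℍ → ℂ) (h : ∀ i ∈ s, Nice (F i)) :
    Nice (∑ i ∈ s, F i) := by
  classical
  induction s using Finset.induction_on with
  | empty => rw [Finset.sum_empty]; exact zero
  | insert a s ha ih =>
    rw [Finset.sum_insert ha]
    exact (h a (Finset.mem_insert_self a s)).add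
      (ih fun i hi => h i (Finset.mem_insert_of_mem hi))

lemma prod {ι : Type*} (s : Finset ι) (F : ι → ℍ → ℂ) (h : ∀ i ∈ s, Nice (F i)) :
    Nice (∏ i ∈ s, F i) := by
  classical
  induction s using Finset.induction_on with
  | empty => rw [Finset.prod_empty]; exact one
  | insert a s ha ih =>
    rw [Finset.prod_insert ha]
    exact (h a (Finset.mem_insert_self a s)).mul
      (ih fun i hi => h i (Finset.mem_insert_of_mem hi))

lemma qExpansion_add (hf : Nice f) (hg : Nice g) :
    qExpansion 1 (f + g) = qExpansion 1 f + qExpansion 1 g :=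
  UpperHalfPlane.qExpansion_add hf.analyticAt hg.analyticAt

lemma qExpansion_sub (hf : Nice f) (hg : Nice g) :
    qExpansion 1 (f - g) = qExpansion 1 f - qExpansion 1 g :=
  UpperHalfPlane.qExpansion_sub hf.analyticAt hg.analyticAt

lemma qExpansion_mul (hf : Nice f) (hg : Nice g) :
    qExpansion 1 (f * g) = qExpansion 1 f * qExpansion 1 g :=
  UpperHalfPlane.qExpansion_mul hf.analyticAt hg.analyticAt

lemma qExpansion_smul (c : ℂ) (hf : Nice f) :
    qExpansion 1 (c • f) = c • qExpansion 1 f :=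
  UpperHalfPlane.qExpansion_smul hf.analyticAt c

lemma qExpansion_neg (hf : Nice f) : qExpansion 1 (-f) = -qExpansion 1 f :=
  UpperHalfPlane.qExpansion_neg hf.analyticAt

lemma qExpansion_const (c : ℂ) : qExpansion 1 (fun _ : ℍ => c) = PowerSeries.C c := by
  have : (fun _ : ℍ => c) = c • (1 : ℍ → ℂ) := by ext τ; simp
  rw [this, one.qExpansion_smul, UpperHalfPlane.qExpansion_one, PowerSeries.smul_eq_C_mul,
    mul_one]

lemma qExpansion_pow (hf : Nice f) (n : ℕ) :
    qExpansion 1 (f ^ n) = qExpansion 1 f ^ n := by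
  induction n with
  | zero => rw [pow_zero, pow_zero, UpperHalfPlane.qExpansion_one]
  | succ n ih => rw [pow_succ, pow_succ, (hf.pow n).qExpansion_mul hf, ih]

lemma qExpansion_sum {ι : Type*} (s : Finset ι) (F : ι → ℍ → ℂ) (h : ∀ i ∈ s, Nice (F i)) :
    qExpansion 1 (∑ i ∈ s, F i) = ∑ i ∈ s, qExpansion 1 (F i) := by
  classical
  induction s using Finset.induction_on with
  | empty => rw [Finset.sum_empty, Finset.sum_empty, UpperHalfPlane.qExpansion_zero]
  | insert a s ha ih =>
    have hs : ∀ i ∈ s, Nice (F i) := fun i hi => h i (Finset.mem_insert_of_mem hi)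
    rw [Finset.sum_insert ha, Finset.sum_insert ha,
      (h a (Finset.mem_insert_self a s)).qExpansion_add (sum s F hs), ih hs]

lemma qExpansion_prod {ι : Type*} (s : Finset ι) (F : ι → ℍ → ℂ) (h : ∀ i ∈ s, Nice (F i)) :
    qExpansion 1 (∏ i ∈ s, F i) = ∏ i ∈ s, qExpansion 1 (F i) := by
  classical
  induction s using Finset.induction_on with
  | empty => rw [Finset.prod_empty, Finset.prod_empty, UpperHalfPlane.qExpansion_one]
  | insert a s ha ih =>
    have hs : ∀ i ∈ s, Nice (F i) := fun i hi => h i (Finset.mem_insert_of_mem hi)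
    rw [Finset.prod_insert ha, Finset.prod_insert ha,
      (h a (Finset.mem_insert_self a s)).qExpansion_mul (prod s F hs), ih hs]

lemma qExpansion_eq_zero_iff (hf : Nice f) : qExpansion 1 f = 0 ↔ f = 0 :=
  UpperHalfPlane.qExpansion_eq_zero_iff one_pos hf.periodic hf.mdiff hf.bdd

lemma qExpansion_injective (hf : Nice f) (hg : Nice g) (h : qExpansion 1 f = qExpansion 1 g) :
    f = g := by
  have := (hf.sub hg).qExpansion_eq_zero_iff.mp (by rw [hf.qExpansion_sub hg, h, sub_self])
  exact sub_eq_zero.mp this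

end Nice

/-- A modular form for a group with strict period `1` is `Nice`. -/
lemma nice_of_modularForm {Γ : Subgroup (GL (Fin 2) ℝ)} {F : Type*} [FunLike F ℍ ℂ] {k : ℤ}
    [ModularFormClass F Γ k] (hΓ : (1 : ℝ) ∈ Γ.strictPeriods) (f : F) : Nice (f : ℍ → ℂ) :=
  have : Fact (IsCusp OnePoint.infty Γ) := ⟨Γ.isCusp_of_mem_strictPeriods one_pos hΓ⟩
  ⟨SlashInvariantFormClass.periodic_comp_ofComplex f hΓ, ModularFormClass.holo f,
    ModularFormClass.bdd_at_infty f⟩

/-- A level one modular form is `Nice`. -/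
lemma nice_of_levelOne {F : Type*} [FunLike F ℍ ℂ] {k : ℤ} [ModularFormClass F 𝒮ℒ k] (f : F) :
    Nice (f : ℍ → ℂ) :=
  nice_of_modularForm one_mem_strictPeriods_SL f

end Fermat.Agent.S23.H66
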