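import Mathlib
import Fermat.Agent.S23.H66_Lagrange
import Fermat.Agent.S23.H66_QExp

/-!
# Lagrange interpolation at the level of `q`-expansions (helper66, S23 / AN2)

For `f` of weight `k` and `e` of weight `w` on a finite index subgroup `𝒢` with strict period `1`,
writing `x = q(f)`, `ε = q(e)`, `μ = [SL(2,ℤ) : 𝒢]`:
`x * (∑_{m<μ} d_m ε^m) = ∑_{m<μ} c_m ε^m` and `ε^μ + ∑_{m<μ} a_m ε^m = 0`,
with `a_m, d_m, c_m` the `q`-expansions of level one modular forms.
-/

open UpperHalfPlane Filter Polynomial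
open scoped ModularForm MatrixGroups Manifold Topology Pointwise

noncomputable section

set_option linter.unusedSectionVars false

namespace Fermat.Agent.S23.H66

open SlashInvariantForm Matrix.SpecialLinearGroup Classical

variable {𝒢 : Subgroup (GL (Fin 2) ℝ)} [𝒢.IsFiniteRelIndex 𝒮ℒ]
variable {F E : Type*} [FunLike F ℍ ℂ] [FunLike E ℍ ℂ] {k w : ℤ}

local notation "𝒬" => 𝒮ℒ ⧸ (𝒢.subgroupOf 𝒮ℒ)

/-- The coefficient `(m+1) a_{m+1}` of the derivative of the conjugate polynomial, as a level one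
modular form. -/
def derivCoeffForm [ModularFormClass E 𝒢 w] (e : E) (m : ℕ) :
    ModularForm 𝒮ℒ (conjWeight 𝒢 w (m + 1)) :=
  ((m + 1 : ℕ) : ℂ) • conjCoeffForm e (m + 1)

@[simp] lemma coe_derivCoeffForm [ModularFormClass E 𝒢 w] (e : E) (m : ℕ) :
    ⇑(derivCoeffForm e m) = ((m + 1 : ℕ) : ℂ) • conjCoeff e (m + 1) := rfl

lemma nice_conjCoeff [ModularFormClass E 𝒢 w] (e : E) (m : ℕ) : Nice (conjCoeff e m) :=
  nice_of_levelOne (conjCoeffForm e m)

lemma nice_lagCoeff [ModularFormClass F 𝒢 k] [ModularFormClass E 𝒢 w] (f : F) (e : E) (m : ℕ) :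
    Nice (lagCoeff f e m) :=
  nice_of_levelOne (lagCoeffForm f e m)

lemma lagDenom_eq_sum_fun [SlashInvariantFormClass E 𝒢 w] (e : E) :
    lagDenom e = ∑ m ∈ Finset.range (Fintype.card 𝒬),
      (((m + 1 : ℕ) : ℂ) • conjCoeff e (m + 1)) * (e : ℍ → ℂ) ^ m := by
  funext τ
  rw [lagDenom_eq_sum, Finset.sum_apply]
  rfl

lemma lagrange_identity_fun [SlashInvariantFormClass F 𝒢 k] [SlashInvariantFormClass E 𝒢 w]
    (f : F) (e : E) :
    (f : ℍ → ℂ) * lagDenom e
      = ∑ m ∈ Finset.range (Fintype.card 𝒬), lagCoeff f e m * (e : ℍ → ℂ) ^ m := by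
  funext τ
  rw [Pi.mul_apply, lagrange_identity, Finset.sum_apply]
  rfl

lemma conj_identity_fun [SlashInvariantFormClass E 𝒢 w] (e : E) :
    (e : ℍ → ℂ) ^ Fintype.card 𝒬
      + ∑ m ∈ Finset.range (Fintype.card 𝒬), conjCoeff e m * (e : ℍ → ℂ) ^ m = 0 := by
  funext τ
  rw [Pi.add_apply, Finset.sum_apply]
  exact conj_identity e τ

section series

variable (h1 : (1 : ℝ) ∈ 𝒢.strictPeriods)
include h1

lemma nice_lagDenom [ModularFormClass E 𝒢 w] (e : E) : Nice (lagDenom e) := by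
  rw [lagDenom_eq_sum_fun]
  exact Nice.sum _ _ fun m _ =>
    ((nice_conjCoeff e (m + 1)).smul _).mul ((nice_of_modularForm h1 e).pow m)

/-- `q(D) = ∑_{m<μ} q(d_m) q(e)^m`. -/
theorem qExpansion_lagDenom [ModularFormClass E 𝒢 w] (e : E) :
    qExpansion 1 (lagDenom e)
      = ∑ m ∈ Finset.range (Fintype.card 𝒬),
          qExpansion 1 (derivCoeffForm e m) * qExpansion 1 e ^ m := by
  have he := nice_of_modularForm h1 e
  rw [lagDenom_eq_sum_fun, Nice.qExpansion_sum _ _ fun m _ =>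
    ((nice_conjCoeff e (m + 1)).smul _).mul (he.pow m)]
  refine Finset.sum_congr rfl fun m _ => ?_
  rw [((nice_conjCoeff e (m + 1)).smul _).qExpansion_mul (he.pow m), he.qExpansion_pow,
    coe_derivCoeffForm]

/-- `q(f) q(D) = ∑_{m<μ} q(c_m) q(e)^m`. -/
theorem qExpansion_lagrange_identity [ModularFormClass F 𝒢 k] [ModularFormClass E 𝒢 w] (f : F)
    (e : E) :
    qExpansion 1 f * qExpansion 1 (lagDenom e)
      = ∑ m ∈ Finset.range (Fintype.card 𝒬),
          qExpansion 1 (lagCoeffForm f e m) * qExpansion 1 e ^ m := by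
  have he := nice_of_modularForm h1 e
  have hf := nice_of_modularForm h1 f
  rw [← hf.qExpansion_mul (nice_lagDenom h1 e), lagrange_identity_fun,
    Nice.qExpansion_sum _ _ fun m _ => (nice_lagCoeff f e m).mul (he.pow m)]
  refine Finset.sum_congr rfl fun m _ => ?_
  rw [(nice_lagCoeff f e m).qExpansion_mul (he.pow m), he.qExpansion_pow, coe_lagCoeffForm]

/-- The cusp form version: `q(f) q(D) = ∑_{m<μ} q(c_m) q(e)^m` with `c_m` level one cusp forms. -/
theorem qExpansion_lagrange_identity_cusp [CuspFormClass F 𝒢 k] [ModularFormClass E 𝒢 w] (f : F)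
    (e : E) :
    qExpansion 1 f * qExpansion 1 (lagDenom e)
      = ∑ m ∈ Finset.range (Fintype.card 𝒬),
          qExpansion 1 (lagCoeffCuspForm f e m) * qExpansion 1 e ^ m :=
  qExpansion_lagrange_identity h1 f e

/-- The monic relation `q(e)^μ + ∑_{m<μ} q(a_m) q(e)^m = 0`. -/
theorem qExpansion_conj_identity [ModularFormClass E 𝒢 w] (e : E) :
    qExpansion 1 e ^ Fintype.card 𝒬
      + ∑ m ∈ Finset.range (Fintype.card 𝒬),
          qExpansion 1 (conjCoeffForm e m) * qExpansion 1 e ^ m = 0 := by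
  have he := nice_of_modularForm h1 e
  have hs : ∀ m ∈ Finset.range (Fintype.card 𝒬), Nice (conjCoeff e m * (e : ℍ → ℂ) ^ m) :=
    fun m _ => (nice_conjCoeff e m).mul (he.pow m)
  have h := congrArg (qExpansion 1) (conj_identity_fun e)
  rw [(he.pow _).qExpansion_add (Nice.sum _ _ hs), he.qExpansion_pow, Nice.qExpansion_sum _ _ hs,
    UpperHalfPlane.qExpansion_zero] at h
  rw [← h]
  congr 1
  refine Finset.sum_congr rfl fun m _ => ?_
  rw [(nice_conjCoeff e m).qExpansion_mul (he.pow m), he.qExpansion_pow, coe_conjCoeffForm]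

/-- If at some point `τ` the value `e(τ)` differs from all the other conjugates `e_i(τ)`, then the
`q`-expansion of the Lagrange denominator is nonzero. -/
theorem qExpansion_lagDenom_ne_zero [ModularFormClass E 𝒢 w] (e : E)
    (hsep : ∃ τ : ℍ, ∀ i : 𝒬, i ≠ q₀ → quotientFunc e i τ ≠ e τ) :
    qExpansion 1 (lagDenom e) ≠ 0 := by
  rw [Ne, (nice_lagDenom h1 e).qExpansion_eq_zero_iff]
  obtain ⟨τ, hτ⟩ := hsep
  intro h
  have h0 : lagDenom e τ = 0 := by rw [h]; rfl
  rw [lagDenom, Finset.prod_eq_zero_iff] at h0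
  obtain ⟨i, hi, hi0⟩ := h0
  exact hτ i (Finset.ne_of_mem_erase hi) (sub_eq_zero.mp hi0).symm

end series

end Fermat.Agent.S23.H66
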