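import Mathlib
import Fermat.Agent.S23.Defs
import Fermat.Agent.S23.H66_LagrangeSeries

/-!
# The Lagrange half of the forward direction (helper66, S23 / AN2)

For `f` of weight `k` and `e` of weight `w` on `𝒢` (finite index, strict period `1`) such that the
conjugates of `e` are pairwise distinct functions, the `q`-expansion `x = q(f)` satisfies
`(∑_m d_m ε^m) * x = ∑_m c_m ε^m` with `∑_m d_m ε^m ≠ 0`, in the exact shape of the `d`, `c`
clauses of `IsShimuraDatum`.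
-/

open UpperHalfPlane Filter Polynomial
open scoped ModularForm MatrixGroups Manifold Topology Pointwise

noncomputable section

set_option linter.unusedSectionVars false

namespace Fermat.Agent.S23.H66

open SlashInvariantForm Matrix.SpecialLinearGroup Classical

variable {𝒢 : Subgroup (GL (Fin 2) ℝ)} [𝒢.IsFiniteRelIndex 𝒮ℒ]
variable {F E : Type*} [FunLike F ℍ ℂ] [FunLike E ℍ ℂ] {k w : ℤ}

local notation "𝒬" => 𝒮ℒ ⧸ (𝒢.subgroupOf 𝒮ℒ)

lemma lagDenom_eq_prod_fun [SlashInvariantFormClass E 𝒢 w] (e : E) :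
    lagDenom e
      = ∏ i ∈ Finset.univ.erase (q₀ (𝒢 := 𝒢)), ((e : ℍ → ℂ) - quotientFunc e i) := by
  funext τ
  rw [Finset.prod_apply]
  rfl

/-- If the conjugates of `e` are pairwise distinct functions, the Lagrange denominator is not
identically zero. -/
theorem lagDenom_ne_zero_of_injective [ModularFormClass E 𝒢 w] (e : E)
    (hinj : Function.Injective (fun q : 𝒬 => quotientFunc e q)) : lagDenom e ≠ 0 := by
  rw [lagDenom_eq_prod_fun, Ne, UpperHalfPlane.prod_eq_zero_iff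
    (fun i _ => (ModularFormClass.holo e).sub (mdiff_quotientFunc e i))]
  rintro ⟨i, hi, h0⟩
  have h1 : quotientFunc e i = quotientFunc e (q₀ (𝒢 := 𝒢)) := by
    rw [quotientFunc_q₀]
    exact (sub_eq_zero.mp h0).symm
  exact Finset.ne_of_mem_erase hi (hinj h1)

theorem qExpansion_lagDenom_ne_zero_of_injective (h1 : (1 : ℝ) ∈ 𝒢.strictPeriods)
    [ModularFormClass E 𝒢 w] (e : E)
    (hinj : Function.Injective (fun q : 𝒬 => quotientFunc e q)) :
    qExpansion 1 (lagDenom e) ≠ 0 := by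
  rw [Ne, (nice_lagDenom h1 e).qExpansion_eq_zero_iff]
  exact lagDenom_ne_zero_of_injective e hinj

lemma card_pos : 0 < Fintype.card 𝒬 := Fintype.card_pos_iff.mpr ⟨q₀⟩

lemma conjWeight_succ (w : ℤ) (m : ℕ) :
    conjWeight 𝒢 w (m + 1) = ((Nat.card 𝒬 : ℤ) - 1 - m) * w := by
  rw [conjWeight, Nat.card_eq_fintype_card]
  push_cast
  ring

lemma lagWeight_eq (k w : ℤ) (m : ℕ) :
    lagWeight 𝒢 k w m = k + ((Nat.card 𝒬 : ℤ) - 1 - m) * w := by
  rw [lagWeight, Nat.card_eq_fintype_card, Nat.cast_sub (card_pos (𝒢 := 𝒢))]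
  push_cast
  ring

/-- The `d`, `c` clauses of `IsShimuraDatum` for `x = q(f)`, `ε = q(e)`, `μ = [SL(2,ℤ) : 𝒢]`. -/
theorem exists_lagrange_datum (h1 : (1 : ℝ) ∈ 𝒢.strictPeriods)
    [ModularFormClass F 𝒢 k] [ModularFormClass E 𝒢 w] (f : F) (e : E)
    (hinj : Function.Injective (fun q : 𝒬 => quotientFunc e q)) :
    ∃ d c : Fin (Nat.card 𝒬) → PowerSeries ℂ,
      (∀ m : Fin (Nat.card 𝒬), d m ∈ qM1 (((Nat.card 𝒬 : ℤ) - 1 - (m : ℕ)) * w)) ∧
      (∀ m : Fin (Nat.card 𝒬), c m ∈ qM1 (k + ((Nat.card 𝒬 : ℤ) - 1 - (m : ℕ)) * w)) ∧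
      (∑ m : Fin (Nat.card 𝒬), d m * qExpansion 1 e ^ (m : ℕ)) ≠ 0 ∧
      (∑ m : Fin (Nat.card 𝒬), d m * qExpansion 1 e ^ (m : ℕ)) * qExpansion 1 f
        = ∑ m : Fin (Nat.card 𝒬), c m * qExpansion 1 e ^ (m : ℕ) := by
  have hcard : Nat.card 𝒬 = Fintype.card 𝒬 := Nat.card_eq_fintype_card
  refine ⟨fun m => qExpansion 1 (derivCoeffForm e m), fun m => qExpansion 1 (lagCoeffForm f e m),
    fun m => ?_, fun m => ?_, ?_, ?_⟩
  · exact conjWeight_succ (𝒢 := 𝒢) w m ▸ (⟨derivCoeffForm e m, rfl⟩ :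
      qExpansion 1 (derivCoeffForm e m) ∈ qM1 (conjWeight 𝒢 w (m + 1)))
  · exact lagWeight_eq (𝒢 := 𝒢) k w m ▸ (⟨lagCoeffForm f e m, rfl⟩ :
      qExpansion 1 (lagCoeffForm f e m) ∈ qM1 (lagWeight 𝒢 k w m))
  · rw [Fin.sum_univ_eq_sum_range (fun m => qExpansion 1 (derivCoeffForm e m) * qExpansion 1 e ^ m),
      hcard, ← qExpansion_lagDenom h1 e]
    exact qExpansion_lagDenom_ne_zero_of_injective h1 e hinj
  · rw [Fin.sum_univ_eq_sum_range (fun m => qExpansion 1 (derivCoeffForm e m) * qExpansion 1 e ^ m),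
      Fin.sum_univ_eq_sum_range (fun m => qExpansion 1 (lagCoeffForm f e m) * qExpansion 1 e ^ m),
      hcard, ← qExpansion_lagDenom h1 e, mul_comm, qExpansion_lagrange_identity h1 f e]

end Fermat.Agent.S23.H66
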