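import Mathlib

set_option autoImplicit false

/-!
Functions on the upper half plane that are `h`-periodic, holomorphic and bounded at `i∞`
(`IsQNice h f`); on these `qExpansion h` is additive and multiplicative.
-/

namespace Fermat.Agent.S23.H72

open UpperHalfPlane Function
open scoped MatrixGroups ModularForm Manifold

/-- `f` is `h`-periodic, holomorphic and bounded at `i∞`. -/
structure IsQNice (h : ℝ) (f : ℍ → ℂ) : Prop where
  periodic : Periodic (f ∘ ofComplex) h
  holo : MDiff f
  bdd : IsBoundedAtImInfty f

namespace IsQNice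

variable {h : ℝ} {f g : ℍ → ℂ}

lemma analyticAt (hf : IsQNice h f) (hh : 0 < h) : AnalyticAt ℂ (cuspFunction h f) 0 :=
  analyticAt_cuspFunction_zero hh hf.periodic hf.holo hf.bdd

lemma add (hf : IsQNice h f) (hg : IsQNice h g) : IsQNice h (f + g) where
  periodic := by
    have : (f + g) ∘ ofComplex = f ∘ ofComplex + g ∘ ofComplex := rfl
    rw [this]
    exact hf.periodic.add hg.periodic
  holo := hf.holo.add hg.holo
  bdd := hf.bdd.add hg.bdd

lemma mul (hf : IsQNice h f) (hg : IsQNice h g) : IsQNice h (f * g) where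
  periodic := by
    have : (f * g) ∘ ofComplex = (f ∘ ofComplex) * (g ∘ ofComplex) := rfl
    rw [this]
    exact hf.periodic.mul hg.periodic
  holo := hf.holo.mul hg.holo
  bdd := hf.bdd.mul hg.bdd

lemma const (h : ℝ) (c : ℂ) : IsQNice h (fun _ => c) where
  periodic := fun _ => rfl
  holo := mdifferentiable_const
  bdd := Filter.const_boundedAtFilter _ c

lemma one (h : ℝ) : IsQNice h (1 : ℍ → ℂ) := const h 1

lemma zero (h : ℝ) : IsQNice h (0 : ℍ → ℂ) := const h 0

lemma smul (hf : IsQNice h f) (c : ℂ) : IsQNice h (c • f) := by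
  have : c • f = (fun _ => c) * f := by ext; simp
  rw [this]
  exact (const h c).mul hf

lemma neg (hf : IsQNice h f) : IsQNice h (-f) := by
  have : -f = (-1 : ℂ) • f := by ext; simp
  rw [this]
  exact hf.smul _

lemma sub (hf : IsQNice h f) (hg : IsQNice h g) : IsQNice h (f - g) := by
  rw [sub_eq_add_neg]
  exact hf.add hg.neg

lemma pow (hf : IsQNice h f) (n : ℕ) : IsQNice h (f ^ n) := by
  induction n with
  | zero => simpa using one h
  | succ n ih => rw [pow_succ]; exact ih.mul hf

lemma sum {ι : Type*} (s : Finset ι) {F : ι → ℍ → ℂ} (hF : ∀ i ∈ s, IsQNice h (F i)) :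
    IsQNice h (∑ i ∈ s, F i) := by
  classical
  induction s using Finset.induction_on with
  | empty => simpa using zero h
  | insert i s hi ih =>
    rw [Finset.sum_insert hi]
    exact (hF i (Finset.mem_insert_self i s)).add
      (ih fun j hj => hF j (Finset.mem_insert_of_mem hj))

lemma prod {ι : Type*} (s : Finset ι) {F : ι → ℍ → ℂ} (hF : ∀ i ∈ s, IsQNice h (F i)) :
    IsQNice h (∏ i ∈ s, F i) := by
  classical
  induction s using Finset.induction_on with
  | empty => simpa using one h
  | insert i s hi ih =>
    rw [Finset.prod_insert hi]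
    exact (hF i (Finset.mem_insert_self i s)).mul
      (ih fun j hj => hF j (Finset.mem_insert_of_mem hj))

/-- A modular form for a group with strict period `h` is nice. -/
lemma of_modularFormClass {F : Type*} [FunLike F ℍ ℂ] {Γ : Subgroup (GL (Fin 2) ℝ)} {k : ℤ}
    [ModularFormClass F Γ k] [Fact (IsCusp OnePoint.infty Γ)] (φ : F)
    (hΓ : h ∈ Γ.strictPeriods) : IsQNice h (φ : ℍ → ℂ) where
  periodic := SlashInvariantFormClass.periodic_comp_ofComplex φ hΓ
  holo := ModularFormClass.holo φ
  bdd := ModularFormClass.bdd_at_infty φ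

section qExpansion

variable (hh : 0 < h)
include hh

lemma qExpansion_add (hf : IsQNice h f) (hg : IsQNice h g) :
    qExpansion h (f + g) = qExpansion h f + qExpansion h g :=
  UpperHalfPlane.qExpansion_add (hf.analyticAt hh) (hg.analyticAt hh)

lemma qExpansion_mul (hf : IsQNice h f) (hg : IsQNice h g) :
    qExpansion h (f * g) = qExpansion h f * qExpansion h g :=
  UpperHalfPlane.qExpansion_mul (hf.analyticAt hh) (hg.analyticAt hh)

lemma qExpansion_smul (hf : IsQNice h f) (c : ℂ) :
    qExpansion h (c • f) = c • qExpansion h f :=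
  UpperHalfPlane.qExpansion_smul (hf.analyticAt hh) c

lemma qExpansion_neg (hf : IsQNice h f) :
    qExpansion h (-f) = -qExpansion h f :=
  UpperHalfPlane.qExpansion_neg (hf.analyticAt hh)

lemma qExpansion_sub (hf : IsQNice h f) (hg : IsQNice h g) :
    qExpansion h (f - g) = qExpansion h f - qExpansion h g :=
  UpperHalfPlane.qExpansion_sub (hf.analyticAt hh) (hg.analyticAt hh)

lemma qExpansion_pow (hf : IsQNice h f) (n : ℕ) :
    qExpansion h (f ^ n) = qExpansion h f ^ n := by
  induction n with
  | zero => simpa using UpperHalfPlane.qExpansion_one h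
  | succ n ih => rw [pow_succ, pow_succ, qExpansion_mul hh (hf.pow n) hf, ih]

lemma qExpansion_sum {ι : Type*} (s : Finset ι) {F : ι → ℍ → ℂ}
    (hF : ∀ i ∈ s, IsQNice h (F i)) :
    qExpansion h (∑ i ∈ s, F i) = ∑ i ∈ s, qExpansion h (F i) := by
  classical
  induction s using Finset.induction_on with
  | empty => simpa using UpperHalfPlane.qExpansion_zero h
  | insert i s hi ih =>
    rw [Finset.sum_insert hi, Finset.sum_insert hi,
      qExpansion_add hh (hF i (Finset.mem_insert_self i s))
        (sum s fun j hj => hF j (Finset.mem_insert_of_mem hj)),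
      ih fun j hj => hF j (Finset.mem_insert_of_mem hj)]

lemma qExpansion_prod {ι : Type*} (s : Finset ι) {F : ι → ℍ → ℂ}
    (hF : ∀ i ∈ s, IsQNice h (F i)) :
    qExpansion h (∏ i ∈ s, F i) = ∏ i ∈ s, qExpansion h (F i) := by
  classical
  induction s using Finset.induction_on with
  | empty => simpa using UpperHalfPlane.qExpansion_one h
  | insert i s hi ih =>
    rw [Finset.prod_insert hi, Finset.prod_insert hi,
      qExpansion_mul hh (hF i (Finset.mem_insert_self i s))
        (prod s fun j hj => hF j (Finset.mem_insert_of_mem hj)),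
      ih fun j hj => hF j (Finset.mem_insert_of_mem hj)]

/-- Injectivity of the `q`-expansion on nice functions. -/
lemma eq_zero_of_qExpansion_eq_zero (hf : IsQNice h f) (h0 : qExpansion h f = 0) : f = 0 :=
  (UpperHalfPlane.qExpansion_eq_zero_iff hh hf.periodic hf.holo hf.bdd).mp h0

lemma eq_of_qExpansion_eq (hf : IsQNice h f) (hg : IsQNice h g)
    (hfg : qExpansion h f = qExpansion h g) : f = g := by
  have := eq_zero_of_qExpansion_eq_zero hh (hf.sub hg)
    (by rw [qExpansion_sub hh hf hg, hfg, sub_self])
  exact sub_eq_zero.mp this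

end qExpansion

end IsQNice

end Fermat.Agent.S23.H72
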