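import Mathlib

set_option autoImplicit false

/-!
Engine: a finite family of functions on the upper half plane which is permuted by the
weight `w` slash action of `SL(2, ℤ)` sums to a level one form.
-/

namespace Fermat.Agent.S23.H72

open UpperHalfPlane ModularForm Matrix.SpecialLinearGroup OnePoint
open scoped MatrixGroups ModularForm Manifold

section Engine

variable {ι : Type} [Fintype ι] (φ : ι → ℍ → ℂ) (w : ℤ)

/-- The family `φ` is permuted by the weight `w` slash action of `SL(2, ℤ)`. -/
def IsPermutedBySL : Prop :=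
  ∀ γ : SL(2, ℤ), ∃ σ : Equiv.Perm ι, ∀ i, φ i ∣[w] γ = φ (σ i)

variable {φ w}

lemma sum_slash_eq_of_isPermutedBySL (h : IsPermutedBySL φ w) (γ : SL(2, ℤ)) :
    (∑ i, φ i) ∣[w] γ = ∑ i, φ i := by
  obtain ⟨σ, hσ⟩ := h γ
  rw [SL_slash, SlashAction.sum_slash]
  simp_rw [← SL_slash, hσ]
  exact Equiv.sum_comp σ φ

/-- The sum of a permuted family, as a slash invariant form of level one. -/
noncomputable def sumSIF (h : IsPermutedBySL φ w) : SlashInvariantForm 𝒮ℒ w where
  toFun := ∑ i, φ i
  slash_action_eq' g hg := by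
    obtain ⟨γ, rfl⟩ := hg
    have := sum_slash_eq_of_isPermutedBySL h γ
    rwa [SL_slash] at this

@[simp] lemma coe_sumSIF (h : IsPermutedBySL φ w) : ⇑(sumSIF h) = ∑ i, φ i := rfl

/-- The sum of a permuted family of holomorphic functions bounded at `i∞`, as a level one
modular form. -/
noncomputable def sumModularForm (h : IsPermutedBySL φ w) (hholo : ∀ i, MDiff (φ i))
    (hbdd : ∀ i, IsBoundedAtImInfty (φ i)) : ModularForm 𝒮ℒ w where
  toSlashInvariantForm := sumSIF h
  holo' := by
    have : MDiff (∑ i, φ i) := MDifferentiable.sum (fun i _ => hholo i)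
    simpa using this
  bdd_at_cusps' {c} hc := by
    rw [isBoundedAt_iff_forall_SL2Z hc]
    intro γ _
    show IsBoundedAtImInfty ((∑ i, φ i) ∣[w] γ)
    rw [sum_slash_eq_of_isPermutedBySL h γ]
    exact (Filter.boundedFilterSubmodule ℂ atImInfty).sum_mem (fun i _ => hbdd i)

@[simp] lemma coe_sumModularForm (h : IsPermutedBySL φ w) (hholo : ∀ i, MDiff (φ i))
    (hbdd : ∀ i, IsBoundedAtImInfty (φ i)) :
    ⇑(sumModularForm h hholo hbdd) = ∑ i, φ i := rfl

/-- The sum of a permuted family of holomorphic functions vanishing at `i∞`, as a level one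
cusp form. -/
noncomputable def sumCuspForm (h : IsPermutedBySL φ w) (hholo : ∀ i, MDiff (φ i))
    (hzero : ∀ i, IsZeroAtImInfty (φ i)) : CuspForm 𝒮ℒ w where
  toSlashInvariantForm := sumSIF h
  holo' := by
    have : MDiff (∑ i, φ i) := MDifferentiable.sum (fun i _ => hholo i)
    simpa using this
  zero_at_cusps' {c} hc := by
    rw [isZeroAt_iff_forall_SL2Z hc]
    intro γ _
    show IsZeroAtImInfty ((∑ i, φ i) ∣[w] γ)
    rw [sum_slash_eq_of_isPermutedBySL h γ]
    exact (Filter.zeroAtFilterSubmodule ℂ atImInfty).sum_mem (fun i _ => hzero i)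

@[simp] lemma coe_sumCuspForm (h : IsPermutedBySL φ w) (hholo : ∀ i, MDiff (φ i))
    (hzero : ∀ i, IsZeroAtImInfty (φ i)) :
    ⇑(sumCuspForm h hholo hzero) = ∑ i, φ i := rfl

end Engine

end Fermat.Agent.S23.H72
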