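import Mathlib
import Fermat.Agent.S23.H72_SymmEngine
import Fermat.Agent.S23.H72_QExp

set_option autoImplicit false
set_option linter.unusedSectionVars false

/-!
AN1: elementary symmetric functions of the `SL(2, ℤ)`-conjugates of a cusp form for an
arithmetic subgroup are level one cusp forms, and the form is a root of the corresponding
monic polynomial.
-/

namespace Fermat.Agent.S23.H72

open UpperHalfPlane ModularForm Matrix.SpecialLinearGroup OnePoint SlashInvariantForm
open scoped MatrixGroups ModularForm Manifold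

variable {𝒢 : Subgroup (GL (Fin 2) ℝ)} [𝒢.IsArithmetic] {k : ℤ}
variable {F : Type*} [FunLike F ℍ ℂ]

/-- The coset space `SL(2,ℤ) / (𝒢 ∩ SL(2,ℤ))` indexing the conjugates. -/
abbrev ConjIndex (𝒢 : Subgroup (GL (Fin 2) ℝ)) : Type := 𝒮ℒ ⧸ 𝒢.subgroupOf 𝒮ℒ

/-- The (noncomputable) `Fintype` structure on the coset space used throughout. -/
@[instance_reducible]
noncomputable def conjIndexFintype (𝒢 : Subgroup (GL (Fin 2) ℝ)) [𝒢.IsArithmetic] :
    Fintype (ConjIndex 𝒢) := Fintype.ofFinite _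

attribute [local instance] conjIndexFintype

/-- The number of conjugates. -/
noncomputable def conjCard (𝒢 : Subgroup (GL (Fin 2) ℝ)) [𝒢.IsArithmetic] : ℕ :=
  Fintype.card (ConjIndex 𝒢)

lemma conjCard_pos : 0 < conjCard 𝒢 := Fintype.card_pos

section conj

variable [SlashInvariantFormClass F 𝒢 k] (f : F)

lemma quotientFunc_one : quotientFunc (ℋ := 𝒮ℒ) f (⟦1⟧ : ConjIndex 𝒢) = (f : ℍ → ℂ) := by
  rw [quotientFunc_mk]
  simp

lemma quotientFunc_slash_SL (γ : SL(2, ℤ)) (q : ConjIndex 𝒢) :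
    quotientFunc f q ∣[k] γ =
      quotientFunc f ((⟨mapGL ℝ γ, MonoidHom.mem_range.mpr ⟨γ, rfl⟩⟩ : 𝒮ℒ)⁻¹ • q) :=
  quotientFunc_smul f (MonoidHom.mem_range.mpr ⟨γ, rfl⟩) q

end conj

section holo

variable [CuspFormClass F 𝒢 k] (f : F)

lemma mdiff_quotientFunc (q : ConjIndex 𝒢) : MDiff (quotientFunc f q) := by
  induction q using Quotient.inductionOn with
  | h r => exact (ModularForm.translate f r.val⁻¹).holo'

lemma isZeroAtImInfty_quotientFunc (q : ConjIndex 𝒢) : IsZeroAtImInfty (quotientFunc f q) := by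
  induction q using Quotient.inductionOn with
  | h r =>
    obtain ⟨γ, hγ⟩ := r.2
    have h1 : (r.val)⁻¹ = mapGL ℝ γ⁻¹ := by rw [map_inv, hγ]
    show IsZeroAtImInfty ((f : ℍ → ℂ) ∣[k] r.val⁻¹)
    rw [h1]
    exact CuspFormClass.zero_at_infty_slash f γ⁻¹

end holo


/-- Index type for the `r`-th elementary symmetric function: `r`-element subsets of the
coset space. -/
abbrev SubsetIdx (𝒢 : Subgroup (GL (Fin 2) ℝ)) [𝒢.IsArithmetic] (r : ℕ) : Type :=
  {S : Finset (ConjIndex 𝒢) // S ∈ Finset.powersetCard r Finset.univ}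

lemma SubsetIdx.card_eq {r : ℕ} (S : SubsetIdx 𝒢 r) : S.1.card = r :=
  (Finset.mem_powersetCard.mp S.2).2

/-- The permutation of `r`-subsets induced by a permutation of the coset space. -/
noncomputable def subsetPerm (r : ℕ) (e : Equiv.Perm (ConjIndex 𝒢)) :
    Equiv.Perm (SubsetIdx 𝒢 r) :=
  (Equiv.finsetCongr e).subtypeEquiv (fun S => by
    simp only [Finset.mem_powersetCard, Finset.subset_univ, true_and, Equiv.finsetCongr_apply,
      Finset.card_map])

@[simp] lemma subsetPerm_coe (r : ℕ) (e : Equiv.Perm (ConjIndex 𝒢)) (S : SubsetIdx 𝒢 r) :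
    ((subsetPerm r e S : SubsetIdx 𝒢 r) : Finset (ConjIndex 𝒢)) = S.1.map e.toEmbedding := rfl

section conjProd

variable [SlashInvariantFormClass F 𝒢 k] (f : F)

/-- The product of the conjugates indexed by an `r`-subset. -/
noncomputable def conjProd (r : ℕ) (S : SubsetIdx 𝒢 r) : ℍ → ℂ :=
  ∏ q ∈ S.1, quotientFunc f q

lemma isPermutedBySL_conjProd (r : ℕ) : IsPermutedBySL (conjProd f r) (k * r) := by
  intro γ
  set h : 𝒮ℒ := ⟨mapGL ℝ γ, MonoidHom.mem_range.mpr ⟨γ, rfl⟩⟩ with hh
  refine ⟨subsetPerm r (MulAction.toPerm h⁻¹), fun S => ?_⟩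
  have hdet : |(mapGL ℝ γ).det.val| = 1 := by simp
  have h1 : conjProd f r S ∣[k * r] γ =
      ∏ q ∈ S.1, (quotientFunc f q ∣[k] γ) := by
    rw [conjProd, SL_slash]
    have := ModularForm.prod_slash (k := k) (g := (mapGL ℝ γ)) (f := fun q => quotientFunc f q)
      (s := S.1)
    rw [S.card_eq, hdet, one_zpow, one_smul] at this
    exact this
  rw [h1]
  simp_rw [quotientFunc_slash_SL]
  rw [conjProd, subsetPerm_coe, Finset.prod_map]
  rfl

end conjProd


section cusp

variable [CuspFormClass F 𝒢 k] (f : F)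

lemma mdiff_conjProd (r : ℕ) (S : SubsetIdx 𝒢 r) : MDiff (conjProd f r S) :=
  MDifferentiable.prod (fun q _ => mdiff_quotientFunc f q)

lemma isBoundedAtImInfty_conjProd (r : ℕ) (S : SubsetIdx 𝒢 r) :
    IsBoundedAtImInfty (conjProd f r S) :=
  Filter.BoundedAtFilter.prod _ (fun q _ => (isZeroAtImInfty_quotientFunc f q).boundedAtFilter)

lemma isZeroAtImInfty_conjProd {r : ℕ} (hr : 0 < r) (S : SubsetIdx 𝒢 r) :
    IsZeroAtImInfty (conjProd f r S) := by
  classical
  have hne : S.1.Nonempty := by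
    rw [← Finset.card_pos, S.card_eq]; exact hr
  obtain ⟨q₀, hq₀⟩ := hne
  rw [conjProd, ← Finset.mul_prod_erase S.1 _ hq₀]
  exact (isZeroAtImInfty_quotientFunc f q₀).mul_boundedAtFilter
    (Filter.BoundedAtFilter.prod _
      (fun q _ => (isZeroAtImInfty_quotientFunc f q).boundedAtFilter))

/-- The `r`-th elementary symmetric function of the conjugates (`r ≥ 1`) as a level one
cusp form of weight `k * r`. -/
noncomputable def conjEsymm (r : ℕ) (hr : 0 < r) : CuspForm 𝒮ℒ (k * r) :=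
  sumCuspForm (isPermutedBySL_conjProd f r) (mdiff_conjProd f r)
    (isZeroAtImInfty_conjProd f hr)

lemma conjEsymm_apply (r : ℕ) (hr : 0 < r) (τ : ℍ) :
    conjEsymm f r hr τ =
      ((Finset.univ : Finset (ConjIndex 𝒢)).val.map (fun q => quotientFunc f q τ)).esymm r := by
  rw [Finset.esymm_map_val]
  show (∑ S : SubsetIdx 𝒢 r, conjProd f r S) τ = _
  rw [Finset.sum_apply, ← Finset.sum_coe_sort (Finset.powersetCard r Finset.univ)]
  refine Finset.sum_congr rfl fun S _ => ?_
  simp [conjProd, Finset.prod_apply]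

/-- The coefficient `c_r = (-1)^(r+1) e_(r+1)` of the monic relation, as a level one cusp form of
weight `k * (r+1)`. -/
noncomputable def conjCoeff (r : ℕ) : CuspForm 𝒮ℒ (k * ((r + 1 : ℕ) : ℤ)) :=
  ((-1 : ℂ) ^ (r + 1)) • conjEsymm f (r + 1) (Nat.succ_pos r)

lemma conjCoeff_apply (r : ℕ) (τ : ℍ) :
    conjCoeff f r τ = (-1 : ℂ) ^ (r + 1) *
      ((Finset.univ : Finset (ConjIndex 𝒢)).val.map (fun q => quotientFunc f q τ)).esymm
        (r + 1) := by
  rw [conjCoeff, smul_apply, conjEsymm_apply, smul_eq_mul]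

/-- The form is a root of the monic polynomial whose coefficients are (up to sign) the elementary
symmetric functions of its conjugates: pointwise version. -/
theorem conj_relation_apply (τ : ℍ) :
    f τ ^ conjCard 𝒢 +
      ∑ r ∈ Finset.range (conjCard 𝒢), conjCoeff f r τ * f τ ^ (conjCard 𝒢 - 1 - r) = 0 := by
  classical
  set s : Multiset ℂ :=
    (Finset.univ : Finset (ConjIndex 𝒢)).val.map (fun q => quotientFunc f q τ) with hs
  have hcard : Multiset.card s = conjCard 𝒢 := by
    simp [hs, conjCard]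
  have hmem : f τ ∈ s := by
    rw [hs, Multiset.mem_map]
    exact ⟨⟦1⟧, Finset.mem_univ_val _, by rw [quotientFunc_one]⟩
  have key := congrArg (Polynomial.eval (f τ)) (Multiset.prod_X_sub_X_eq_sum_esymm s)
  have hzero : Polynomial.eval (f τ) (s.map fun t => Polynomial.X - Polynomial.C t).prod = 0 := by
    rw [Polynomial.eval_multiset_prod]
    apply Multiset.prod_eq_zero
    rw [Multiset.mem_map]
    refine ⟨Polynomial.X - Polynomial.C (f τ), Multiset.mem_map.mpr ⟨f τ, hmem, rfl⟩, by simp⟩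
  have hes0 : s.esymm 0 = 1 := by simp [Multiset.esymm]
  rw [hzero, Polynomial.eval_finsetSum, hcard, Finset.sum_range_succ'] at key
  simp only [Polynomial.eval_mul, Polynomial.eval_pow, Polynomial.eval_neg, Polynomial.eval_one,
    Polynomial.eval_C, Polynomial.eval_X, pow_zero, hes0, one_mul,
    Nat.sub_zero] at key
  rw [add_comm] at key
  rw [key]
  congr 1
  refine Finset.sum_congr rfl fun r _ => ?_
  rw [conjCoeff_apply, Nat.sub_sub, add_comm 1 r, mul_assoc]

end cusp


section qexp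

lemma isQNice_of_cuspFormClass {k : ℤ} [CuspFormClass F 𝒢 k] (f : F) {h : ℝ}
    (hΓ : h ∈ 𝒢.strictPeriods) : IsQNice h (f : ℍ → ℂ) where
  periodic := SlashInvariantFormClass.periodic_comp_ofComplex f hΓ
  holo := CuspFormClass.holo f
  bdd := (CuspFormClass.zero_at_infty f).boundedAtFilter

lemma isQNice_levelOne {w : ℤ} (c : CuspForm 𝒮ℒ w) : IsQNice 1 (c : ℍ → ℂ) :=
  isQNice_of_cuspFormClass c one_mem_strictPeriods_SL

variable [CuspFormClass F 𝒢 k] (f : F)

/-- The form is a root of the monic polynomial whose coefficients are (up to sign) the elementary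
symmetric functions of its conjugates: `q`-expansion version. -/
theorem conj_relation_qExpansion (h1 : (1 : ℝ) ∈ 𝒢.strictPeriods) :
    qExpansion 1 f ^ conjCard 𝒢 +
      ∑ r ∈ Finset.range (conjCard 𝒢),
        qExpansion 1 (conjCoeff f r) * qExpansion 1 f ^ (conjCard 𝒢 - 1 - r) = 0 := by
  have hf : IsQNice 1 (f : ℍ → ℂ) := isQNice_of_cuspFormClass f h1
  have hc : ∀ r, IsQNice 1 (conjCoeff f r : ℍ → ℂ) := fun r => isQNice_levelOne _
  have hfun : (f : ℍ → ℂ) ^ conjCard 𝒢 +
      ∑ r ∈ Finset.range (conjCard 𝒢),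
        (conjCoeff f r : ℍ → ℂ) * (f : ℍ → ℂ) ^ (conjCard 𝒢 - 1 - r) = 0 := by
    ext τ
    simpa using conj_relation_apply f τ
  have hterm : ∀ r ∈ Finset.range (conjCard 𝒢),
      IsQNice 1 ((conjCoeff f r : ℍ → ℂ) * (f : ℍ → ℂ) ^ (conjCard 𝒢 - 1 - r)) :=
    fun r _ => (hc r).mul (hf.pow _)
  have := congrArg (qExpansion 1) hfun
  rw [IsQNice.qExpansion_add one_pos (hf.pow _) (IsQNice.sum _ hterm),
    IsQNice.qExpansion_pow one_pos hf, IsQNice.qExpansion_sum one_pos _ hterm,
    qExpansion_zero] at this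
  rw [← this]
  congr 1
  refine Finset.sum_congr rfl fun r _ => ?_
  rw [IsQNice.qExpansion_mul one_pos (hc r) (hf.pow _), IsQNice.qExpansion_pow one_pos hf]

end qexp

end Fermat.Agent.S23.H72
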