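import Mathlib
import Fermat.Prelude.Def_FLTPrelim_Modularity
import Fermat.Prelude.Thm_CongruenceSubgroup_one_mem_strictPeriods_Gamma0
import Fermat.Agent.S23.H72_Conjugates

set_option autoImplicit false

/-!
AN1 specialised to `Γ₀(N)`: the `q`-expansion of a cusp form of level `Γ₀(N)` is a root of a
monic polynomial whose `r`-th coefficient is the `q`-expansion of a level one cusp form of
weight `k * (r+1)`.
-/

namespace Fermat.Agent.S23.H72

open UpperHalfPlane CongruenceSubgroup
open scoped MatrixGroups ModularForm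

variable {N : ℕ} [NeZero N] {k : ℤ}

attribute [local instance] conjIndexFintype

/-- The index `[SL(2,ℤ) : Γ₀(N)]` as the number of conjugates. -/
noncomputable abbrev mu (N : ℕ) [NeZero N] : ℕ :=
  conjCard (Subgroup.map (Matrix.SpecialLinearGroup.mapGL ℝ) (Gamma0 N))

lemma mu_pos : 0 < mu N := conjCard_pos

/-- Coefficients of the monic relation for `f`, as level one cusp forms. -/
noncomputable abbrev gamma0ConjCoeff (f : CuspForm (Gamma0 N) k) (r : ℕ) :
    CuspForm 𝒮ℒ (k * ((r + 1 : ℕ) : ℤ)) :=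
  conjCoeff f r

theorem gamma0_relation_apply (f : CuspForm (Gamma0 N) k) (τ : ℍ) :
    f τ ^ mu N + ∑ r ∈ Finset.range (mu N), gamma0ConjCoeff f r τ * f τ ^ (mu N - 1 - r) = 0 :=
  conj_relation_apply f τ

theorem gamma0_relation_qExpansion (f : CuspForm (Gamma0 N) k) :
    qExpansion 1 f ^ mu N +
      ∑ r ∈ Finset.range (mu N),
        qExpansion 1 (gamma0ConjCoeff f r) * qExpansion 1 f ^ (mu N - 1 - r) = 0 :=
  conj_relation_qExpansion f (one_mem_strictPeriods_Gamma0 N)

/-- Existential packaging: there are `m > 0` and level one cusp forms `c r` of weight `k * (r+1)`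
such that `x = q(f)` satisfies `x^m + ∑_{r<m} q(c r) x^(m-1-r) = 0`. -/
theorem exists_monic_relation (f : CuspForm (Gamma0 N) k) :
    ∃ (m : ℕ) (_ : 0 < m) (c : (r : ℕ) → CuspForm 𝒮ℒ (k * ((r + 1 : ℕ) : ℤ))),
      qExpansion 1 f ^ m +
        ∑ r ∈ Finset.range m, qExpansion 1 (c r) * qExpansion 1 f ^ (m - 1 - r) = 0 :=
  ⟨mu N, mu_pos, gamma0ConjCoeff f, gamma0_relation_qExpansion f⟩

end Fermat.Agent.S23.H72
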