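import Mathlib
import Fermat.Agent.S23.Defs
import Fermat.Agent.S23.H72_Gamma0

set_option autoImplicit false

/-!
AN1 in the exact shape consumed by `Fermat.Agent.S23.IsShimuraDatum` (shared `Defs.lean`):
for a cusp form `f` of weight `k` on `Γ₀(N)`, with `μ = indexΓ0 N`, there are series
`s r ∈ qS1 ((r+1) * k)` (`r : Fin μ`) with
`x ^ μ + ∑ r, s r * x ^ (μ - 1 - r) = 0` for `x = qExpansion 1 f`.
-/

namespace Fermat.Agent.S23.H72

open UpperHalfPlane CongruenceSubgroup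
open scoped MatrixGroups ModularForm

variable {N : ℕ} [NeZero N] {k : ℤ}

attribute [local instance] conjIndexFintype

/-- The shared `indexΓ0 N` is the number `mu N` of conjugates used in this package. -/
theorem indexΓ0_eq_mu : indexΓ0 N = mu N := by
  unfold indexΓ0 mu conjCard
  exact Nat.card_eq_fintype_card

theorem indexΓ0_pos : 0 < indexΓ0 N := by
  rw [indexΓ0_eq_mu]; exact mu_pos

/-- Transport of `qS1` membership along an equality of weights. -/
theorem mem_qS1_of_eq {k₁ k₂ : ℤ} (h : k₁ = k₂) {x : PowerSeries ℂ} (hx : x ∈ qS1 k₁) :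
    x ∈ qS1 k₂ := h ▸ hx

/-- Transport of `qM1` membership along an equality of weights. -/
theorem mem_qM1_of_eq {k₁ k₂ : ℤ} (h : k₁ = k₂) {x : PowerSeries ℂ} (hx : x ∈ qM1 k₁) :
    x ∈ qM1 k₂ := h ▸ hx

/-- **AN1, series form.** The monic relation for `x = qExpansion 1 f`, `f` a cusp form on
`Γ₀(N)`, with coefficients in the spaces `qS1 ((r+1) * k)` of `q`-expansions of level one
cusp forms, indexed by `Fin (indexΓ0 N)` exactly as in `IsShimuraDatum`. -/
theorem exists_qS1_relation (f : CuspForm (Gamma0 N) k) :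
    ∃ s : Fin (indexΓ0 N) → PowerSeries ℂ,
      (∀ r : Fin (indexΓ0 N), s r ∈ qS1 ((((r : ℕ) : ℤ) + 1) * k)) ∧
      qExpansion 1 f ^ indexΓ0 N +
        ∑ r : Fin (indexΓ0 N), s r * qExpansion 1 f ^ (indexΓ0 N - 1 - (r : ℕ)) = 0 := by
  rw [indexΓ0_eq_mu]
  refine ⟨fun r => qExpansion 1 (gamma0ConjCoeff f (r : ℕ)), fun r => ?_, ?_⟩
  · refine mem_qS1_of_eq (k₁ := k * (((r : ℕ) + 1 : ℕ) : ℤ)) (by push_cast; ring) ?_
    exact ⟨gamma0ConjCoeff f (r : ℕ), rfl⟩
  · rw [Fin.sum_univ_eq_sum_range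
      (fun r => qExpansion 1 (gamma0ConjCoeff f r) * qExpansion 1 f ^ (mu N - 1 - r)) (mu N)]
    exact gamma0_relation_qExpansion f

/-- The same statement for an arbitrary element of `qSΓ N k`. -/
theorem exists_qS1_relation_of_mem {x : PowerSeries ℂ} (hx : x ∈ qSΓ N k) :
    ∃ s : Fin (indexΓ0 N) → PowerSeries ℂ,
      (∀ r : Fin (indexΓ0 N), s r ∈ qS1 ((((r : ℕ) : ℤ) + 1) * k)) ∧
      x ^ indexΓ0 N + ∑ r : Fin (indexΓ0 N), s r * x ^ (indexΓ0 N - 1 - (r : ℕ)) = 0 := by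
  obtain ⟨f, rfl⟩ := hx
  exact exists_qS1_relation f

end Fermat.Agent.S23.H72
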