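import Mathlib
import Fermat.Agent.S23.Defs
import Fermat.Agent.S23.H66_Forward
import Fermat.Agent.S23.H72_Adapter
import Fermat.Agent.S23.H80_PrimElt

/-!
# The forward direction (helper66, S23 / FWD)

Every `x ∈ qSΓ N k` is a Shimura datum with respect to the primitive element `eN N`.
-/

open UpperHalfPlane CongruenceSubgroup
open scoped ModularForm MatrixGroups

noncomputable section

namespace Fermat.Agent.S23.H66

/-- The forward direction for an arbitrary primitive element `e` of weight `w` on `Γ₀(N)` with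
pairwise distinct conjugates. -/
theorem isShimuraDatum_of_injective (N : ℕ) [NeZero N] (k w : ℤ) {E : Type*} [FunLike E ℍ ℂ]
    [ModularFormClass E (Gamma0 N : Subgroup (GL (Fin 2) ℝ)) w] (e : E)
    (hinj : Function.Injective (fun q : cosetsΓ0 N =>
      SlashInvariantForm.quotientFunc (ℋ := (𝒮ℒ : Subgroup (GL (Fin 2) ℝ))) e q)) :
    ∀ x ∈ qSΓ N k, IsShimuraDatum k w (indexΓ0 N) (qExpansion 1 e) x := by
  rintro x ⟨f, rfl⟩
  obtain ⟨d, c, hd, hc, hne, hfrac⟩ :=
    exists_lagrange_datum (𝒢 := (Gamma0 N : Subgroup (GL (Fin 2) ℝ))) (k := k) (w := w)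
      (one_mem_strictPeriods_Gamma0 N) f e hinj
  obtain ⟨s, hs, hroot⟩ := H72.exists_qS1_relation f
  exact ⟨d, c, s, hd, hc, hs, hne, hfrac, hroot⟩

/-- **FWD.** Every `x ∈ qSΓ N k` is a Shimura datum with respect to `eN N = 1728 Δ(N z)`. -/
theorem forward (N : ℕ) [NeZero N] (k : ℤ) :
    ∀ x ∈ qSΓ N k, IsShimuraDatum k 12 (indexΓ0 N) (qExpansion 1 (H80.eN N)) x :=
  isShimuraDatum_of_injective N k 12 (H80.eN N) (H80.quotientFunc_eN_injective N)

end Fermat.Agent.S23.H66
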