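import Fermat.Agent.S23.Defs

/-!
S23 assembly, part 1 (helper23): the conjugation step.
If the q-expansions of cusp forms on `Gamma0 N` are exactly the series admitting a Shimura datum
(forward + converse), and the level-one spaces are spanned by integral series, then the space of
q-expansions is stable under `PowerSeries.map σ` for every ring hom `σ : ℂ →+* ℂ`.
-/

set_option autoImplicit false

noncomputable section

namespace Fermat.Agent.S23.H23

open PowerSeries

/-- A subspace of `ℂ⟦X⟧` spanned by finitely many series with integer coefficients. -/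
def IntSpanned (V : Submodule ℂ (PowerSeries ℂ)) : Prop :=
  ∃ (n : ℕ) (B : Fin n → PowerSeries ℤ),
    V = Submodule.span ℂ (Set.range fun i => (B i).map (Int.castRingHom ℂ))

theorem map_map_intCast (σ : ℂ →+* ℂ) (B : PowerSeries ℤ) :
    (B.map (Int.castRingHom ℂ)).map σ = B.map (Int.castRingHom ℂ) := by
  ext n
  simp

theorem map_map_ratCast (σ : ℂ →+* ℂ) (B : PowerSeries ℚ) :
    (B.map (algebraMap ℚ ℂ)).map σ = B.map (algebraMap ℚ ℂ) := by
  ext n
  simp

theorem map_smul' (σ : ℂ →+* ℂ) (z : ℂ) (y : PowerSeries ℂ) :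
    (z • y).map σ = σ z • y.map σ := by
  ext n
  simp

theorem IntSpanned.map_mem {V : Submodule ℂ (PowerSeries ℂ)} (hV : IntSpanned V)
    (σ : ℂ →+* ℂ) {x : PowerSeries ℂ} (hx : x ∈ V) : x.map σ ∈ V := by
  obtain ⟨n, B, rfl⟩ := hV
  induction hx using Submodule.span_induction with
  | mem y hy =>
    obtain ⟨i, rfl⟩ := hy
    rw [map_map_intCast]
    exact Submodule.subset_span ⟨i, rfl⟩
  | zero => simp
  | add y z _ _ hy hz => rw [map_add]; exact Submodule.add_mem _ hy hz
  | smul a y _ hy => rw [map_smul']; exact Submodule.smul_mem _ _ hy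

theorem map_injective (σ : ℂ →+* ℂ) : Function.Injective (PowerSeries.map σ) := by
  intro x y h
  ext n
  have := congrArg (PowerSeries.coeff n) h
  simp only [coeff_map] at this
  exact σ.injective this

/-- Shimura data are transported by ring homs `σ : ℂ →+* ℂ`. -/
theorem IsShimuraDatum.map (hM : ∀ j, IntSpanned (qM1 j)) (hS : ∀ j, IntSpanned (qS1 j))
    {k w : ℤ} {μ : ℕ} {ε x : PowerSeries ℂ} (σ : ℂ →+* ℂ) (hε : ε.map σ = ε)
    (h : IsShimuraDatum k w μ ε x) : IsShimuraDatum k w μ ε (x.map σ) := by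
  obtain ⟨d, c, s, hd, hc, hs, hne, hrel, hroot⟩ := h
  refine ⟨fun m => (d m).map σ, fun m => (c m).map σ, fun r => (s r).map σ,
    fun m => (hM _).map_mem σ (hd m), fun m => (hM _).map_mem σ (hc m),
    fun r => (hS _).map_mem σ (hs r), ?_, ?_, ?_⟩
  · have : (∑ m : Fin μ, (d m).map σ * ε ^ (m : ℕ)) = (∑ m : Fin μ, d m * ε ^ (m : ℕ)).map σ := by
      rw [map_sum]
      refine Finset.sum_congr rfl fun m _ => ?_
      rw [_root_.map_mul, map_pow, hε]
    rw [this]
    intro h0
    exact hne (map_injective σ (by rw [h0, map_zero]))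
  · have h1 : (∑ m : Fin μ, (d m).map σ * ε ^ (m : ℕ)) = (∑ m : Fin μ, d m * ε ^ (m : ℕ)).map σ := by
      rw [map_sum]
      refine Finset.sum_congr rfl fun m _ => ?_
      rw [_root_.map_mul, map_pow, hε]
    have h2 : (∑ m : Fin μ, (c m).map σ * ε ^ (m : ℕ)) = (∑ m : Fin μ, c m * ε ^ (m : ℕ)).map σ := by
      rw [map_sum]
      refine Finset.sum_congr rfl fun m _ => ?_
      rw [_root_.map_mul, map_pow, hε]
    rw [h1, h2, ← _root_.map_mul, hrel]
  · have := congrArg (PowerSeries.map σ) hroot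
    rw [map_zero, map_add, map_pow, map_sum] at this
    rw [← this]
    congr 1
    refine Finset.sum_congr rfl fun r _ => ?_
    rw [_root_.map_mul, map_pow]

/-- The conjugation step. -/
theorem map_mem_qSΓ (hM : ∀ j, IntSpanned (qM1 j)) (hS : ∀ j, IntSpanned (qS1 j))
    {N : ℕ} {k w : ℤ} {μ : ℕ} {ε : PowerSeries ℂ}
    (hF : ∀ x ∈ qSΓ N k, IsShimuraDatum k w μ ε x)
    (hC : ∀ x, IsShimuraDatum k w μ ε x → x ∈ qSΓ N k)
    (σ : ℂ →+* ℂ) (hε : ε.map σ = ε) {x : PowerSeries ℂ} (hx : x ∈ qSΓ N k) :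
    x.map σ ∈ qSΓ N k :=
  hC _ (IsShimuraDatum.map hM hS σ hε (hF x hx))

end Fermat.Agent.S23.H23

end
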