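import Mathlib
import Fermat.Agent.S23.Defs
import Fermat.Agent.S23.H23_Conj
import Fermat.Agent.S23.H57_BoundedDenominators

/-!
S23, package BD (helper57): the bounded-denominators statement in exactly the shape consumed by
the final assembly (helper23, board post #277).
-/

set_option autoImplicit false

namespace Fermat.Agent.S23.H57

open PowerSeries

/-- An integrally spanned subspace is contained in the span of all integral series. -/
theorem intSpanned_le_intSpan {V : Submodule ℂ (PowerSeries ℂ)} (hV : H23.IntSpanned V) :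
    V ≤ intSpan := by
  obtain ⟨n, B, rfl⟩ := hV
  refine Submodule.span_mono ?_
  rintro _ ⟨i, rfl⟩
  exact ⟨B i, rfl⟩

/-- **Bounded denominators**, in the shape used by the S23 assembly: a rational power series whose
complexification is the `q`-expansion of a cusp form on `Gamma0 N` has bounded denominators,
provided every such `q`-expansion admits a Shimura datum relative to an integral primitive
element `E`, and the level-one spaces are integrally spanned. -/
theorem bounded_denominators_qSΓ (hM : ∀ j, H23.IntSpanned (qM1 j))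
    (hS : ∀ j, H23.IntSpanned (qS1 j)) {N : ℕ} {k w : ℤ} {μ : ℕ} (E : PowerSeries ℤ)
    (hF : ∀ x ∈ qSΓ N k, IsShimuraDatum k w μ (E.map (Int.castRingHom ℂ)) x)
    (X : PowerSeries ℚ) (hX : X.map (algebraMap ℚ ℂ) ∈ qSΓ N k) :
    ∃ (M : ℤ) (Z : PowerSeries ℤ), M ≠ 0 ∧ (M : ℚ) • X = Z.map (Int.castRingHom ℚ) := by
  obtain ⟨d, c, s, hd, hc, hs, hne, hfrac, hroot⟩ := hF _ hX
  have hmem : X ∈ bddDen :=
    bounded_denominators μ X E d c s
      (fun m => intSpanned_le_intSpan (hM _) (hd m))
      (fun m => intSpanned_le_intSpan (hM _) (hc m))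
      (fun r => intSpanned_le_intSpan (hS _) (hs r)) hne hfrac hroot
  obtain ⟨D, hD, G, hG⟩ := exists_int_mul_of_mem_bddDen hmem
  refine ⟨D, G, hD, ?_⟩
  ext n
  rw [coeff_map, eq_intCast, ← hG n, coeff_smul, smul_eq_mul]

end Fermat.Agent.S23.H57
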