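import Fermat.Agent.S23.Defs
import Fermat.Agent.S23.H2_Restrict
import Fermat.Agent.S23.H90_Series

/-!
S23 / CNV: converse packaging.  A power series `x` carrying a Shimura datum relative to
`ε = q(e)`, `e` a modular form on `Γ₀(N)`, is the `q`-expansion of a cusp form of weight `k`
on `Γ₀(N)`.  Inputs: RES (`H2.polyForm`) and AN4 (`H90.exists_cuspForm_of_qExpansion`).
-/

set_option autoImplicit false

noncomputable section

namespace Fermat.Agent.S23.H70

open UpperHalfPlane ModularForm CongruenceSubgroup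
open scoped MatrixGroups

/-- Transport of a cusp form along an equality of weights, keeping the underlying function. -/
theorem exists_cuspForm_cast {Γ : Subgroup (GL (Fin 2) ℝ)} {a b : ℤ} (h : a = b)
    (f : CuspForm Γ a) : ∃ g : CuspForm Γ b, (⇑g : ℍ → ℂ) = ⇑f := by
  subst h
  exact ⟨f, rfl⟩

/-- The converse packaging step: a Shimura datum for `x` relative to `ε = q(e)` forces `x` to be
the `q`-expansion of a cusp form of weight `k` on `Γ₀(N)`. -/
theorem converse (N : ℕ) [NeZero N] (k w : ℤ) (μ : ℕ) (e : ModularForm (Gamma0 N) w) :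
    ∀ x, IsShimuraDatum k w μ (qExpansion 1 e) x → x ∈ qSΓ N k := by
  classical
  rintro x ⟨d, c, s, hd, hc, hs, hne, hfrac, hroot⟩
  choose dF hdF using hd
  choose cF hcF using hc
  choose sF hsF using hs
  -- numerator and denominator as modular forms on `Γ₀(N)`
  set a : ModularForm (Gamma0 N) (k + ((μ : ℤ) - 1) * w) :=
    H2.polyForm (H2.gamma0_le_SL N) (fun m : Fin μ => k + ((μ : ℤ) - 1 - ((m : ℕ) : ℤ)) * w)
      (fun m => by ring) cF e with ha
  set b : ModularForm (Gamma0 N) (((μ : ℤ) - 1) * w) :=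
    H2.polyForm (H2.gamma0_le_SL N) (fun m : Fin μ => ((μ : ℤ) - 1 - ((m : ℕ) : ℤ)) * w)
      (fun m => by ring) dF e with hb
  have hqa : qExpansion 1 a = ∑ m : Fin μ, c m * qExpansion 1 e ^ (m : ℕ) := by
    rw [ha, H2.qExpansion_polyForm (H2.gamma0_le_SL N) (H2.one_mem_strictPeriods_gamma0 N)]
    exact Finset.sum_congr rfl fun m _ => by rw [hcF m]
  have hqb : qExpansion 1 b = ∑ m : Fin μ, d m * qExpansion 1 e ^ (m : ℕ) := by
    rw [hb, H2.qExpansion_polyForm (H2.gamma0_le_SL N) (H2.one_mem_strictPeriods_gamma0 N)]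
    exact Finset.sum_congr rfl fun m _ => by rw [hdF m]
  have hb0 : b ≠ 0 := by
    intro h0
    apply hne
    rw [← hqb, h0, FunLike.coe_zero]
    exact qExpansion_zero 1
  -- the coefficient functions of the monic relation
  set cfun : ℕ → ℍ → ℂ := fun j =>
    if h : 1 ≤ j ∧ j ≤ μ then (⇑(sF ⟨j - 1, by omega⟩) : ℍ → ℂ) else 0 with hcfun
  have hcf : ∀ j, 1 ≤ j → j ≤ μ → ∃ cf : CuspForm 𝒮ℒ ((j : ℤ) * k), ⇑cf = cfun j := by
    intro j h1 h2
    have hw : ((((⟨j - 1, by omega⟩ : Fin μ) : ℕ) : ℤ) + 1) * k = (j : ℤ) * k := by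
      have : (((j - 1 : ℕ) : ℤ)) = (j : ℤ) - 1 := by omega
      simp only [this]
      ring
    obtain ⟨g, hg⟩ := exists_cuspForm_cast hw (sF ⟨j - 1, by omega⟩)
    refine ⟨g, ?_⟩
    rw [hg, hcfun]
    simp only [dif_pos (And.intro h1 h2)]
  have hcq : ∀ j (hj : j < μ), qExpansion 1 (cfun (j + 1)) = s ⟨j, hj⟩ := by
    intro j hj
    have h12 : 1 ≤ j + 1 ∧ j + 1 ≤ μ := ⟨by omega, by omega⟩
    rw [hcfun]
    simp only [dif_pos h12]
    exact hsF ⟨j, hj⟩
  have hroot' : x ^ μ + ∑ j ∈ Finset.range μ, qExpansion 1 (cfun (j + 1)) * x ^ (μ - 1 - j)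
      = 0 := by
    rw [← hroot]
    congr 1
    rw [← Fin.sum_univ_eq_sum_range (fun j => qExpansion 1 (cfun (j + 1)) * x ^ (μ - 1 - j)) μ]
    exact Finset.sum_congr rfl fun r _ => by rw [hcq r r.2]
  have hx : qExpansion 1 b * x = qExpansion 1 a := by rw [hqa, hqb, hfrac]
  exact H90.exists_cuspForm_of_qExpansion (k := k) (by ring) a b hb0 μ cfun hcf x hx hroot'

end Fermat.Agent.S23.H70

end
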