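import Mathlib
import Fermat.Agent.S23.H90_Converse

set_option autoImplicit false

namespace Fermat.Agent.S23.H71

open UpperHalfPlane
open scoped Manifold

/-- A finite product of holomorphic functions on `ℍ`, none of which is identically zero, is not
identically zero. -/
theorem exists_prod_ne_zero {ι : Type*} (s : Finset ι) (g : ι → ℍ → ℂ)
    (hg : ∀ i ∈ s, MDiff (g i)) (hne : ∀ i ∈ s, ∃ z, g i z ≠ 0) :
    ∃ z : ℍ, ∏ i ∈ s, g i z ≠ 0 := by
  classical
  induction s using Finset.induction_on with
  | empty => exact ⟨UpperHalfPlane.I, by simp⟩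
  | insert a s ha ih =>
    have ih' := ih (fun i hi => hg i (Finset.mem_insert_of_mem hi))
      (fun i hi => hne i (Finset.mem_insert_of_mem hi))
    by_contra hcon
    push Not at hcon
    have hcont : Continuous fun z : ℍ => ∏ i ∈ s, g i z :=
      continuous_finsetProd _ fun i hi => (hg i (Finset.mem_insert_of_mem hi)).continuous
    have := H90.eq_zero_of_mul_eq_zero_upperHalfPlane (b := g a) (D := fun z => ∏ i ∈ s, g i z)
      (hg a (Finset.mem_insert_self a s)) (hne a (Finset.mem_insert_self a s)) hcont
      (fun τ => by have := hcon τ; rwa [Finset.prod_insert ha] at this)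
    obtain ⟨z, hz⟩ := ih'
    exact hz (this z)

end Fermat.Agent.S23.H71
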