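import Mathlib
import Fermat.Agent.S23.Defs
import Fermat.Agent.S23.H66_LagrangeSeries
import Fermat.Agent.S23.H72_Adapter
import Fermat.Agent.S23.H80_PrimElt
import Fermat.Agent.S23.H71_ProdNe

set_option autoImplicit false

noncomputable section

namespace Fermat.Agent.S23.H71

open UpperHalfPlane ModularForm CongruenceSubgroup SlashInvariantForm
open scoped MatrixGroups Manifold

variable (N : ℕ) [NeZero N]

/-- The number of cosets, in the two normalisations. -/
theorem card_cosets_eq_index :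
    Fintype.card (cosetsΓ0 N) = indexΓ0 N := by
  rw [indexΓ0, Nat.card_eq_fintype_card]

/-- Separation of the conjugates of the primitive element at some point. -/
theorem exists_sep_eN :
    ∃ τ : ℍ, ∀ i : cosetsΓ0 N, i ≠ H66.q₀ →
      quotientFunc (ℋ := (𝒮ℒ : Subgroup (GL (Fin 2) ℝ))) (H80.eN N) i τ ≠ H80.eN N τ := by
  classical
  have hinj := H80.quotientFunc_eN_injective N
  obtain ⟨τ, hτ⟩ := exists_prod_ne_zero (Finset.univ.erase (H66.q₀ : cosetsΓ0 N))
    (fun i => quotientFunc (ℋ := (𝒮ℒ : Subgroup (GL (Fin 2) ℝ))) (H80.eN N) i - ⇑(H80.eN N))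
    (fun i _ => (H66.mdiff_quotientFunc (H80.eN N) i).sub (H80.eN N).holo')
    (fun i hi => by
      by_contra hcon
      push Not at hcon
      have hne : i ≠ H66.q₀ := (Finset.mem_erase.mp hi).1
      apply hne
      apply hinj
      show quotientFunc (ℋ := (𝒮ℒ : Subgroup (GL (Fin 2) ℝ))) (H80.eN N) i =
        quotientFunc (ℋ := (𝒮ℒ : Subgroup (GL (Fin 2) ℝ))) (H80.eN N) H66.q₀
      rw [H66.quotientFunc_q₀]
      funext z
      have := hcon z
      simpa [sub_eq_zero] using this)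
  refine ⟨τ, fun i hi h => hτ ?_⟩
  refine Finset.prod_eq_zero (Finset.mem_erase.mpr ⟨hi, Finset.mem_univ i⟩) ?_
  simp [h]

/-- **FWD**: every `q`-expansion of a cusp form on `Γ₀(N)` carries a Shimura datum with respect to
the primitive element `eN N`. -/
theorem forward (k : ℤ) :
    ∀ x ∈ qSΓ N k, IsShimuraDatum k 12 (indexΓ0 N) (qExpansion 1 (H80.eN N)) x := by
  rintro x ⟨f, rfl⟩
  have h1 : (1 : ℝ) ∈ ((Gamma0 N : Subgroup SL(2, ℤ)) : Subgroup (GL (Fin 2) ℝ)).strictPeriods :=
    CongruenceSubgroup.one_mem_strictPeriods_Gamma0 N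
  have hcard := card_cosets_eq_index N
  obtain ⟨s, hs, hroot⟩ := H72.exists_qS1_relation f
  have hμpos : 0 < indexΓ0 N := H72.indexΓ0_pos
  refine ⟨fun m => qExpansion 1 (H66.derivCoeffForm (H80.eN N) (m : ℕ)),
    fun m => qExpansion 1 (H66.lagCoeffForm f (H80.eN N) (m : ℕ)), s, ?_, ?_, hs, ?_, ?_, hroot⟩
  · intro m
    refine H72.mem_qM1_of_eq ?_ ⟨H66.derivCoeffForm (H80.eN N) (m : ℕ), rfl⟩
    have hm := m.2
    simp only [H66.conjWeight]
    rw [hcard]
    push_cast
    ring
  · intro m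
    refine H72.mem_qM1_of_eq ?_ ⟨H66.lagCoeffForm f (H80.eN N) (m : ℕ), rfl⟩
    have hm := m.2
    simp only [H66.lagWeight]
    rw [hcard]
    have : ((indexΓ0 N - 1 : ℕ) : ℤ) = (indexΓ0 N : ℤ) - 1 := by
      rw [Nat.cast_sub hμpos]; simp
    rw [this]
    ring
  · have hne := H66.qExpansion_lagDenom_ne_zero h1 (H80.eN N) (exists_sep_eN N)
    rw [H66.qExpansion_lagDenom h1, hcard] at hne
    rwa [Fin.sum_univ_eq_sum_range
      (fun m => qExpansion 1 (H66.derivCoeffForm (H80.eN N) m) * qExpansion 1 (H80.eN N) ^ m)]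
  · have hid := H66.qExpansion_lagrange_identity h1 f (H80.eN N)
    rw [H66.qExpansion_lagDenom h1, hcard] at hid
    rw [Fin.sum_univ_eq_sum_range
      (fun m => qExpansion 1 (H66.derivCoeffForm (H80.eN N) m) * qExpansion 1 (H80.eN N) ^ m),
      Fin.sum_univ_eq_sum_range
      (fun m => qExpansion 1 (H66.lagCoeffForm f (H80.eN N) m) * qExpansion 1 (H80.eN N) ^ m),
      mul_comm]
    exact hid

end Fermat.Agent.S23.H71

end
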