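import Mathlib
import Fermat.Prelude.Def_CuspForm_HeckeAlgebra
import Fermat.Prelude.Def_CuspForm_IntegralStructure
import Fermat.Prelude.Thm_CuspForm_mem_intLattice_of_mem_heckeAlgebra
import Fermat.Prelude.Thm_CuspForm_intLattice_fg

set_option autoImplicit false

noncomputable section

namespace Fermat.Agent.S23.H71

open CuspForm

variable (N : ℕ) [NeZero N] (k : ℤ) (S : Set ℕ)

/-- Restriction of an element of the Hecke algebra to the integral lattice. -/
def latRestrict (hk : 1 ≤ k) : ↥(heckeAlgebra N k S) →ₗ[ℤ] Module.End ℤ ↥(intLattice N k) where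
  toFun t := LinearMap.restrict ((t : Module.End ℂ (CuspForm (CongruenceSubgroup.Gamma0 N) k)).restrictScalars ℤ)
    (fun _f hf => mem_intLattice_of_mem_heckeAlgebra hk t.2 hf)
  map_add' _ _ := LinearMap.ext fun _ => Subtype.ext rfl
  map_smul' _ _ := LinearMap.ext fun _ => Subtype.ext rfl

theorem latRestrict_injective (hk : 1 ≤ k) (hint : HasIntegralStructure N k) :
    Function.Injective (latRestrict N k S hk) := by
  rw [← LinearMap.ker_eq_bot, eq_bot_iff]
  intro t ht
  rw [LinearMap.mem_ker] at ht
  rw [Submodule.mem_bot]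
  refine Subtype.ext (LinearMap.ext_on hint fun f hf => ?_)
  exact congrArg Subtype.val (LinearMap.congr_fun ht ⟨f, hf⟩)

/-- If `S_k(Γ₀(N))` has an integral structure then its Hecke algebra is a finite `ℤ`-module. -/
theorem moduleFinite_heckeAlgebra_of_hasIntegralStructure (hk : 1 ≤ k)
    (hint : HasIntegralStructure N k) : Module.Finite ℤ ↥(heckeAlgebra N k S) := by
  have : Module.Finite ℤ ↥(intLattice N k) := Module.Finite.iff_fg.mpr (intLattice_fg N k)
  have : IsAddTorsionFree (CuspForm (CongruenceSubgroup.Gamma0 N) k) := .of_isTorsionFree ℂ _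
  have : Module.Free ℤ ↥(intLattice N k) := Module.free_of_finite_type_torsion_free'
  exact Module.Finite.of_injective (latRestrict N k S hk) (latRestrict_injective N k S hk hint)

end Fermat.Agent.S23.H71

end
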