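import Mathlib

set_option autoImplicit false

namespace Fermat.Agent.S23.H71

open PowerSeries

section Functional

variable {K : Type*} [Field K] [CharZero K]

/-- A `ℚ`-linear functional not vanishing at a given nonzero element. -/
theorem exists_functional_ne_zero (z : K) (hz : z ≠ 0) : ∃ π : K →ₗ[ℚ] ℚ, π z ≠ 0 := by
  by_contra h
  push Not at h
  exact hz ((Module.forall_dual_apply_eq_zero_iff ℚ z).1 h)

/-- A `ℚ`-linear functional with `π 1 = 1`. -/
theorem exists_functional_one : ∃ π : K →ₗ[ℚ] ℚ, π 1 = 1 := by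
  obtain ⟨π, hπ⟩ := exists_functional_ne_zero (1 : K) one_ne_zero
  refine ⟨(π 1)⁻¹ • π, ?_⟩
  simp [hπ]

/-- Apply a `ℚ`-linear functional coefficientwise. -/
noncomputable def coeffwise (π : K →ₗ[ℚ] ℚ) : PowerSeries K →ₗ[ℚ] PowerSeries ℚ where
  toFun y := PowerSeries.mk fun n => π (PowerSeries.coeff n y)
  map_add' y y' := by ext n; simp
  map_smul' c y := by ext n; simp

@[simp] theorem coeff_coeffwise (π : K →ₗ[ℚ] ℚ) (y : PowerSeries K) (n : ℕ) :
    PowerSeries.coeff n (coeffwise π y) = π (PowerSeries.coeff n y) := by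
  simp [coeffwise]

/-- `coeffwise π` is `ℚ⟦X⟧`-linear. -/
theorem coeffwise_map_mul (π : K →ₗ[ℚ] ℚ) (u : PowerSeries ℚ) (y : PowerSeries K) :
    coeffwise π (PowerSeries.map (algebraMap ℚ K) u * y) = u * coeffwise π y := by
  ext n
  simp only [coeff_coeffwise, PowerSeries.coeff_mul, PowerSeries.coeff_map, map_sum]
  refine Finset.sum_congr rfl fun p _ => ?_
  rw [← Algebra.smul_def, map_smul, smul_eq_mul]

theorem coeffwise_mul_map (π : K →ₗ[ℚ] ℚ) (u : PowerSeries ℚ) (y : PowerSeries K) :
    coeffwise π (y * PowerSeries.map (algebraMap ℚ K) u) = coeffwise π y * u := by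
  rw [mul_comm, coeffwise_map_mul, mul_comm]

theorem coeffwise_smul_map (π : K →ₗ[ℚ] ℚ) (z : K) (u : PowerSeries ℚ) :
    coeffwise π (z • PowerSeries.map (algebraMap ℚ K) u) = π z • u := by
  ext n
  simp only [coeff_coeffwise, PowerSeries.coeff_smul, PowerSeries.coeff_map, smul_eq_mul]
  rw [mul_comm, ← Algebra.smul_def, map_smul, smul_eq_mul, mul_comm]

theorem coeffwise_map (π : K →ₗ[ℚ] ℚ) (u : PowerSeries ℚ) :
    coeffwise π (PowerSeries.map (algebraMap ℚ K) u) = π 1 • u := by
  have := coeffwise_smul_map π 1 u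
  rwa [one_smul] at this

theorem coeffwise_sum_smul_map {ι : Type*} (s : Finset ι) (π : K →ₗ[ℚ] ℚ) (z : ι → K)
    (u : ι → PowerSeries ℚ) :
    coeffwise π (∑ i ∈ s, z i • PowerSeries.map (algebraMap ℚ K) (u i)) =
      ∑ i ∈ s, π (z i) • u i := by
  rw [map_sum]
  exact Finset.sum_congr rfl fun i _ => coeffwise_smul_map π (z i) (u i)

end Functional

section LinDisj

variable {K : Type*} [Field K] [CharZero K]

/-- Linear disjointness, inhomogeneous form: a rational series which is a `K`-combination of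
rational series is a `ℚ`-combination of them. -/
theorem exists_rat_coeffs_of_eq_sum {ι : Type*} (s : Finset ι) (w : PowerSeries ℚ)
    (u : ι → PowerSeries ℚ) (z : ι → K)
    (h : PowerSeries.map (algebraMap ℚ K) w =
      ∑ i ∈ s, z i • PowerSeries.map (algebraMap ℚ K) (u i)) :
    ∃ r : ι → ℚ, w = ∑ i ∈ s, r i • u i := by
  obtain ⟨π, hπ⟩ := exists_functional_one (K := K)
  refine ⟨fun i => π (z i), ?_⟩
  have := congrArg (coeffwise π) h
  rwa [coeffwise_map, hπ, one_smul, coeffwise_sum_smul_map] at this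

/-- Linear disjointness, homogeneous form with a nonvanishing side condition: if a homogeneous
linear system with rational coefficient series has a solution over `K` whose "`b`-part" is nonzero
then it has a rational solution whose "`b`-part" is nonzero. -/
theorem exists_rat_solution_of_ne_zero {ι κ : Type*} (s : Finset ι) (t : Finset κ)
    (u : ι → PowerSeries ℚ) (v : κ → PowerSeries ℚ) (X : PowerSeries ℚ)
    (z : ι → K) (y : κ → K)
    (hne : ∑ i ∈ s, z i • PowerSeries.map (algebraMap ℚ K) (u i) ≠ 0)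
    (h : (∑ i ∈ s, z i • PowerSeries.map (algebraMap ℚ K) (u i)) *
        PowerSeries.map (algebraMap ℚ K) X =
      ∑ j ∈ t, y j • PowerSeries.map (algebraMap ℚ K) (v j)) :
    ∃ (r : ι → ℚ) (r' : κ → ℚ), (∑ i ∈ s, r i • u i) ≠ 0 ∧
      (∑ i ∈ s, r i • u i) * X = ∑ j ∈ t, r' j • v j := by
  obtain ⟨n, hn⟩ : ∃ n, PowerSeries.coeff n
      (∑ i ∈ s, z i • PowerSeries.map (algebraMap ℚ K) (u i)) ≠ 0 := by
    by_contra hcon
    push Not at hcon
    exact hne (PowerSeries.ext hcon)
  obtain ⟨π, hπ⟩ := exists_functional_ne_zero _ hn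
  refine ⟨fun i => π (z i), fun j => π (y j), ?_, ?_⟩
  · intro h0
    apply hπ
    have := congrArg (PowerSeries.coeff n) h0
    rw [← coeffwise_sum_smul_map, coeff_coeffwise] at this
    simpa using this
  · have := congrArg (coeffwise π) h
    rwa [coeffwise_mul_map, coeffwise_sum_smul_map, coeffwise_sum_smul_map] at this

end LinDisj

end Fermat.Agent.S23.H71
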